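import Fermat.Agent.F4.Kum.Rec1
import Fermat.Agent.F4.Recip.ArtinMap
import Fermat.Agent.F4.Glob.NormDefs

/-!
# F4 / GLOB / KUM: the finite-level core of the existence theorem (`CF-Kum`)

`M = F(x^{1/p})`, `T ⊇ {v ∣ p}`, `p ∣ ord_v x` outside `T`; `s v = rkSym p x v` is the Kummer
character of the Frobenius at `v ∉ T` and `famW T s J = ∏_{v ∉ T} s v ^ count_v J`.

* `famW_relNorm` : `famW` kills the norms of the ideals of `M`;
* `famW_norm_unit` : `famW` kills `(N z)`, `z ∈ Mˣ`;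
* `famW_of_localNorm` : `famW` kills `(f)` if `f / N z ∈ U_v^{(k+1)}` for all `v ∈ T`, where `k`
  is any precision at the Hensel level (`exp (-k) ≤ v (ζ - 1) ^ p`) — uniform in `x`: this is
  the reciprocity law `Rec1W`;
* `rkSym_stab` : if `s v ≠ 1` the prime `v` is inert: every prime `Q ∣ v` is Galois-stable;
* `kum_core` : if `∏_v s v ^ (d v - thetaOrd v f) = 1` factor by factor (norm condition) and `f`
  is a local norm on `T`, then `∏_{v ∈ R} (x / v)_p ^ d v = 1`.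
-/

set_option autoImplicit false
set_option linter.unusedSectionVars false

open NumberField IsDedekindDomain FractionalIdeal Polynomial
open scoped nonZeroDivisors

namespace Fermat.Agent.F4Kum

open Fermat.Agent.S14SI Fermat.Agent.F4Rec Fermat.Agent.F4G
open Fermat.Agent.S14 (InInertia)

section famW

variable {F : Type*} [Field F] [NumberField F]

/-- The value at a prime of `T` is trivial. -/
lemma famW_prime_of_mem (T : Finset (HeightOneSpectrum (𝓞 F)))
    (s : HeightOneSpectrum (𝓞 F) → Fˣ) {v : HeightOneSpectrum (𝓞 F)} (hv : v ∈ T) :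
    famW T s (v.asIdeal : FractionalIdeal (𝓞 F)⁰ F) = 1 := by
  classical
  unfold famW
  rw [finprod_eq_one_of_forall_eq_one]
  intro w
  split_ifs with hw
  · rfl
  · have hne : v ≠ w := fun h => hw (h ▸ hv)
    rw [count_maximal_coprime F w hne, zpow_zero]

lemma famW_one (T : Finset (HeightOneSpectrum (𝓞 F))) (s : HeightOneSpectrum (𝓞 F) → Fˣ) :
    famW T s (1 : FractionalIdeal (𝓞 F)⁰ F) = 1 := by
  classical
  unfold famW
  rw [finprod_eq_one_of_forall_eq_one]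
  intro w
  split_ifs
  · rfl
  · rw [count_one, zpow_zero]

end famW

section kummerArtin

variable {F M : Type} [Field F] [NumberField F] [Field M] [NumberField M] [Algebra F M]
  [IsGalois F M] {p : ℕ} [NeZero p] {x : Fˣ} [IsSplittingField F M (X ^ p - C (x : F))]

theorem rkArtin_top (hprim : (primitiveRoots p F).Nonempty)
    (H : Irreducible (X ^ p - C (x : F) : F[X])) (T : Finset (HeightOneSpectrum (𝓞 F))) :
    rkArtin M hprim H T ⊤ = 1 := by
  unfold rkArtin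
  rw [MulEquiv.map_eq_one_iff]
  apply Subtype.ext
  show famW T (rkSym p x) ((⊤ : Ideal (𝓞 F)) : FractionalIdeal (𝓞 F)⁰ F) = 1
  rw [coeIdeal_top, famW_one]

theorem rkArtin_pow (hprim : (primitiveRoots p F).Nonempty)
    (H : Irreducible (X ^ p - C (x : F) : F[X])) (T : Finset (HeightOneSpectrum (𝓞 F)))
    {I : Ideal (𝓞 F)} (hI : I ≠ ⊥) (n : ℕ) :
    rkArtin M hprim H T (I ^ n) = rkArtin M hprim H T I ^ n := by
  induction n with
  | zero => rw [pow_zero, pow_zero, Ideal.one_eq_top, rkArtin_top]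
  | succ n ih => rw [pow_succ, rkArtin_mul hprim H T (pow_ne_zero n hI) hI, ih, pow_succ]

/-- The Frobenius property of `rkArtin` at the primes outside `T`. -/
theorem rkArtin_frob_of_notMem (hp : p.Prime) {ζ : F} (hζ : IsPrimitiveRoot ζ p)
    (hprim : (primitiveRoots p F).Nonempty) (H : Irreducible (X ^ p - C (x : F) : F[X]))
    {α : M} (hα : α ^ p = algebraMap F M (x : F))
    {T : Finset (HeightOneSpectrum (𝓞 F))} (hT : ContainsPrimesAbove F p T)
    (hx : ∀ v ∉ T, (p : ℤ) ∣ thetaOrd v x)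
    (Q : Ideal (𝓞 M)) (hQ : Q.IsPrime) (hQ0 : Q ≠ ⊥)
    (hQT : ∀ v ∈ T, Q.under (𝓞 F) ≠ v.asIdeal) :
    IsFrobRel (rkArtin M hprim H T (Q.under (𝓞 F))) Q (Ideal.absNorm (Q.under (𝓞 F))) := by
  have hT0 : T.Nonempty := rk_nonempty hp.two_le hT
  refine rkArtin_frob hp hζ hprim H hα hT hx (k := 1) le_rfl Q hQ hQ0 ?_
  -- `Q ∩ F` is prime to the modulus
  have hu0 : Q.under (𝓞 F) ≠ ⊥ := Ideal.under_ne_bot (𝓞 F) hQ0
  have hmax : (Q.under (𝓞 F)).IsMaximal := Ideal.IsPrime.isMaximal inferInstance hu0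
  unfold modT
  refine Ideal.sup_prod_eq_top fun v hv => ?_
  rw [pow_one]
  by_contra hne
  have h1 : Q.under (𝓞 F) = Q.under (𝓞 F) ⊔ v.asIdeal := hmax.eq_of_le hne le_sup_left
  have h2 : v.asIdeal ≤ Q.under (𝓞 F) := h1 ▸ le_sup_right
  exact hQT v hv (v.isMaximal.eq_of_le hmax.ne_top h2).symm

/-- `famW` kills the norm of a prime of `M`. -/
theorem famW_relNorm_prime (hp : p.Prime) {ζ : F} (hζ : IsPrimitiveRoot ζ p)
    (hprim : (primitiveRoots p F).Nonempty) (H : Irreducible (X ^ p - C (x : F) : F[X]))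
    {α : M} (hα : α ^ p = algebraMap F M (x : F))
    {T : Finset (HeightOneSpectrum (𝓞 F))} (hT : ContainsPrimesAbove F p T)
    (hx : ∀ v ∉ T, (p : ℤ) ∣ thetaOrd v x)
    (Q : Ideal (𝓞 M)) (hQ : Q.IsPrime) (hQ0 : Q ≠ ⊥) :
    famW T (rkSym p x) ((Ideal.relNorm (𝓞 F) Q : Ideal (𝓞 F)) : FractionalIdeal (𝓞 F)⁰ F) = 1 := by
  have hP : (Q.under (𝓞 F)).IsPrime := inferInstance
  have hP0 : Q.under (𝓞 F) ≠ ⊥ := Ideal.under_ne_bot (𝓞 F) hQ0
  obtain ⟨s, hs⟩ := Ideal.exists_relNorm_eq_pow_of_isPrime Q (Q.under (𝓞 F))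
  by_cases hQT : ∃ v ∈ T, Q.under (𝓞 F) = v.asIdeal
  · obtain ⟨v, hv, hQv⟩ := hQT
    rw [hs, hQv, coeIdeal_pow, famW_pow, famW_prime_of_mem T _ hv, one_pow]
  · push Not at hQT
    apply rkArtin_eq_one (M := M) hprim H T
    have h1 : Ideal.absNorm Q = Ideal.absNorm (Q.under (𝓞 F)) ^ s := by
      rw [← Ideal.absNorm_relNorm (R := 𝓞 F), hs, map_pow]
    rw [hs, rkArtin_pow hprim H T hP0]
    have hU : UnramAt F Q :=
      rk_unramOutside hp hζ hprim H hα hT hx Q hQ hQ0 hQT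
    apply hU
    have h2 := ac_frob_pow (rkArtin_frob_of_notMem hp hζ hprim H hα hT hx Q hQ hQ0 hQT) s
    rw [← h1, isFrobRel_iff_mem] at h2
    rw [inInertia_iff_mem]
    intro y
    have e : rkArtin M hprim H T (Q.under (𝓞 F)) ^ s • y - y =
        (rkArtin M hprim H T (Q.under (𝓞 F)) ^ s • y - y ^ Ideal.absNorm Q) +
          (y ^ Ideal.absNorm Q - y) := by ring
    rw [e]
    exact Q.add_mem (h2 y) (ac_pow_absNorm_sub_mem Q hQ hQ0 y)

/-- `famW` kills the norms of the nonzero ideals of `M`. -/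
theorem famW_relNorm (hp : p.Prime) {ζ : F} (hζ : IsPrimitiveRoot ζ p)
    (hprim : (primitiveRoots p F).Nonempty) (H : Irreducible (X ^ p - C (x : F) : F[X]))
    {α : M} (hα : α ^ p = algebraMap F M (x : F))
    {T : Finset (HeightOneSpectrum (𝓞 F))} (hT : ContainsPrimesAbove F p T)
    (hx : ∀ v ∉ T, (p : ℤ) ∣ thetaOrd v x)
    (𝔄 : Ideal (𝓞 M)) (h𝔄 : 𝔄 ≠ ⊥) :
    famW T (rkSym p x) ((Ideal.relNorm (𝓞 F) 𝔄 : Ideal (𝓞 F)) : FractionalIdeal (𝓞 F)⁰ F) = 1 := by
  induction 𝔄 using UniqueFactorizationMonoid.induction_on_prime with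
  | h₁ => exact absurd rfl h𝔄
  | h₂ J hJu =>
    have hJ : J = ⊤ := by
      rw [← Ideal.one_eq_top]
      exact isUnit_iff_eq_one.mp hJu
    rw [hJ, Ideal.relNorm_top, coeIdeal_top, famW_one]
  | h₃ J Q hJ0 hQ ih =>
    have hQp : Q.IsPrime := Ideal.isPrime_of_prime hQ
    have hQ0 : Q ≠ ⊥ := hQ.ne_zero
    have h1 := famW_relNorm_prime hp hζ hprim H hα hT hx Q hQp hQ0
    have h2 := ih hJ0
    have hQn : ((Ideal.relNorm (𝓞 F) Q : Ideal (𝓞 F)) : FractionalIdeal (𝓞 F)⁰ F) ≠ 0 := by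
      rw [Ne, coeIdeal_eq_zero, Ideal.relNorm_eq_bot_iff]
      exact hQ0
    have hJn : ((Ideal.relNorm (𝓞 F) J : Ideal (𝓞 F)) : FractionalIdeal (𝓞 F)⁰ F) ≠ 0 := by
      rw [Ne, coeIdeal_eq_zero, Ideal.relNorm_eq_bot_iff]
      exact hJ0
    rw [map_mul, coeIdeal_mul, famW_mul T _ hQn hJn, h1, h2, mul_one]

/-- `famW` kills the principal ideal generated by a norm from `M`. -/
theorem famW_norm_unit (hp : p.Prime) {ζ : F} (hζ : IsPrimitiveRoot ζ p)
    (hprim : (primitiveRoots p F).Nonempty) (H : Irreducible (X ^ p - C (x : F) : F[X]))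
    {α : M} (hα : α ^ p = algebraMap F M (x : F))
    {T : Finset (HeightOneSpectrum (𝓞 F))} (hT : ContainsPrimesAbove F p T)
    (hx : ∀ v ∉ T, (p : ℤ) ∣ thetaOrd v x) (z : Mˣ) :
    famW T (rkSym p x) (spanSingleton (𝓞 F)⁰ (Algebra.norm F (z : M))) = 1 := by
  obtain ⟨a, b, hb, hab⟩ := IsFractionRing.div_surjective (A := 𝓞 M) (z : M)
  have hb0 : b ≠ 0 := nonZeroDivisors.ne_zero hb
  have hbM : algebraMap (𝓞 M) M b ≠ 0 := by
    intro h0
    exact hb0 ((FaithfulSMul.algebraMap_injective (𝓞 M) M) (by rw [h0, map_zero]))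
  have ha0 : a ≠ 0 := by
    rintro rfl
    rw [map_zero, zero_div] at hab
    exact z.ne_zero hab.symm
  have key : ∀ c : 𝓞 M, c ≠ 0 →
      famW T (rkSym p x) (spanSingleton (𝓞 F)⁰ (Algebra.norm F (algebraMap (𝓞 M) M c))) = 1 := by
    intro c hc
    rw [← Algebra.algebraMap_intNorm (A := 𝓞 F) (B := 𝓞 M), ← coeIdeal_span_singleton,
      ← Ideal.relNorm_singleton]
    refine famW_relNorm hp hζ hprim H hα hT hx _ ?_
    rw [Ne, Ideal.span_singleton_eq_bot]
    exact hc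
  have hnb : Algebra.norm F (algebraMap (𝓞 M) M b) ≠ 0 := by
    rw [Ne, Algebra.norm_eq_zero_iff]
    exact hbM
  have e : spanSingleton (𝓞 F)⁰ (Algebra.norm F (z : M)) *
      spanSingleton (𝓞 F)⁰ (Algebra.norm F (algebraMap (𝓞 M) M b)) =
      spanSingleton (𝓞 F)⁰ (Algebra.norm F (algebraMap (𝓞 M) M a)) := by
    rw [spanSingleton_mul_spanSingleton, ← map_mul, ← hab, div_mul_cancel₀ _ hbM]
  have hz0 : spanSingleton (𝓞 F)⁰ (Algebra.norm F (z : M)) ≠ 0 := by
    rw [Ne, spanSingleton_eq_zero_iff, Algebra.norm_eq_zero_iff]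
    exact z.ne_zero
  have h2 := congrArg (famW T (rkSym p x)) e
  rw [famW_mul T _ hz0 (spanSingleton_ne_zero_iff.mpr hnb), key b hb0, key a ha0, mul_one] at h2
  exact h2

/-- **Uniform ray property**: `famW` kills `(f)` if `f` is, up to a norm from `M`, `≡ 1` at the
Hensel level at all primes of `T`. -/
theorem famW_of_localNorm (hR : Rec1W) (hp : p.Prime) (hp2 : p ≠ 2) {ζ : F}
    (hζ : IsPrimitiveRoot ζ p)
    (hprim : (primitiveRoots p F).Nonempty) (H : Irreducible (X ^ p - C (x : F) : F[X]))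
    {α : M} (hα : α ^ p = algebraMap F M (x : F))
    {T : Finset (HeightOneSpectrum (𝓞 F))} (hT : ContainsPrimesAbove F p T)
    (hx : ∀ v ∉ T, (p : ℤ) ∣ thetaOrd v x) (f : Fˣ) (z : Mˣ) (k : ℕ)
    (hk : ∀ v ∈ T, WithZero.exp (-(k : ℤ)) ≤ v.valuation F (ζ - 1) ^ p)
    (hf : ∀ v ∈ T, f / normUnits F M z ∈ oneModSubgroup F v k) :
    famW T (rkSym p x) (spanSingleton (𝓞 F)⁰ (f : F)) = 1 := by
  set u : Fˣ := f / normUnits F M z with hu
  have hloc : ∀ v ∈ T, IsLocalPow F v p ζ (u : F) := by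
    intro v hv
    refine ⟨1, one_ne_zero, ?_⟩
    rw [one_pow, mul_one]
    exact lt_of_lt_of_le (mem_oneModSubgroup.mp (hf v hv)) (hk v hv)
  have h1 := hR p F ζ T x u hp hp2 hζ hT hx hloc
  have h2 := famW_norm_unit hp hζ hprim H hα hT hx z
  have e : spanSingleton (𝓞 F)⁰ (f : F) =
      spanSingleton (𝓞 F)⁰ (u : F) * spanSingleton (𝓞 F)⁰ (Algebra.norm F (z : M)) := by
    rw [spanSingleton_mul_spanSingleton]
    congr 1
    have : f = u * normUnits F M z := by rw [hu, div_mul_cancel]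
    rw [this, Units.val_mul]
    rfl
  have hz0 : spanSingleton (𝓞 F)⁰ (Algebra.norm F (z : M)) ≠ 0 := by
    rw [Ne, spanSingleton_eq_zero_iff, Algebra.norm_eq_zero_iff]
    exact z.ne_zero
  rw [e, famW_mul T _ (spanSingleton_ne_zero_iff.mpr u.ne_zero) hz0, h1, h2, mul_one]

/-- A Frobenius element at `Q` stabilises `Q`. -/
lemma rk_frob_stab {Q : Ideal (𝓞 M)} {n : ℕ} (hn : 1 ≤ n) {τ : M ≃ₐ[F] M}
    (h : IsFrobRel τ Q n) (y : 𝓞 M) (hy : y ∈ Q) : τ • y ∈ Q := by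
  rw [isFrobRel_iff_mem] at h
  have h1 := h y
  have h2 : y ^ n ∈ Q := Ideal.pow_mem_of_mem Q hy n (by omega)
  have e : τ • y = (τ • y - y ^ n) + y ^ n := by ring
  rw [e]
  exact Q.add_mem h1 h2

/-- **Primes with nontrivial symbol are inert**: if `rkSym p x v ≠ 1` (`v ∉ T`), every prime `Q`
of `M` above `v` is stable under `Gal(M/F)`. -/
theorem rkSym_stab (hp : p.Prime) {ζ : F} (hζ : IsPrimitiveRoot ζ p)
    (hprim : (primitiveRoots p F).Nonempty) (H : Irreducible (X ^ p - C (x : F) : F[X]))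
    {α : M} (hα : α ^ p = algebraMap F M (x : F)) (hfin : Module.finrank F M = p)
    {T : Finset (HeightOneSpectrum (𝓞 F))} (hT : ContainsPrimesAbove F p T)
    (hx : ∀ v ∉ T, (p : ℤ) ∣ thetaOrd v x)
    (v : HeightOneSpectrum (𝓞 F)) (hv : v ∉ T) (hs : rkSym p x v ≠ 1)
    (Q : Ideal (𝓞 M)) (hQ : Q.IsPrime) (hQ0 : Q ≠ ⊥) (hQv : Q.under (𝓞 F) = v.asIdeal)
    (τ : M ≃ₐ[F] M) (y : 𝓞 M) (hy : y ∈ Q) : τ • y ∈ Q := by
  have hQT : ∀ v' ∈ T, Q.under (𝓞 F) ≠ v'.asIdeal := by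
    intro v' hv' h
    have : v = v' := HeightOneSpectrum.ext (hQv.symm.trans h)
    exact hv (this ▸ hv')
  have hfrob := rkArtin_frob_of_notMem hp hζ hprim H hα hT hx Q hQ hQ0 hQT
  set τ₀ := rkArtin M hprim H T (Q.under (𝓞 F)) with hτ₀
  have hτ₀1 : τ₀ ≠ 1 := by
    intro h1
    apply hs
    have h2 := rkArtin_eq_one hprim H T h1
    rw [hQv, famW_prime T _ hv] at h2
    exact h2
  have hN : 1 ≤ Ideal.absNorm (Q.under (𝓞 F)) := by
    rw [Nat.one_le_iff_ne_zero, Ne, Ideal.absNorm_eq_zero_iff, hQv]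
    exact v.ne_bot
  -- `τ₀` generates the Galois group
  have : Fact p.Prime := ⟨hp⟩
  have hfd : FiniteDimensional F M := Module.finite_of_finrank_pos (by rw [hfin]; exact hp.pos)
  have hcard : Nat.card (M ≃ₐ[F] M) = p := by rw [IsGalois.card_aut_eq_finrank, hfin]
  have htop : Subgroup.zpowers τ₀ = ⊤ := zpowers_eq_top_of_prime_card hcard hτ₀1
  have hmem : τ ∈ Submonoid.powers τ₀ := by
    rw [mem_powers_iff_mem_zpowers, htop]
    trivial
  obtain ⟨j, rfl⟩ := hmem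
  show τ₀ ^ j • y ∈ Q
  induction j with
  | zero => simpa using hy
  | succ j ih =>
    rw [pow_succ', mul_smul]
    exact rk_frob_stab hN hfrob _ ih

/-- **CF-Kum**, the finite-level core of the existence theorem.  `f` a local norm from
`M = F(x^{1/p})` on `T` (Hensel level), `d` a divisor supported on `R` outside `T`, `x` a unit on
`R`; if the symbols are trivial on `d + div f` prime by prime (norm condition), then
`∏_{v ∈ R} (x / v)_p ^ d v = 1`. -/
theorem kum_core (hR : Rec1W) (hp : p.Prime) (hp2 : p ≠ 2) {ζ : F} (hζ : IsPrimitiveRoot ζ p)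
    (hprim : (primitiveRoots p F).Nonempty) (H : Irreducible (X ^ p - C (x : F) : F[X]))
    {α : M} (hα : α ^ p = algebraMap F M (x : F))
    {T : Finset (HeightOneSpectrum (𝓞 F))} (hT : ContainsPrimesAbove F p T)
    (hx : ∀ v ∉ T, (p : ℤ) ∣ thetaOrd v x) (f : Fˣ) (z : Mˣ) (k : ℕ)
    (hk : ∀ v ∈ T, WithZero.exp (-(k : ℤ)) ≤ v.valuation F (ζ - 1) ^ p)
    (hf : ∀ v ∈ T, f / normUnits F M z ∈ oneModSubgroup F v k)
    (d : HeightOneSpectrum (𝓞 F) → ℤ) (R : Finset (HeightOneSpectrum (𝓞 F)))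
    (hTR : Disjoint T R) (hsupp : ∀ v, v ∉ T → v ∉ R → d v = 0)
    (hxR : ∀ v ∈ R, thetaOrd v x = 0)
    (hN : ∀ v, v ∉ T → rkSym p x v ^ (d v + thetaOrd v f) = 1) :
    ∏ v ∈ R, powSymb p v (x : F) ^ d v = 1 := by
  classical
  have h1 := famW_of_localNorm hR hp hp2 hζ hprim H hα hT hx f z k hk hf
  rw [famW_spanSingleton, inv_eq_one] at h1
  set g₁ : HeightOneSpectrum (𝓞 F) → Fˣ := fun v => if v ∈ T then 1 else rkSym p x v ^ d v
    with hg₁
  set g₂ : HeightOneSpectrum (𝓞 F) → Fˣ :=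
    fun v => if v ∈ T then 1 else rkSym p x v ^ thetaOrd v f with hg₂
  have hfin₁ : (Function.mulSupport g₁).Finite := by
    refine R.finite_toSet.subset ?_
    intro v hv
    rw [Function.mem_mulSupport] at hv
    by_contra hvR
    apply hv
    simp only [hg₁]
    split_ifs with hvT
    · rfl
    · rw [hsupp v hvT (by simpa using hvR), zpow_zero]
  have hfin₂ : (Function.mulSupport g₂).Finite := by
    refine (finite_setOf_thetaOrd_ne_zero f).subset ?_
    intro v hv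
    rw [Function.mem_mulSupport] at hv
    simp only [Set.mem_ofPred_eq]
    intro h0
    apply hv
    simp only [hg₂]
    split_ifs
    · rfl
    · rw [h0, zpow_zero]
  have hmul : ∀ v, g₁ v * g₂ v = 1 := by
    intro v
    simp only [hg₁, hg₂]
    split_ifs with hvT
    · rw [mul_one]
    · rw [← zpow_add]
      exact hN v hvT
  have h2 : (∏ᶠ v, g₁ v) * (∏ᶠ v, g₂ v) = 1 := by
    rw [← finprod_mul_distrib hfin₁ hfin₂]
    exact finprod_eq_one_of_forall_eq_one hmul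
  have h3 : ∏ᶠ v, g₂ v = 1 := h1
  rw [h3, mul_one] at h2
  rw [← h2, finprod_eq_prod_of_mulSupport_subset (s := R)]
  · refine Finset.prod_congr rfl fun v hv => ?_
    have hvT : v ∉ T := Finset.disjoint_right.mp hTR hv
    simp only [hg₁, if_neg hvT]
    rw [rkSym_eq_of_unit hp hζ (fun h => hvT (hT v h)) (hxR v hv)]
  · intro v hv
    rw [Function.mem_mulSupport] at hv
    by_contra hvR
    apply hv
    simp only [hg₁]
    split_ifs with hvT
    · rfl
    · rw [hsupp v hvT (by simpa using hvR), zpow_zero]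

end kummerArtin

end Fermat.Agent.F4Kum
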