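import Fermat.Agent.F4.Kum.RecInterface

/-!
# F4 / GLOB / KUM, seat RK1: `HenselRefine` (finite-level Newton iteration)

`henselRefine : HenselRefine`: if `v (a * y ^ p - 1) < v (ζ - 1) ^ p` for some `y ≠ 0`, then for
every `k` there is `y ≠ 0` with `v (a * y ^ p - 1) < exp (-k)`.

Newton step (`rk1_newton`, for an arbitrary valuation): if `v p = δ ^ (p - 1)`, `δ ≤ 1`, `t ≠ 0`,
`v t < δ ^ p`, then with `w = - t / p` one has `v ((1 + t) * (1 + w) ^ p - 1) < v t`.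
The values of `v.valuation F` are discrete, so `k` steps gain precision `exp (-k)`.
-/

set_option autoImplicit false

open NumberField IsDedekindDomain Finset

namespace Fermat.Agent.F4Kum

open Fermat.Agent.S14SI

section Abstract

variable {F : Type*} [Field F] {Γ₀ : Type*} [LinearOrderedCommGroupWithZero Γ₀]
  (v : Valuation F Γ₀)

lemma rk1_natCast_le_one (n : ℕ) : v (n : F) ≤ 1 := by
  induction n with
  | zero => simp
  | succ n ih =>
    rw [Nat.cast_succ]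
    exact v.map_add_le ih (by simp)

lemma rk1_geom_le_one {x : F} (hx : v x ≤ 1) (n : ℕ) : v (∑ i ∈ range n, x ^ i) ≤ 1 := by
  refine v.map_sum_le (fun i _ => ?_)
  rw [map_pow]
  exact pow_le_one' hx i

lemma rk1_pow_sub_one_le {x : F} (hx : v x ≤ 1) (n : ℕ) : v (x ^ n - 1) ≤ v (x - 1) := by
  rw [← mul_geom_sum, map_mul]
  calc v (x - 1) * v (∑ i ∈ range n, x ^ i) ≤ v (x - 1) * 1 :=
        mul_le_mul_right (rk1_geom_le_one v hx n) _
    _ = v (x - 1) := mul_one _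

lemma rk1_root_val_one {ζ : F} {p : ℕ} (hp : p ≠ 0) (h : ζ ^ p = 1) : v ζ = 1 := by
  have h1 : v ζ ^ p = 1 := by rw [← map_pow, h, map_one]
  exact (pow_eq_one_iff_left hp).mp h1

lemma rk1_val_pow_sub_one {ζ : F} {p : ℕ} (hp : p.Prime) (hζ : IsPrimitiveRoot ζ p) {k : ℕ}
    (hk0 : 0 < k) (hkp : k < p) : v (ζ ^ k - 1) = v (ζ - 1) := by
  have hζ1 : v ζ = 1 := rk1_root_val_one v hp.ne_zero hζ.pow_eq_one
  refine le_antisymm (rk1_pow_sub_one_le v hζ1.le k) ?_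
  have hcop : k.Coprime p := by
    rw [Nat.coprime_comm]
    exact (Nat.Prime.coprime_iff_not_dvd hp).mpr (Nat.not_dvd_of_pos_of_lt hk0 hkp)
  have hk : IsPrimitiveRoot (ζ ^ k) p := hζ.pow_of_coprime k hcop
  have : NeZero p := ⟨hp.ne_zero⟩
  obtain ⟨j, _, hj⟩ := hk.eq_pow_of_pow_eq_one hζ.pow_eq_one
  have hζk1 : v (ζ ^ k) ≤ 1 := by rw [map_pow, hζ1, one_pow]
  calc v (ζ - 1) = v ((ζ ^ k) ^ j - 1) := by rw [hj]
    _ ≤ v (ζ ^ k - 1) := rk1_pow_sub_one_le v hζk1 j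

lemma rk1_val_prime {ζ : F} {p : ℕ} (hp : p.Prime) (hζ : IsPrimitiveRoot ζ p) :
    v (p : F) = v (ζ - 1) ^ (p - 1) := by
  obtain ⟨n, rfl⟩ : ∃ n, p = n + 1 := ⟨p - 1, (Nat.succ_pred_eq_of_pos hp.pos).symm⟩
  have hprod := hζ.prod_one_sub_pow_eq_order
  have : v ((n + 1 : ℕ) : F) = v (∏ k ∈ range n, (1 - ζ ^ (k + 1))) := by
    rw [hprod]; push_cast; rfl
  rw [this, map_prod, Nat.add_sub_cancel]
  have : ∀ k ∈ range n, v (1 - ζ ^ (k + 1)) = v (ζ - 1) := by
    intro k hk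
    rw [Valuation.map_sub_swap]
    exact rk1_val_pow_sub_one v hp hζ (Nat.succ_pos k) (by simpa using hk)
  rw [prod_congr rfl this, prod_const, card_range]

/-- the binomial remainder -/
lemma rk1_binom (p : ℕ) (hp : p.Prime) (w : F) (hw : v w ≤ 1) :
    v ((w + 1) ^ p - 1 - p * w - w ^ p) ≤ v (p : F) * v w ^ 2 := by
  have h2 : 2 ≤ p := hp.two_le
  have hexp : (w + 1) ^ p - 1 - p * w - w ^ p =
      ∑ m ∈ Ico 2 p, w ^ m * 1 ^ (p - m) * (p.choose m : F) := by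
    rw [add_pow, range_eq_Ico, sum_Ico_succ_top (Nat.zero_le p),
      ← sum_Ico_consecutive _ (Nat.zero_le 2) h2]
    have : ∑ i ∈ Ico 0 2, w ^ i * 1 ^ (p - i) * (p.choose i : F) = 1 + p * w := by
      rw [show Ico 0 2 = {0, 1} from rfl, sum_pair (by norm_num)]
      simp [mul_comm]
    rw [this]
    simp
    ring
  rw [hexp]
  refine v.map_sum_le (fun m hm => ?_)
  rw [mem_Ico] at hm
  obtain ⟨c, hc⟩ := hp.dvd_choose_self (by omega : m ≠ 0) hm.2
  rw [one_pow, mul_one, map_mul, map_pow, hc, Nat.cast_mul, map_mul, mul_comm]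
  have h1 : v w ^ m ≤ v w ^ 2 := pow_le_pow_right_of_le_one' hw hm.1
  have h3 : v (p : F) * v (c : F) ≤ v (p : F) * 1 := mul_le_mul_right (rk1_natCast_le_one v c) _
  rw [mul_one] at h3
  exact mul_le_mul' h3 h1

/-- **Newton step.** -/
lemma rk1_newton (p : ℕ) (hp : p.Prime) (δ : Γ₀) (hδ1 : δ ≤ 1) (hδ : v (p : F) = δ ^ (p - 1))
    (t : F) (ht0 : t ≠ 0) (ht : v t < δ ^ p) :
    v (1 + -t / p) = 1 ∧ v ((1 + t) * (1 + -t / p) ^ p - 1) < v t := by
  have hδ0 : δ ≠ 0 := by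
    rintro rfl
    rw [zero_pow hp.ne_zero] at ht
    exact not_lt_zero ht
  have hvp0 : v (p : F) ≠ 0 := by rw [hδ]; exact pow_ne_zero _ hδ0
  have hp0 : (p : F) ≠ 0 := (Valuation.ne_zero_iff v).mp hvp0
  set w : F := -t / p with hw
  have htw : t = -(p * w) := by rw [hw]; field_simp
  have hvt : v t = v (p : F) * v w := by rw [htw, Valuation.map_neg, map_mul]
  have hvt0 : v t ≠ 0 := (Valuation.ne_zero_iff v).mpr ht0
  have hvw0 : v w ≠ 0 := by
    intro h; rw [hvt, h, mul_zero] at hvt0; exact hvt0 rfl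
  -- `v w < δ`
  have hwδ : v w < δ := by
    have h1 : δ ^ (p - 1) * v w < δ ^ (p - 1) * δ := by
      rw [← hδ, ← hvt, hδ, ← pow_succ, Nat.sub_add_cancel hp.pos]; exact ht
    exact lt_of_mul_lt_mul_left' h1
  have hw1 : v w < 1 := lt_of_lt_of_le hwδ hδ1
  have hz : v (1 + w) = 1 := Valuation.map_one_add_of_lt v hw1
  refine ⟨hz, ?_⟩
  -- decomposition of the new error
  have key : (1 + t) * (1 + w) ^ p - 1 =
      (w ^ p + ((w + 1) ^ p - 1 - p * w - w ^ p)) + t * ((w + 1) ^ p - 1) := by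
    rw [htw]; ring
  rw [key]
  have hvtpos : 0 < v t := zero_lt_iff.mpr hvt0
  -- the three pieces
  have p1 : v (w ^ p) < v t := by
    have hlt : v w ^ (p - 1) < δ ^ (p - 1) :=
      pow_lt_pow_left₀ hwδ zero_le (Nat.sub_ne_zero_of_lt hp.one_lt)
    have e1 : v (w ^ p) = v w ^ (p - 1) * v w := by
      rw [map_pow, ← pow_succ, Nat.sub_add_cancel hp.pos]
    have e2 : v t = δ ^ (p - 1) * v w := by rw [hvt, hδ]
    rw [e1, e2]
    exact mul_lt_mul_of_pos_right hlt (zero_lt_iff.mpr hvw0)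
  have p2 : v ((w + 1) ^ p - 1 - p * w - w ^ p) < v t := by
    refine lt_of_le_of_lt (rk1_binom v p hp w hw1.le) ?_
    rw [pow_two, ← mul_assoc, ← hvt]
    calc v t * v w < v t * 1 := mul_lt_mul_of_pos_left hw1 hvtpos
      _ = v t := mul_one _
  have p3 : v (t * ((w + 1) ^ p - 1)) < v t := by
    rw [map_mul]
    have h1 : v ((w + 1) ^ p - 1) ≤ v ((w + 1) - 1) :=
      rk1_pow_sub_one_le v (by rw [add_comm, hz]) p
    rw [add_sub_cancel_right] at h1
    calc v t * v ((w + 1) ^ p - 1) < v t * 1 :=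
          mul_lt_mul_of_pos_left (lt_of_le_of_lt h1 hw1) hvtpos
      _ = v t := mul_one _
  exact v.map_add_lt (v.map_add_lt p1 p2) p3

end Abstract

/-- discreteness of `ℤᵐ⁰` -/
lemma rk1_discrete {a b : WithZero (Multiplicative ℤ)} {k : ℕ} (hab : a < b)
    (hb : b < WithZero.exp (-(k : ℤ))) : a < WithZero.exp (-((k + 1 : ℕ) : ℤ)) := by
  rcases eq_or_ne a 0 with rfl | ha
  · exact WithZero.exp_pos
  have hb0 : b ≠ 0 := fun h => by rw [h] at hab; exact not_lt_zero hab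
  rw [← WithZero.exp_log ha] at hab ⊢
  rw [← WithZero.exp_log hb0] at hab hb
  rw [WithZero.exp_lt_exp] at hab hb ⊢
  push_cast
  omega

lemma rk1_rearrange {F : Type*} [Field F] (a y z : F) (p : ℕ) :
    a * (y * z) ^ p - 1 = (1 + (a * y ^ p - 1)) * z ^ p - 1 := by
  rw [mul_pow]; ring

/-- **RK1.** -/
theorem henselRefine : HenselRefine := by
  intro p F _ _ ζ a v k hp hζ hloc
  set δ := v.valuation F (ζ - 1) with hδdef
  have hζ1 : v.valuation F ζ = 1 := rk1_root_val_one _ hp.ne_zero hζ.pow_eq_one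
  have hδ1 : δ ≤ 1 := by
    have := (v.valuation F).map_sub_le (x := ζ) (y := 1) (g := 1) hζ1.le (by simp)
    exact this
  have hδ : v.valuation F (p : F) = δ ^ (p - 1) := rk1_val_prime _ hp hζ
  suffices H : ∀ k : ℕ, ∃ y : F, y ≠ 0 ∧ v.valuation F (a * y ^ p - 1) < δ ^ p ∧
      v.valuation F (a * y ^ p - 1) < WithZero.exp (-(k : ℤ)) by
    obtain ⟨y, hy0, -, hy⟩ := H k
    exact ⟨y, hy0, hy⟩
  intro k
  induction k with
  | zero =>
    obtain ⟨y, hy0, hy⟩ := hloc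
    refine ⟨y, hy0, hy, lt_of_lt_of_le hy ?_⟩
    simp only [CharP.cast_eq_zero, neg_zero, WithZero.exp_zero]
    exact pow_le_one' hδ1 p
  | succ k ih =>
    obtain ⟨y, hy0, hy1, hy2⟩ := ih
    rcases eq_or_ne (a * y ^ p - 1) 0 with h0 | h0
    · refine ⟨y, hy0, hy1, ?_⟩
      rw [h0, map_zero]
      exact WithZero.exp_pos
    · obtain ⟨hz, hlt⟩ := rk1_newton (v.valuation F) p hp δ hδ1 hδ (a * y ^ p - 1) h0 hy1
      have hz0 : (1 + -(a * y ^ p - 1) / (p : F)) ≠ 0 := by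
        intro h; rw [h, map_zero] at hz; exact zero_ne_one hz
      refine ⟨y * (1 + -(a * y ^ p - 1) / (p : F)), mul_ne_zero hy0 hz0, ?_, ?_⟩
      · rw [rk1_rearrange]
        exact lt_trans hlt hy1
      · rw [rk1_rearrange]
        exact rk1_discrete hlt hy2

end Fermat.Agent.F4Kum
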