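import Fermat.Agent.F4.Kum.RecInterface
import Fermat.Agent.F4.Glob.Approx

/-!
# F4 / GLOB / KUM, seat RK2: `RayApprox` (helper86)

`rayApprox : RayApprox`: an element `a ∈ Fˣ` which is, at every `v ∈ T`, a `p`-th power to precision
`k` is, up to a global `p`-th power, a quotient `n / d` of nonzero integers
`n, d ≡ 1 mod ∏_{v ∈ T} v ^ k`.

Proof: weak approximation (`F4G.exists_approx`) gives `z` with `b = a * z ^ p ∈ U_v^{(k+1)}` for
all `v ∈ T`.  Write `b = n₀ / d₀`; the Chinese remainder theorem gives an integer `d` with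
`d ≡ 1 mod v ^ (k + 1)` for `v ∈ T` and `ord_w d ≥ ord_w d₀` at the primes `w ∉ T` dividing `d₀`.
Then `n = d * b` is an integer and `n ≡ 1 mod v ^ (k + 1)` for `v ∈ T`.
-/

set_option autoImplicit false

open NumberField IsDedekindDomain

namespace Fermat.Agent.F4Kum

open Fermat.Agent.S14SI Fermat.Agent.F4G

variable {F : Type*} [Field F] [NumberField F]

/-- An integer which lies in `v ^ k` for all `v ∈ T` lies in `∏_{v ∈ T} v ^ k`. -/
lemma rk2_mem_prod (T : Finset (HeightOneSpectrum (𝓞 F))) (k : ℕ) {x : 𝓞 F}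
    (h : ∀ v ∈ T, x ∈ v.asIdeal ^ k) : x ∈ ∏ v ∈ T, v.asIdeal ^ k := by
  have h1 := IsDedekindDomain.HeightOneSpectrum.inf_pow_eq_prod T (fun _ => k) id
    (fun _ _ _ _ h => h)
  simp only [id] at h1
  rw [← h1, Finset.inf_eq_iInf, Submodule.mem_iInf]
  intro v
  rw [Submodule.mem_iInf]
  exact h v

/-- The valuation of an integer, in terms of `intValuation`. -/
lemma rk2_valuation_coe (v : HeightOneSpectrum (𝓞 F)) (x : 𝓞 F) :
    v.valuation F (x : F) = v.intValuation x := by
  rw [← HeightOneSpectrum.valuation_of_algebraMap (K := F)]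

/-- **The integral part of RK2**: an element `b ∈ Fˣ` which is `≡ 1` to precision `k` at all
`v ∈ T` is a quotient of integers `n, d ≡ 1 mod v ^ (k + 1)` (`v ∈ T`). -/
theorem rk2_exists_num_den (T : Finset (HeightOneSpectrum (𝓞 F))) (hT : T.Nonempty) (k : ℕ)
    (b : Fˣ) (hb : ∀ v ∈ T, b ∈ oneModSubgroup F v k) :
    ∃ n d : 𝓞 F, n ≠ 0 ∧ d ≠ 0 ∧ (∀ v ∈ T, n - 1 ∈ v.asIdeal ^ (k + 1)) ∧
      (∀ v ∈ T, d - 1 ∈ v.asIdeal ^ (k + 1)) ∧ (b : F) = (n : F) / (d : F) := by
  classical
  obtain ⟨n₀, d₀, hd₀, hbd⟩ := IsFractionRing.div_surjective (A := 𝓞 F) (b : F)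
  have hd₀0 : d₀ ≠ 0 := nonZeroDivisors.ne_zero hd₀
  have hd₀F : (d₀ : F) ≠ 0 := by
    simpa using (RingOfIntegers.coe_ne_zero_iff (K := F)).mpr hd₀0
  have hbd' : (b : F) = (n₀ : F) / (d₀ : F) := hbd.symm
  -- the primes dividing `d₀`
  have hfin : {w : HeightOneSpectrum (𝓞 F) | w.asIdeal ∣ Ideal.span {d₀}}.Finite :=
    Ideal.finite_factors (by simpa using hd₀0)
  set P : Finset (HeightOneSpectrum (𝓞 F)) := hfin.toFinset with hP
  have hPmem : ∀ w : HeightOneSpectrum (𝓞 F), w ∉ P → w.intValuation d₀ = 1 := by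
    intro w hw
    refine le_antisymm (w.intValuation_le_one d₀) ?_
    by_contra hlt
    apply hw
    rw [hP, Set.Finite.mem_toFinset]
    exact (w.intValuation_lt_one_iff_dvd d₀).mp (not_le.mp hlt)
  -- the exponents
  set e : HeightOneSpectrum (𝓞 F) → ℕ := fun w =>
    if w ∈ T then k + 1 else (WithZero.log (w.intValuation d₀)).natAbs with he
  have hexp : ∀ w : HeightOneSpectrum (𝓞 F), w ∉ T →
      WithZero.exp (-(e w : ℤ)) = w.intValuation d₀ := by
    intro w hw
    have h0 : w.intValuation d₀ ≠ 0 := w.intValuation_ne_zero d₀ hd₀0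
    have hle : w.intValuation d₀ ≤ 1 := w.intValuation_le_one d₀
    have hlog : WithZero.log (w.intValuation d₀) ≤ 0 := by
      rw [← WithZero.exp_log h0, ← WithZero.exp_zero, WithZero.exp_le_exp] at hle
      exact hle
    conv_rhs => rw [← WithZero.exp_log h0]
    congr 1
    simp only [he, if_neg hw]
    omega
  obtain ⟨d, hd⟩ := exists_int_approx (T ∪ P) (fun w => if w ∈ T then 1 else 0) e
  have hdT : ∀ v ∈ T, v.intValuation (d - 1) ≤ WithZero.exp (-((k + 1 : ℕ) : ℤ)) := by
    intro v hv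
    have := hd v (Finset.mem_union_left _ hv)
    simpa only [if_pos hv, he] using this
  have hdP : ∀ w : HeightOneSpectrum (𝓞 F), w ∉ T → w.intValuation d ≤ w.intValuation d₀ := by
    intro w hw
    by_cases hwP : w ∈ P
    · have := hd w (Finset.mem_union_right _ hwP)
      rw [if_neg hw, sub_zero, hexp w hw] at this
      exact this
    · rw [hPmem w hwP]
      exact w.intValuation_le_one d
  obtain ⟨v₀, hv₀⟩ := hT
  have hlt1 : WithZero.exp (-((k + 1 : ℕ) : ℤ)) < (1 : WithZero (Multiplicative ℤ)) := by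
    rw [← WithZero.exp_zero]
    exact WithZero.exp_lt_exp.mpr (by push_cast; omega)
  have hltk : WithZero.exp (-((k + 1 : ℕ) : ℤ)) < WithZero.exp (-(k : ℤ)) :=
    WithZero.exp_lt_exp.mpr (by push_cast; omega)
  have hd0 : d ≠ 0 := by
    rintro rfl
    have := hdT v₀ hv₀
    rw [zero_sub, Valuation.map_neg, Valuation.map_one] at this
    exact absurd this (not_le.mpr hlt1)
  have hdF : (d : F) ≠ 0 := by
    simpa using (RingOfIntegers.coe_ne_zero_iff (K := F)).mpr hd0
  -- `d * b` is integral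
  have hint : ∀ w : HeightOneSpectrum (𝓞 F), w.valuation F ((d : F) * (b : F)) ≤ 1 := by
    intro w
    by_cases hw : w ∈ T
    · rw [map_mul, valuation_eq_one_of_mem_oneModSubgroup (hb w hw), mul_one]
      exact w.valuation_le_one d
    · rw [hbd', map_mul, map_div₀, rk2_valuation_coe, rk2_valuation_coe, rk2_valuation_coe]
      have h0 : w.intValuation d₀ ≠ 0 := w.intValuation_ne_zero d₀ hd₀0
      rw [mul_div_assoc', div_le_iff₀ (zero_lt_iff.mpr h0), one_mul]
      calc w.intValuation d * w.intValuation n₀ ≤ w.intValuation d₀ * 1 :=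
            mul_le_mul' (hdP w hw) (w.intValuation_le_one n₀)
        _ = w.intValuation d₀ := mul_one _
  obtain ⟨n, hn⟩ := HeightOneSpectrum.mem_integers_of_valuation_le_one F _ hint
  have hn' : (n : F) = (d : F) * (b : F) := hn
  have hn0 : n ≠ 0 := by
    rintro rfl
    have : (d : F) * (b : F) = 0 := by rw [← hn']; rfl
    exact mul_ne_zero hdF b.ne_zero this
  refine ⟨n, d, hn0, hd0, ?_, ?_, ?_⟩
  · intro v hv
    rw [← v.intValuation_le_pow_iff_mem, ← rk2_valuation_coe]
    have e1 : (((n - 1 : 𝓞 F)) : F) = (d : F) * ((b : F) - 1) + ((d : F) - 1) := by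
      have : (((n - 1 : 𝓞 F)) : F) = (n : F) - 1 := rfl
      rw [this, hn']
      ring
    rw [e1]
    refine (Valuation.map_add_le_max' _ _ _).trans (max_le ?_ ?_)
    · show v.valuation F ((d : F) * ((b : F) - 1)) ≤ _
      rw [map_mul]
      have h1 : v.valuation F ((b : F) - 1) ≤ WithZero.exp (-((k + 1 : ℕ) : ℤ)) := by
        have h2 := hb v hv
        rw [mem_oneModSubgroup] at h2
        by_cases hx : v.valuation F ((b : F) - 1) = 0
        · rw [hx]; exact zero_le
        · rw [← WithZero.log_lt_iff_lt_exp hx] at h2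
          rw [← WithZero.log_le_iff_le_exp hx]
          push_cast
          omega
      calc v.valuation F (d : F) * v.valuation F ((b : F) - 1)
          ≤ 1 * WithZero.exp (-((k + 1 : ℕ) : ℤ)) := mul_le_mul' (v.valuation_le_one d) h1
        _ = _ := one_mul _
    · show v.valuation F ((d : F) - 1) ≤ _
      have : ((d : F) - 1) = (((d - 1 : 𝓞 F)) : F) := rfl
      rw [this, rk2_valuation_coe]
      exact hdT v hv
  · intro v hv
    rw [← v.intValuation_le_pow_iff_mem]
    exact hdT v hv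
  · rw [hn']
    field_simp

/-- **RK2 (approximation)**. -/
theorem rayApprox : RayApprox := by
  intro F _ _ T k p a hT hloc
  classical
  choose! y hy0 hy using hloc
  set yu : HeightOneSpectrum (𝓞 F) → Fˣ := fun v =>
    if h : v ∈ T then Units.mk0 (y v) (hy0 v h) else 1 with hyu
  obtain ⟨z, hz⟩ := exists_approx T yu k
  have hb : ∀ v ∈ T, a * z ^ p ∈ oneModSubgroup F v k := by
    intro v hv
    have h1 : a * yu v ^ p ∈ oneModSubgroup F v k := by
      rw [mem_oneModSubgroup]
      have : ((a * yu v ^ p : Fˣ) : F) = (a : F) * y v ^ p := by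
        simp only [hyu, dif_pos hv, Units.val_mul, Units.val_pow_eq_pow_val, Units.val_mk0]
      rw [this]
      exact hy v hv
    have h2 : (z / yu v) ^ p ∈ oneModSubgroup F v k := Subgroup.pow_mem _ (hz v hv) p
    have h3 : a * z ^ p = (a * yu v ^ p) * (z / yu v) ^ p := by
      rw [div_pow]
      rw [mul_assoc, mul_div_cancel]
    rw [h3]
    exact Subgroup.mul_mem _ h1 h2
  obtain ⟨n, d, hn0, hd0, hn, hd, hnd⟩ := rk2_exists_num_den T hT k (a * z ^ p) hb
  refine ⟨z, n, d, hn0, hd0, ?_, ?_, ?_⟩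
  · exact rk2_mem_prod T k (fun v hv => Ideal.pow_le_pow_right (Nat.le_succ k) (hn v hv))
  · exact rk2_mem_prod T k (fun v hv => Ideal.pow_le_pow_right (Nat.le_succ k) (hd v hv))
  · rw [← hnd]
    simp only [Units.val_mul, Units.val_pow_eq_pow_val]

end Fermat.Agent.F4Kum
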