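import Fermat.Agent.F4.Kum.RecArtin

/-!
# F4 / GLOB / KUM, work package RK: `Rec1` from Artin reciprocity in ray form

`rec1_of : F4Rec.ArtinRay → HenselRefine → RayApprox → Rec1`.

Let `T ⊇ {v ∣ p}`, `x` of order divisible by `p` outside `T`, `a` a local `p`-th power on `T`.
If `x` is a `p`-th power all symbols are trivial.  Otherwise `M = F(x^{1/p})` is cyclic of degree
`p`, unramified outside `T`, and `I ↦ rkArtin I` (Kummer character `∏_{v ∉ T} s v ^ count_v I`) is
an Artin map; `ArtinRay` gives `k` such that it kills `(n)`, `n ≡ 1 mod ∏_{v ∈ T} v ^ k`.  By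
`HenselRefine` and `RayApprox`, `a z ^ p = n / d` with `n, d ≡ 1`, hence the Kummer character of
the Artin symbol of `(a)` is trivial, which is the claim.
-/

set_option autoImplicit false

open NumberField IsDedekindDomain FractionalIdeal Polynomial
open scoped nonZeroDivisors

namespace Fermat.Agent.F4Kum

open Fermat.Agent.S14SI Fermat.Agent.F4Rec

/-- If `x` is a `p`-th power, the symbols `rkSym p x v` are trivial outside `p`. -/
lemma rkSym_eq_one_of_pow {F : Type} [Field F] [NumberField F] {p : ℕ} (hp : p.Prime) {ζ : F}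
    (hζ : IsPrimitiveRoot ζ p) {x : Fˣ} {b : F} (hb : b ^ p = (x : F))
    {v : HeightOneSpectrum (𝓞 F)} (hv : (p : 𝓞 F) ∉ v.asIdeal) : rkSym p x v = 1 := by
  by_cases h : ∃ y : Fˣ, v.valuation F ((x : F) * (y : F) ^ p) = 1
  · obtain ⟨y, hy, hs⟩ := rkSym_spec h
    rw [hs, ← hb, ← mul_pow]
    have hby : v.valuation F (b * (y : F)) = 1 := by
      rw [← hb, ← mul_pow, map_pow] at hy
      exact (pow_eq_one_iff_left hp.ne_zero).mp hy
    rw [powSymb_pow_nat v hp hζ hv hby, powSymb_pow]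
  · unfold rkSym
    rw [dif_neg h]

/-- **Reciprocity in `famW` form** (no unit condition on `x`): if `p ∣ ord_v x` outside
`T ⊇ {v ∣ p}` and `a` is a local `p`-th power on `T`, the Kummer character of the Artin symbol of
`(a)` in `F(x^{1/p})/F` is trivial: `∏_{v ∉ T} s_v ^ count_v (a) = 1`. -/
def Rec1W : Prop :=
  ∀ (p : ℕ) (F : Type) [Field F] [NumberField F] (ζ : F)
    (T : Finset (HeightOneSpectrum (𝓞 F))) (x a : Fˣ),
    p.Prime → p ≠ 2 → IsPrimitiveRoot ζ p → ContainsPrimesAbove F p T →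
    (∀ v ∉ T, (p : ℤ) ∣ thetaOrd v x) →
    (∀ v ∈ T, IsLocalPow F v p ζ (a : F)) →
    famW T (rkSym p x) (spanSingleton (𝓞 F)⁰ (a : F)) = 1

/-- **WP RK, `famW` form**. -/
theorem rec1W_of (hA : ArtinRay) (hH : HenselRefine) (hR : RayApprox) : Rec1W := by
  intro p F _ _ ζ T x a hp hp2 hζ hT hx ha
  classical
  have hNZ : NeZero p := ⟨hp.ne_zero⟩
  by_cases hpow : ∃ b : F, b ^ p = (x : F)
  · -- `x` is a `p`-th power
    obtain ⟨b, hb⟩ := hpow
    unfold famW
    rw [finprod_eq_one_of_forall_eq_one]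
    intro v
    split_ifs with hv
    · rfl
    · rw [rkSym_eq_one_of_pow hp hζ hb (fun h => hv (hT v h)), one_zpow]
  · push Not at hpow
    obtain ⟨M, _, _, _, _, _, α, hfin, hα⟩ := rk_exists_kummer hp hζ hpow
    have hprim : (primitiveRoots p F).Nonempty := ⟨ζ, (mem_primitiveRoots hp.pos).mpr hζ⟩
    have H : Irreducible (X ^ p - C (x : F) : F[X]) :=
      X_pow_sub_C_irreducible_of_prime hp hpow
    have hT0 : T.Nonempty := rk_nonempty hp.two_le hT
    have hU : UnramOutside F M T := rk_unramOutside hp hζ hprim H hα hT hx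
    obtain ⟨k, hk, hArt⟩ := hA p F M T hp hp2 hfin hT0 hU
    have hne : ∀ I : Ideal (𝓞 F), I ⊔ modT T k = ⊤ → I ≠ ⊥ := by
      intro I hI h0
      obtain ⟨v, hv⟩ := hT0
      exact rk_not_le_of_sup_eq_top hk hI hv (h0 ▸ bot_le)
    have hkey := hArt (rkArtin M hprim H T)
      (fun I J hI hJ => rkArtin_mul hprim H T (hne I hI) (hne J hJ))
      (fun Q hQ hQ0 hQT => rkArtin_frob hp hζ hprim H hα hT hx hk Q hQ hQ0 hQT)
    -- approximation
    have h1 : ∀ v ∈ T, ∃ y : F, y ≠ 0 ∧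
        v.valuation F ((a : F) * y ^ p - 1) < WithZero.exp (-(k : ℤ)) :=
      fun v hv => hH p F ζ a v k hp hζ (ha v hv)
    obtain ⟨z, n, d, hn, hd, hn1, hd1, hnd⟩ := hR F T k p a hT0 h1
    have hWn := rkArtin_eq_one hprim H T (hkey n hn hn1)
    have hWd := rkArtin_eq_one hprim H T (hkey d hd hd1)
    rw [coeIdeal_span_singleton] at hWn hWd
    have hdF : algebraMap (𝓞 F) F d ≠ 0 := by
      intro h0
      apply hd
      exact (FaithfulSMul.algebraMap_injective (𝓞 F) F) (by rw [h0, map_zero])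
    have hnd' : (a : F) * (z : F) ^ p = algebraMap (𝓞 F) F n / algebraMap (𝓞 F) F d := hnd
    have e : spanSingleton (𝓞 F)⁰ (a : F) * spanSingleton (𝓞 F)⁰ (z : F) ^ p *
        spanSingleton (𝓞 F)⁰ (algebraMap (𝓞 F) F d) =
        spanSingleton (𝓞 F)⁰ (algebraMap (𝓞 F) F n) := by
      rw [spanSingleton_pow, spanSingleton_mul_spanSingleton, spanSingleton_mul_spanSingleton,
        hnd', div_mul_cancel₀ _ hdF]
    have ha0 : spanSingleton (𝓞 F)⁰ (a : F) ≠ 0 := spanSingleton_ne_zero_iff.mpr a.ne_zero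
    have hz0 : spanSingleton (𝓞 F)⁰ (z : F) ^ p ≠ 0 :=
      pow_ne_zero _ (spanSingleton_ne_zero_iff.mpr z.ne_zero)
    have hd0 : spanSingleton (𝓞 F)⁰ (algebraMap (𝓞 F) F d) ≠ 0 :=
      spanSingleton_ne_zero_iff.mpr hdF
    have h2 := congrArg (famW T (rkSym p x)) e
    rw [famW_mul T _ (mul_ne_zero ha0 hz0) hd0, famW_mul T _ ha0 hz0, famW_pow,
      famW_pow_eq_one T _ (rkSym_pow p x), hWd, hWn, mul_one, mul_one] at h2
    exact h2

/-- **WP RK**: the reciprocity law `Rec1` for the power residue symbol follows from Artin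
reciprocity in ray form. -/
theorem rec1_of (hA : ArtinRay) (hH : HenselRefine) (hR : RayApprox) : Rec1 := by
  intro p F _ _ ζ T x a hp hp2 hζ hT hx hxa ha
  classical
  -- reduction to the family `rkSym`
  have hfac : ∀ v : HeightOneSpectrum (𝓞 F), v ∉ T →
      powSymb p v (x : F) ^ thetaOrd v a = rkSym p x v ^ thetaOrd v a := by
    intro v hv
    have hpv : (p : 𝓞 F) ∉ v.asIdeal := fun h => hv (hT v h)
    by_cases hd : (p : ℤ) ∣ thetaOrd v a
    · obtain ⟨m, hm⟩ := hd
      rw [hm, zpow_mul, zpow_mul, zpow_natCast, zpow_natCast, powSymb_pow, rkSym_pow]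
    · rw [rkSym_eq_of_unit hp hζ hpv (hxa v hv hd)]
  have hred : kumPairing p T (x : F) a =
      (famW T (rkSym p x) (spanSingleton (𝓞 F)⁰ (a : F)))⁻¹ := by
    rw [famW_spanSingleton, inv_inv]
    unfold kumPairing
    refine finprod_congr fun v => ?_
    split_ifs with hv
    · rfl
    · exact hfac v hv
  rw [hred, inv_eq_one]
  exact rec1W_of hA hH hR p F ζ T x a hp hp2 hζ hT hx ha

end Fermat.Agent.F4Kum
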