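import Fermat.Agent.F4.Kum.Final
import Fermat.Agent.F4.Kum.Rec1
import Fermat.Agent.F4.Kum.Hensel
import Fermat.Agent.F4.Kum.RayApprox
import Fermat.Agent.F4.Recip.Main

/-!
# F4 / GLOB / KUM: the reciprocity law `Rec1` and the existence theorem `KumEx`, unconditional

* `rec1 : Rec1` — reciprocity for the `p`-th power residue symbol (ray form), from
  `F4Rec.artinRay` (helper13/helper14), `henselRefine` (helper91), `rayApprox` (helper86);
* `kumEx : KumEx` — the existence theorem for exponent `p` (Kummer case, finite level).
-/

set_option autoImplicit false

namespace Fermat.Agent.F4Kum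

/-- **Reciprocity law in `famW` form**, unconditional. -/
theorem rec1W : Rec1W := rec1W_of Fermat.Agent.F4Rec.artinRay henselRefine rayApprox

/-- **Reciprocity law for the `p`-th power residue symbol**, unconditional. -/
theorem rec1 : Rec1 := rec1_of Fermat.Agent.F4Rec.artinRay henselRefine rayApprox

/-- **Existence theorem for exponent `p`** (Kummer case, finite level), unconditional. -/
theorem kumEx : KumEx := kumEx_of_rec1 rec1

end Fermat.Agent.F4Kum
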