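import Fermat.Agent.F4.Kum.Interface2
import Fermat.Agent.S14.SI.TameNonNorm
import Fermat.Agent.S14.SI.PowMod

/-!
# F4 / GLOB / KUM, seats K6 + K7: approximation lemmas

* `approxNonRes : ApproxNonRes` (K6): by the Chinese remainder theorem there is `b ∈ 𝓞 F`,
  `b ≡ 1` modulo a high power of every `v ∈ T` (hence a local `p`-th power at `v`) and
  `b ≡ u₀ mod v₀`, `u₀` a non-residue at `v₀`.
* `localPowIsPowMod : LocalPowIsPowMod` (K7): at `v ∤ p` a unit which is a local `p`-th power is a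
  `p`-th power residue.
-/

set_option autoImplicit false

open NumberField IsDedekindDomain

namespace Fermat.Agent.F4Kum

open Fermat.Agent.S14SI

/-- `IsPowMod` only depends on the class modulo `v`. -/
lemma ka_isPowMod_congr {F : Type*} [Field F] [NumberField F] {v : HeightOneSpectrum (𝓞 F)}
    {p : ℕ} {a b : F} (h : v.valuation F (a - b) < 1) (hb : IsPowMod F v p b) :
    IsPowMod F v p a := by
  obtain ⟨z, hz, hzb⟩ := hb
  refine ⟨z, hz, ?_⟩
  have e : a - (z : F) ^ p = (a - b) + (b - (z : F) ^ p) := by ring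
  rw [e]
  exact Valuation.map_add_lt _ h hzb

/-- **K7**: at a prime `v ∤ p`, a unit which is a local `p`-th power is a `p`-th power residue. -/
theorem localPowIsPowMod : LocalPowIsPowMod := by
  intro p F _ _ ζ u v hp hζ hv hu hloc
  obtain ⟨y, hy0, hy⟩ := hloc
  rw [valuation_sub_one_eq_one v hζ hp.one_lt hv, one_pow] at hy
  -- `u y^p` is a unit at `v`
  have h1 : v.valuation F (u * y ^ p) = 1 := by
    have e : u * y ^ p = 1 + (u * y ^ p - 1) := by ring
    rw [e, Valuation.map_add_eq_of_lt_left _ (by rw [Valuation.map_one]; exact hy),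
      Valuation.map_one]
  have hyp : v.valuation F y ^ p = 1 := by
    rw [Valuation.map_mul, hu, one_mul, Valuation.map_pow] at h1
    exact h1
  have hy1 : v.valuation F y = 1 := by
    rcases lt_trichotomy (v.valuation F y) 1 with h | h | h
    · exact absurd hyp (ne_of_lt (pow_lt_one₀ zero_le h hp.ne_zero))
    · exact h
    · exact absurd hyp (ne_of_gt (one_lt_pow₀ h hp.ne_zero))
  have hyi : v.valuation F y⁻¹ = 1 := by rw [map_inv₀, hy1, inv_one]
  refine ka_isPowMod_congr ?_ (isPowMod_pow_of_valuation_eq_one p hyi)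
  have e : u - y⁻¹ ^ p = (u * y ^ p - 1) * y⁻¹ ^ p := by
    have hyp0 : y ^ p ≠ 0 := pow_ne_zero _ hy0
    rw [inv_pow, sub_mul, mul_assoc, mul_inv_cancel₀ hyp0, mul_one, one_mul]
  rw [e, Valuation.map_mul, Valuation.map_pow, hyi, one_pow, mul_one]
  exact hy

/-- **K6**: there is `b ∈ Fˣ` which is a local `p`-th power at all primes of a finite set `T`,
and a unit but not a `p`-th power residue at a given prime `v₀ ∉ T`, `v₀ ∤ p`. -/
theorem approxNonRes : ApproxNonRes := by
  intro p F _ _ ζ T v₀ hp hζ hv₀T hv₀p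
  classical
  obtain ⟨u0, hu0, hu0n⟩ := exists_not_isPowMod v₀ hp hζ hv₀p
  have hζ1 : ζ - 1 ≠ 0 := sub_ne_zero.mpr (hζ.ne_one hp.one_lt)
  have hex : ∀ v : HeightOneSpectrum (𝓞 F), ∃ n : ℕ,
      WithZero.exp (-(n : ℤ)) < v.valuation F (ζ - 1) ^ p := by
    intro v
    have hne : v.valuation F (ζ - 1) ^ p ≠ 0 :=
      pow_ne_zero _ ((Valuation.ne_zero_iff _).mpr hζ1)
    refine ⟨(1 - WithZero.log (v.valuation F (ζ - 1) ^ p)).toNat, ?_⟩
    conv_rhs => rw [← WithZero.exp_log hne]
    rw [WithZero.exp_lt_exp]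
    have := Int.self_le_toNat (1 - WithZero.log (v.valuation F (ζ - 1) ^ p))
    omega
  choose e he using hex
  obtain ⟨y, hy⟩ := IsDedekindDomain.exists_forall_sub_mem_ideal
    (s := insert v₀ T) (fun v : HeightOneSpectrum (𝓞 F) => v.asIdeal)
    (fun v => if v = v₀ then 1 else e v) (fun v _ => v.prime)
    (fun v _ w _ hvw h => hvw (HeightOneSpectrum.ext h))
    (fun v => if (v : HeightOneSpectrum (𝓞 F)) = v₀ then u0 else 1)
  -- at `v₀`
  have h0 : y - u0 ∈ v₀.asIdeal := by
    have h := hy v₀ (Finset.mem_insert_self v₀ T)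
    simpa using h
  have h0v : v₀.valuation F ((y : F) - (u0 : F)) < 1 := by
    have : ((y - u0 : 𝓞 F) : F) = (y : F) - (u0 : F) := by push_cast; rfl
    rw [← this]
    exact (v₀.valuation_lt_one_iff_mem (K := F) _).mpr h0
  have hy_notmem : y ∉ v₀.asIdeal := by
    intro hmem
    apply hu0
    have := v₀.asIdeal.sub_mem hmem h0
    simpa using this
  have hy0 : (algebraMap (𝓞 F) F y) ≠ 0 := by
    intro h
    have hy0 : y = 0 := by simpa using h
    rw [hy0] at hy_notmem
    exact hy_notmem v₀.asIdeal.zero_mem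
  refine ⟨Units.mk0 _ hy0, ?_, ?_, ?_⟩
  · intro v hvT
    have hne : v ≠ v₀ := fun h => hv₀T (h ▸ hvT)
    have h := hy v (Finset.mem_insert_of_mem hvT)
    simp only [if_neg hne] at h
    have h2 : v.intValuation (y - 1) ≤ WithZero.exp (-(e v : ℕ) : ℤ) :=
      (v.intValuation_le_pow_iff_mem _ (e v)).mpr h
    refine ⟨1, one_ne_zero, ?_⟩
    rw [Units.val_mk0, one_pow, mul_one]
    have : ((y - 1 : 𝓞 F) : F) = algebraMap (𝓞 F) F y - 1 := by push_cast; rfl
    rw [← this, HeightOneSpectrum.valuation_of_algebraMap]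
    exact lt_of_le_of_lt h2 (he v)
  · rw [Units.val_mk0, HeightOneSpectrum.valuation_of_algebraMap]
    exact (HeightOneSpectrum.intValuation_eq_one_iff).mpr hy_notmem
  · intro hpow
    apply hu0n
    rw [Units.val_mk0] at hpow
    refine ka_isPowMod_congr ?_ hpow
    rw [Valuation.map_sub_swap]
    exact h0v

end Fermat.Agent.F4Kum
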