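import Fermat.Agent.F4.Kum.Level

/-!
# F4 / GLOB / KUM (K5): descent from a level `S` generating the class group to `S \ D`

`descentOrth : Rec1 → ApproxNonRes → LocalPowIsPowMod → DescentOrth`, by induction on `D`.
Removing one prime `v₀` (step): either all relevant units have order divisible by `p` at `v₀`
(nothing to do), or there is `ε₁` of order prime to `p` at `v₀`; then for `b` a local `p`-th power
at `S \ {v₀}` and a non-residue unit at `v₀`, `Rec1` for `S \ {v₀}` shows `⟨ε, b⟩ = ω₁ ^ (k ord ε)`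
with `ω₁ = ⟨ε₁, b⟩ ≠ 1` (otherwise `b ∈ E_S U_S` by `levelOrth` and the key lemma for `S \ {v₀}`
gives a contradiction), and `a` is corrected by a power of `b`.
-/

set_option autoImplicit false

open NumberField IsDedekindDomain

namespace Fermat.Agent.F4Kum

open Fermat.Agent.S14SI

variable {F : Type} [Field F] [NumberField F]

lemma thetaOrd_one (v : HeightOneSpectrum (𝓞 F)) : thetaOrd v (1 : Fˣ) = 0 := by
  rw [thetaOrd_eq_zero_iff, Units.val_one, map_one]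

lemma thetaOrd_zpow (v : HeightOneSpectrum (𝓞 F)) (x : Fˣ) (n : ℤ) :
    thetaOrd v (x ^ n) = n * thetaOrd v x := by
  cases n with
  | ofNat n => simpa using thetaOrd_pow v x n
  | negSucc n =>
    rw [zpow_negSucc, thetaOrd_inv, thetaOrd_pow, Int.negSucc_eq]
    push_cast
    ring

/-- The subgroup of the elements of order divisible by `p` at all primes of `D`. -/
def divSubgroup (p : ℕ) (D : Finset (HeightOneSpectrum (𝓞 F))) : Subgroup Fˣ where
  carrier := {x | ∀ v ∈ D, (p : ℤ) ∣ thetaOrd v x}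
  one_mem' := fun v _ => by
    show (p : ℤ) ∣ thetaOrd v 1
    rw [thetaOrd_one]; exact dvd_zero _
  mul_mem' := fun {x y} hx hy v hv => by
    show (p : ℤ) ∣ thetaOrd v (x * y)
    rw [thetaOrd_mul]; exact dvd_add (hx v hv) (hy v hv)
  inv_mem' := fun {x} hx v hv => by
    show (p : ℤ) ∣ thetaOrd v x⁻¹
    rw [thetaOrd_inv]; exact (dvd_neg).mpr (hx v hv)

lemma mem_divSubgroup {p : ℕ} {D : Finset (HeightOneSpectrum (𝓞 F))} {x : Fˣ} :
    x ∈ divSubgroup p D ↔ ∀ v ∈ D, (p : ℤ) ∣ thetaOrd v x := Iff.rfl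

/-- The pairing as a bihomomorphism on the `S`-units. -/
noncomputable def kumBihom {p : ℕ} {ζ : F} (hp : p.Prime) (hζ : IsPrimitiveRoot ζ p)
    {S : Finset (HeightOneSpectrum (𝓞 F))} (hS : ContainsPrimesAbove F p S) :
    ↥(sUnits F (S : Set (HeightOneSpectrum (𝓞 F)))) →* Fˣ →* Fˣ :=
  MonoidHom.mk' (fun ε => kumPairingHom p S (((ε : Fˣ) : F)))
    (fun x y => by
      refine MonoidHom.ext fun b => ?_
      show kumPairing p S (((x * y : ↥(sUnits F (S : Set (HeightOneSpectrum (𝓞 F))))) : Fˣ) : F) b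
        = kumPairing p S ((x : Fˣ) : F) b * kumPairing p S ((y : Fˣ) : F) b
      rw [Subgroup.coe_mul, Units.val_mul]
      exact kumPairing_mul_left symbMul hp hζ hS x.2 y.2 b)

lemma kumBihom_apply {p : ℕ} {ζ : F} (hp : p.Prime) (hζ : IsPrimitiveRoot ζ p)
    {S : Finset (HeightOneSpectrum (𝓞 F))} (hS : ContainsPrimesAbove F p S)
    (ε : ↥(sUnits F (S : Set (HeightOneSpectrum (𝓞 F))))) (b : Fˣ) :
    kumBihom hp hζ hS ε b = kumPairing p S ((ε : Fˣ) : F) b := rfl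

/-- A character of the `S`-units which is trivial on the elements of a subgroup `K` of order
divisible by `p` at `v₀` is, on `K`, a power of the order at `v₀`. -/
lemma char_eq_zpow {p : ℕ} {S : Finset (HeightOneSpectrum (𝓞 F))}
    (χ : ↥(sUnits F (S : Set (HeightOneSpectrum (𝓞 F)))) →* Fˣ) (K : Subgroup Fˣ)
    (v₀ : HeightOneSpectrum (𝓞 F))
    (hvan : ∀ ε : ↥(sUnits F (S : Set (HeightOneSpectrum (𝓞 F)))), (ε : Fˣ) ∈ K →
      (p : ℤ) ∣ thetaOrd v₀ (ε : Fˣ) → χ ε = 1)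
    (ε₁ : ↥(sUnits F (S : Set (HeightOneSpectrum (𝓞 F))))) (hε₁ : (ε₁ : Fˣ) ∈ K) (k : ℤ)
    (hk : (p : ℤ) ∣ k * thetaOrd v₀ (ε₁ : Fˣ) - 1)
    (ε : ↥(sUnits F (S : Set (HeightOneSpectrum (𝓞 F))))) (hε : (ε : Fˣ) ∈ K) :
    χ ε = χ ε₁ ^ (k * thetaOrd v₀ (ε : Fˣ)) := by
  set θ := thetaOrd v₀ (ε : Fˣ) with hθ
  have h1 : χ (ε * ε₁ ^ (-(k * θ))) = 1 := by
    apply hvan
    · rw [Subgroup.coe_mul, Subgroup.coe_zpow]
      exact K.mul_mem hε (K.zpow_mem hε₁ _)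
    · rw [Subgroup.coe_mul, Subgroup.coe_zpow, thetaOrd_mul, thetaOrd_zpow]
      obtain ⟨c, hc⟩ := hk
      refine ⟨-(θ * c), ?_⟩
      have : k * thetaOrd v₀ (ε₁ : Fˣ) = (p : ℤ) * c + 1 := by linarith
      rw [← hθ]
      calc θ + -(k * θ) * thetaOrd v₀ (ε₁ : Fˣ)
          = θ - θ * (k * thetaOrd v₀ (ε₁ : Fˣ)) := by ring
        _ = θ - θ * ((p : ℤ) * c + 1) := by rw [this]
        _ = (p : ℤ) * -(θ * c) := by ring
  rw [map_mul, map_zpow, zpow_neg, mul_inv_eq_one] at h1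
  exact h1

/-- The subgroup `W_D` of the elements which are local `p`-th powers at the primes of `S \ D` and
of order divisible by `p` at the primes of `D`. -/
def wSub (p : ℕ) (ζ : F) (hζ : IsPrimitiveRoot ζ p) (hp : 1 < p)
    (S D : Finset (HeightOneSpectrum (𝓞 F))) : Subgroup Fˣ where
  carrier := {x | (∀ v ∈ S, v ∉ D → IsLocalPow F v p ζ (x : F)) ∧
    ∀ v ∈ D, (p : ℤ) ∣ thetaOrd v x}
  one_mem' := ⟨fun v _ _ => by simpa using isLocalPow_one v (hζ.ne_one hp),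
    (divSubgroup p D).one_mem⟩
  mul_mem' := fun {x y} hx hy => ⟨fun v hv hvD => by
    simpa using (hx.1 v hv hvD).mul (valuation_sub_one_le_one v hζ (by omega)) (hy.1 v hv hvD),
    (divSubgroup p D).mul_mem hx.2 hy.2⟩
  inv_mem' := fun {x} hx => ⟨fun v hv hvD => by
    simpa using (hx.1 v hv hvD).inv (valuation_sub_one_le_one v hζ (by omega)),
    (divSubgroup p D).inv_mem hx.2⟩

lemma mem_wSub {p : ℕ} {ζ : F} {hζ : IsPrimitiveRoot ζ p} {hp : 1 < p}
    {S D : Finset (HeightOneSpectrum (𝓞 F))} {x : Fˣ} :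
    x ∈ wSub p ζ hζ hp S D ↔ (∀ v ∈ S, v ∉ D → IsLocalPow F v p ζ (x : F)) ∧
      ∀ v ∈ D, (p : ℤ) ∣ thetaOrd v x := Iff.rfl

lemma generatesClassGroup_mono {G G' : Finset (HeightOneSpectrum (𝓞 F))} (h : G ⊆ G')
    (hG : GeneratesClassGroup F G) : GeneratesClassGroup F G' := by
  rw [GeneratesClassGroup, eq_top_iff] at hG ⊢
  exact hG.trans (Subgroup.closure_mono (Set.image_mono (by exact_mod_cast h)))

/-- An element with prescribed order at `v₀ ∉ G` and no other zero or pole outside `G ∪ {v₀}`. -/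
lemma exists_thetaOrd_eq_away {G : Finset (HeightOneSpectrum (𝓞 F))}
    (hgen : GeneratesClassGroup F G) {v₀ : HeightOneSpectrum (𝓞 F)} (hv₀ : v₀ ∉ G) (m : ℤ) :
    ∃ c : Fˣ, thetaOrd v₀ c = m ∧ ∀ v, v ∉ G → v ≠ v₀ → thetaOrd v c = 0 := by
  classical
  have hgen' : Subgroup.closure ((fun v : HeightOneSpectrum (𝓞 F) =>
      ClassGroup.mk0 ⟨v.asIdeal, mem_nonZeroDivisors_of_ne_zero v.ne_bot⟩) ''
        (G : Set (HeightOneSpectrum (𝓞 F)))) = ⊤ := hgen
  obtain ⟨c, hc⟩ := exists_valuation_eq_of_closure_eq_top (K := F) hgen'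
    (Finsupp.single v₀ (-m))
  refine ⟨c, ?_, ?_⟩
  · apply thetaOrd_eq_of_valuation
    rw [hc v₀ (by simpa using hv₀)]
    simp
  · intro v hv hne
    apply thetaOrd_eq_of_valuation
    rw [hc v (by simpa using hv)]
    simp [Ne.symm hne]

/-- The non-vanishing step: `b`, a local `p`-th power at `S \ {v₀}` and a non-residue unit at
`v₀`, is not orthogonal to all `S`-units. -/
lemma not_orthogonal_of_nonRes (hR : Rec1) (hL : LocalPowIsPowMod)
    [DecidableEq (HeightOneSpectrum (𝓞 F))]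
    {p : ℕ} {ζ : F} (hp : p.Prime) (hp2 : p ≠ 2) (hζ : IsPrimitiveRoot ζ p)
    {S : Finset (HeightOneSpectrum (𝓞 F))} (hS : ContainsPrimesAbove F p S)
    (hgen : GeneratesClassGroup F S) {v₀ : HeightOneSpectrum (𝓞 F)} (hv₀S : v₀ ∈ S)
    (hpv₀ : (p : 𝓞 F) ∉ v₀.asIdeal)
    (hG : ∃ G : Finset (HeightOneSpectrum (𝓞 F)), G ⊆ S ∧ v₀ ∉ G ∧ GeneratesClassGroup F G)
    {b : Fˣ} (hbloc : ∀ v ∈ S.erase v₀, IsLocalPow F v p ζ (b : F))
    (hbunit : v₀.valuation F (b : F) = 1) (hbnon : ¬ IsPowMod F v₀ p (b : F))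
    (hbE : ∀ ε : Fˣ, ε ∈ sUnits F (S : Set (HeightOneSpectrum (𝓞 F))) →
      kumPairing p S (ε : F) b = 1) : False := by
  obtain ⟨e, u, heE, hu, hbeu⟩ := levelOrth hR p F ζ S b hp hp2 hζ hS hgen hbE
  obtain ⟨G, hGS, hv₀G, hgenG⟩ := hG
  have hGG' : G ⊆ S.erase v₀ := fun v hv =>
    Finset.mem_erase.mpr ⟨fun h => hv₀G (h ▸ hv), hGS hv⟩
  have hgen' : GeneratesClassGroup F (S.erase v₀) := generatesClassGroup_mono hGG' hgenG
  have hS' : ContainsPrimesAbove F p (S.erase v₀) := fun v hv =>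
    Finset.mem_erase.mpr ⟨fun h => hpv₀ (h ▸ hv), hS v hv⟩
  have hζle : ∀ v : HeightOneSpectrum (𝓞 F), v.valuation F (ζ - 1) ≤ 1 :=
    fun v => valuation_sub_one_le_one v hζ hp.pos
  have he : e = b * u⁻¹ := by rw [hbeu]; group
  -- `e` is a local `p`-th power on `S \ {v₀}`
  have heloc : e ∈ localPowSubgroup F p ζ hζ hp.one_lt (S.erase v₀) := by
    rw [he]
    refine Subgroup.mul_mem _ (fun v hv => hbloc v hv) (Subgroup.inv_mem _ (fun v hv => ?_))
    exact hu v (Finset.mem_of_mem_erase hv)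
  -- the order of `e` at `v₀` is divisible by `p`
  have hediv : (p : ℤ) ∣ thetaOrd v₀ e := by
    rw [he, thetaOrd_mul, thetaOrd_inv, (thetaOrd_eq_zero_iff v₀ b).mpr hbunit, zero_add]
    exact (dvd_neg).mpr (dvd_thetaOrd_of_isLocalPow hζ hp.pos v₀ u (hu v₀ hv₀S))
  obtain ⟨m₀, hm₀⟩ := hediv
  obtain ⟨c, hc0, hc⟩ := exists_thetaOrd_eq_away hgen' (Finset.notMem_erase v₀ S) m₀
  -- `e' = e / c ^ p` is an `S \ {v₀}`-unit and a local `p`-th power there
  have he'E : e * (c ^ p)⁻¹ ∈ sUnits F ((S.erase v₀ : Finset (HeightOneSpectrum (𝓞 F))) :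
      Set (HeightOneSpectrum (𝓞 F))) := by
    rw [mem_sUnits]
    intro v hv
    rw [← thetaOrd_eq_zero_iff, thetaOrd_mul, thetaOrd_inv, thetaOrd_pow]
    by_cases hvv : v = v₀
    · subst hvv
      rw [hm₀, hc0]; ring
    · have hvS : v ∉ S := fun h => hv (by exact_mod_cast Finset.mem_erase.mpr ⟨hvv, h⟩)
      have h1 : thetaOrd v e = 0 := by
        rw [thetaOrd_eq_zero_iff]
        exact (mem_sUnits _ e).mp heE v (by simpa using hvS)
      rw [h1, hc v (fun h => hv (by exact_mod_cast h)) hvv]; ring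
  have he'U : e * (c ^ p)⁻¹ ∈ localPowSubgroup F p ζ hζ hp.one_lt (S.erase v₀) :=
    Subgroup.mul_mem _ heloc (Subgroup.inv_mem _ (pow_mem_localPowSubgroup hζ hp.one_lt _ c))
  obtain ⟨z, -, hz⟩ := inf_le_sUnitsPow hp hp2 hζ hS' hgen' ⟨he'U, he'E⟩
  rw [powMonoidHom_apply] at hz
  have hepow : e = (z * c) ^ p := by
    rw [mul_pow, hz]; group
  -- so `b` is a local `p`-th power at `v₀`
  have hbloc₀ : IsLocalPow F v₀ p ζ (b : F) := by
    have h1 : IsLocalPow F v₀ p ζ ((e : Fˣ) : F) := by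
      rw [hepow]
      exact pow_mem_localPowSubgroup hζ hp.one_lt {v₀} (z * c) v₀ (Finset.mem_singleton_self v₀)
    have h2 := h1.mul (hζle v₀) (hu v₀ hv₀S)
    rw [hbeu, Units.val_mul]
    exact h2
  exact hbnon (hL p F ζ b v₀ hp hζ hpv₀ hbunit hbloc₀)

lemma wSub_mono_insert [DecidableEq (HeightOneSpectrum (𝓞 F))] {p : ℕ} {ζ : F}
    (hζ : IsPrimitiveRoot ζ p) (hp : 1 < p) (S D : Finset (HeightOneSpectrum (𝓞 F)))
    {v₀ : HeightOneSpectrum (𝓞 F)} (hv₀S : v₀ ∈ S) (hv₀D : v₀ ∉ D) :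
    wSub p ζ hζ hp S D ≤ wSub p ζ hζ hp S (insert v₀ D) := by
  intro x hx
  refine ⟨fun v hv hvD => hx.1 v hv (fun h => hvD (Finset.mem_insert_of_mem h)), ?_⟩
  intro v hv
  rcases Finset.mem_insert.mp hv with rfl | hvD
  · exact dvd_thetaOrd_of_isLocalPow hζ (by omega) v x (hx.1 v hv₀S hv₀D)
  · exact hx.2 v hvD

/-- The inductive step of the descent: removal of one prime `v₀`. -/
theorem descent_step (hR : Rec1) (hA : ApproxNonRes) (hL : LocalPowIsPowMod)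
    [DecidableEq (HeightOneSpectrum (𝓞 F))]
    {p : ℕ} {ζ : F} (hp : p.Prime) (hp2 : p ≠ 2) (hζ : IsPrimitiveRoot ζ p)
    {S : Finset (HeightOneSpectrum (𝓞 F))} (hS : ContainsPrimesAbove F p S)
    (hgen : GeneratesClassGroup F S) (D : Finset (HeightOneSpectrum (𝓞 F))) (hDS : D ⊆ S)
    {v₀ : HeightOneSpectrum (𝓞 F)} (hv₀S : v₀ ∈ S) (hv₀D : v₀ ∉ D)
    (hpv₀ : (p : 𝓞 F) ∉ v₀.asIdeal)
    (hG : ∃ G : Finset (HeightOneSpectrum (𝓞 F)), G ⊆ S ∧ v₀ ∉ G ∧ GeneratesClassGroup F G)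
    (IH : ∀ a : Fˣ, (∀ ε : Fˣ, ε ∈ sUnits F (S : Set (HeightOneSpectrum (𝓞 F))) →
        ε ∈ divSubgroup p D → kumPairing p S (ε : F) a = 1) →
      a ∈ sUnits F (S : Set (HeightOneSpectrum (𝓞 F))) ⊔ wSub p ζ hζ hp.one_lt S D)
    (a : Fˣ) (ha : ∀ ε : Fˣ, ε ∈ sUnits F (S : Set (HeightOneSpectrum (𝓞 F))) →
        ε ∈ divSubgroup p (insert v₀ D) → kumPairing p S (ε : F) a = 1) :
    a ∈ sUnits F (S : Set (HeightOneSpectrum (𝓞 F))) ⊔ wSub p ζ hζ hp.one_lt S (insert v₀ D) := by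
  set E : Subgroup Fˣ := sUnits F (S : Set (HeightOneSpectrum (𝓞 F))) with hE
  have hWmono := wSub_mono_insert hζ hp.one_lt S D hv₀S hv₀D
  by_cases hall : ∀ ε : Fˣ, ε ∈ E → ε ∈ divSubgroup p D → (p : ℤ) ∣ thetaOrd v₀ ε
  · -- nothing to do
    refine sup_le_sup_left hWmono _ (IH a fun ε hε hεD => ha ε hε ?_)
    intro v hv
    rcases Finset.mem_insert.mp hv with rfl | hvD
    · exact hall ε hε hεD
    · exact hεD v hvD
  · push Not at hall
    obtain ⟨ε₁, hε₁E, hε₁D, hε₁⟩ := hall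
    -- `k` with `k * ord ε₁ ≡ 1 mod p`
    obtain ⟨k, hk⟩ : ∃ k : ℤ, (p : ℤ) ∣ k * thetaOrd v₀ ε₁ - 1 := by
      have hpp : Prime (p : ℤ) := Nat.prime_iff_prime_int.mp hp
      obtain ⟨u, w, huw⟩ := (hpp.coprime_iff_not_dvd).mpr hε₁
      exact ⟨w, -u, by linarith⟩
    -- the auxiliary element `b`
    obtain ⟨b, hbloc, hbunit, hbnon⟩ :=
      hA p F ζ (S.erase v₀) v₀ hp hζ (Finset.notMem_erase v₀ S) hpv₀
    have hbθ : thetaOrd v₀ b = 0 := (thetaOrd_eq_zero_iff v₀ b).mpr hbunit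
    have hS' : ContainsPrimesAbove F p (S.erase v₀) := fun v hv =>
      Finset.mem_erase.mpr ⟨fun h => hpv₀ (h ▸ hv), hS v hv⟩
    -- `b` is orthogonal to the units of order divisible by `p` at `v₀`
    have hB : ∀ ε : Fˣ, ε ∈ E → (p : ℤ) ∣ thetaOrd v₀ ε → kumPairing p S (ε : F) b = 1 := by
      intro ε hε hdiv
      have hunit : ∀ v, v ∉ S → thetaOrd v ε = 0 := fun v hv => by
        rw [thetaOrd_eq_zero_iff]
        exact (mem_sUnits _ ε).mp hε v (by simpa using hv)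
      have h1 := hR p F ζ (S.erase v₀) ε b hp hp2 hζ hS' ?_ ?_ (fun v hv => hbloc v hv)
      · rw [kumPairing_erase p S (ε : F) b hv₀S, hbθ, zpow_zero, mul_one] at h1
        exact h1
      · intro v hv
        by_cases hvv : v = v₀
        · rw [hvv]; exact hdiv
        · rw [hunit v (fun h => hv (Finset.mem_erase.mpr ⟨hvv, h⟩))]
          exact dvd_zero _
      · intro v hv hnd
        by_cases hvv : v = v₀
        · exact absurd (by rw [hvv, hbθ]; exact dvd_zero _) hnd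
        · exact hunit v (fun h => hv (Finset.mem_erase.mpr ⟨hvv, h⟩))
    -- the characters `⟨·, b⟩` and `⟨·, a⟩`
    set β := kumBihom hp hζ hS with hβ
    let χb : ↥E →* Fˣ := (MonoidHom.eval b).comp β
    let χa : ↥E →* Fˣ := (MonoidHom.eval a).comp β
    have hχb : ∀ ε : ↥E, χb ε = kumPairing p S (((ε : Fˣ)) : F) b := fun _ => rfl
    have hχa : ∀ ε : ↥E, χa ε = kumPairing p S (((ε : Fˣ)) : F) a := fun _ => rfl
    have hC := char_eq_zpow (p := p) χb ⊤ v₀ (fun ε _ hdiv => hB ε ε.2 hdiv) ⟨ε₁, hε₁E⟩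
      (Subgroup.mem_top _) k hk
    have hEq := char_eq_zpow (p := p) χa (divSubgroup p D) v₀
      (fun ε hεD hdiv => ha ε ε.2 (by
        intro v hv
        rcases Finset.mem_insert.mp hv with rfl | hvD
        · exact hdiv
        · exact hεD v hvD)) ⟨ε₁, hε₁E⟩ hε₁D k hk
    rw [hχb] at hC
    rw [hχa] at hEq
    simp only [hχb, hχa] at hC hEq
    set ω₁ : Fˣ := kumPairing p S (ε₁ : F) b with hω₁
    set Λ₁ : Fˣ := kumPairing p S (ε₁ : F) a with hΛ₁
    -- `ω₁ ≠ 1`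
    have hω₁ne : ω₁ ≠ 1 := by
      intro h1
      refine not_orthogonal_of_nonRes hR hL hp hp2 hζ hS hgen hv₀S hpv₀ hG hbloc hbunit hbnon ?_
      intro ε hε
      have := hC ⟨ε, hε⟩ (Subgroup.mem_top _)
      rw [this, h1, one_zpow]
    -- `Λ₁` is a power of `ω₁`
    have hprim : IsPrimitiveRoot ω₁ p := by
      have hord : orderOf ω₁ = p := by
        have : Fact p.Prime := ⟨hp⟩
        exact orderOf_eq_prime (kumPairing_pow p S _ b) hω₁ne
      rw [← hord]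
      exact IsPrimitiveRoot.orderOf ω₁
    have hne0 : NeZero p := ⟨hp.ne_zero⟩
    obtain ⟨m, hm⟩ : ∃ m : ℕ, ω₁ ^ m = Λ₁ := by
      have hprimF : IsPrimitiveRoot ((ω₁ : Fˣ) : F) p := IsPrimitiveRoot.coe_units_iff.mpr hprim
      have hΛ : ((Λ₁ : Fˣ) : F) ^ p = 1 := by
        rw [← Units.val_pow_eq_pow_val, kumPairing_pow, Units.val_one]
      obtain ⟨m, -, hm⟩ := hprimF.eq_pow_of_pow_eq_one hΛ
      exact ⟨m, Units.ext (by rw [Units.val_pow_eq_pow_val]; exact hm)⟩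
    -- correct `a` by `b ^ m`
    have ha' : a * (b ^ m)⁻¹ ∈ E ⊔ wSub p ζ hζ hp.one_lt S D := by
      refine IH _ fun ε hε hεD => ?_
      rw [kumPairing_mul_right, kumPairing_inv_right, kumPairing_pow_right,
        hEq ⟨ε, hε⟩ hεD, hC ⟨ε, hε⟩ (Subgroup.mem_top _), ← hm]
      rw [← zpow_natCast, ← zpow_natCast, ← zpow_mul, ← zpow_mul, mul_comm (m : ℤ),
        mul_inv_cancel]
    have hbW : b ∈ wSub p ζ hζ hp.one_lt S (insert v₀ D) := by
      refine ⟨fun v hv hvD => hbloc v (Finset.mem_erase.mpr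
        ⟨fun h => hvD (h ▸ Finset.mem_insert_self v₀ D), hv⟩), ?_⟩
      intro v hv
      rcases Finset.mem_insert.mp hv with rfl | hvD
      · rw [hbθ]; exact dvd_zero _
      · exact dvd_thetaOrd_of_isLocalPow hζ hp.pos v b (hbloc v (Finset.mem_erase.mpr
          ⟨fun h => hv₀D (h ▸ hvD), hDS hvD⟩))
    have hdec : a = (a * (b ^ m)⁻¹) * b ^ m := by group
    rw [hdec]
    exact Subgroup.mul_mem _ (sup_le_sup_left hWmono _ ha')
      ((le_sup_right : wSub p ζ hζ hp.one_lt S (insert v₀ D) ≤ _) (Subgroup.pow_mem _ hbW m))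

/-- **K5 (descent)**. -/
theorem descentOrth (hR : Rec1) (hA : ApproxNonRes) (hL : LocalPowIsPowMod) : DescentOrth := by
  intro p F _ _ ζ S D a hp hp2 hζ hS hgen hDS hDp hDG ha
  classical
  have key : ∀ D : Finset (HeightOneSpectrum (𝓞 F)), D ⊆ S →
      (∀ v ∈ D, (p : 𝓞 F) ∉ v.asIdeal) →
      (∀ v₀ ∈ D, ∃ G : Finset (HeightOneSpectrum (𝓞 F)), G ⊆ S ∧ v₀ ∉ G ∧
        GeneratesClassGroup F G) →
      ∀ a : Fˣ, (∀ ε : Fˣ, ε ∈ sUnits F (S : Set (HeightOneSpectrum (𝓞 F))) →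
        ε ∈ divSubgroup p D → kumPairing p S (ε : F) a = 1) →
      a ∈ sUnits F (S : Set (HeightOneSpectrum (𝓞 F))) ⊔ wSub p ζ hζ hp.one_lt S D := by
    intro D
    induction D using Finset.induction_on with
    | empty =>
      intro _ _ _ a ha
      obtain ⟨e, u, he, hu, heu⟩ := levelOrth hR p F ζ S a hp hp2 hζ hS hgen
        (fun ε hε => ha ε hε (fun v hv => absurd hv (Finset.notMem_empty v)))
      rw [heu]
      exact Subgroup.mul_mem _ (Subgroup.mem_sup_left he)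
        (Subgroup.mem_sup_right ⟨fun v hv _ => hu v hv,
          fun v hv => absurd hv (Finset.notMem_empty v)⟩)
    | insert v₀ D hv₀D ih =>
      intro hDS hDp hDG a ha
      have hDS' : D ⊆ S := (Finset.subset_insert v₀ D).trans hDS
      have hv₀S : v₀ ∈ S := hDS (Finset.mem_insert_self v₀ D)
      refine descent_step hR hA hL hp hp2 hζ hS hgen D hDS' hv₀S hv₀D
        (hDp v₀ (Finset.mem_insert_self v₀ D)) (hDG v₀ (Finset.mem_insert_self v₀ D)) ?_ a ha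
      exact ih hDS' (fun v hv => hDp v (Finset.mem_insert_of_mem hv))
        (fun v hv => hDG v (Finset.mem_insert_of_mem hv))
  have hmem := key D hDS hDp hDG a (fun ε hε hεD => ha ε hε hεD)
  obtain ⟨e, he, w, hw, hew⟩ := Subgroup.mem_sup.mp hmem
  exact ⟨e, w, he, hw.1, hw.2, hew.symm⟩

end Fermat.Agent.F4Kum
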