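import Mathlib

/-!
# F4 / GLOB / KUM (K3): an abstract duality lemma

`β : A × B → μ_p` bimultiplicative, trivial on `P × B` and on `A × H`, with left kernel exactly `P`,
and `[B : H] ≤ [A : P] < ∞`, `B ^ p ⊆ H`.  Then the right kernel is exactly `H`.
-/

set_option autoImplicit false

namespace Fermat.Agent.F4Kum

open CommGroup

theorem mem_of_orthogonal {A B M : Type*} [CommGroup A] [CommGroup B] [CommRing M] [IsDomain M]
    {p : ℕ} (hp : p.Prime) {ω : M} (hω : IsPrimitiveRoot ω p)
    (P : Subgroup A) (H : Subgroup B) (β : A →* B →* Mˣ)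
    (hH : H.index ≠ 0) (hle : H.index ≤ P.index)
    (hBp : ∀ b : B, b ^ p ∈ H)
    (hβH : ∀ x, ∀ h ∈ H, β x h = 1)
    (hβP : ∀ x ∈ P, ∀ b, β x b = 1)
    (hleft : ∀ x, (∀ b, β x b = 1) → x ∈ P)
    (b : B) (hb : ∀ x, β x b = 1) : b ∈ H := by
  classical
  have : NeZero p := ⟨hp.ne_zero⟩
  have : H.FiniteIndex := ⟨hH⟩
  have : Finite (B ⧸ H) := Subgroup.finite_quotient_of_finiteIndex
  -- enough roots of unity
  have hM : HasEnoughRootsOfUnity M p := ⟨⟨ω, hω⟩, inferInstance⟩
  have hexp : Monoid.exponent (B ⧸ H) ∣ p := by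
    apply Monoid.exponent_dvd_of_forall_pow_eq_one
    intro g
    obtain ⟨b', rfl⟩ := QuotientGroup.mk_surjective g
    rw [← QuotientGroup.mk_pow, QuotientGroup.eq_one_iff]
    exact hBp b'
  have hM' : HasEnoughRootsOfUnity M (Monoid.exponent (B ⧸ H)) :=
    HasEnoughRootsOfUnity.of_dvd M hexp
  -- the induced map `A → Hom(B/H, Mˣ)`
  let Φ : A →* ((B ⧸ H) →* Mˣ) :=
    { toFun := fun x => QuotientGroup.lift H (β x) (fun h hh => hβH x h hh)
      map_one' := by
        apply QuotientGroup.monoidHom_ext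
        refine MonoidHom.ext fun g => ?_
        show (β 1) g = 1
        rw [map_one]
        rfl
      map_mul' := fun x y => by
        apply QuotientGroup.monoidHom_ext
        refine MonoidHom.ext fun g => ?_
        show (β (x * y)) g = (β x) g * (β y) g
        rw [map_mul]
        rfl }
  have hΦ : ∀ (x : A) (b' : B), Φ x (b' : B ⧸ H) = β x b' := fun x b' => rfl
  have hker : Φ.ker = P := by
    ext x
    rw [MonoidHom.mem_ker]
    constructor
    · intro hx
      apply hleft
      intro b'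
      rw [← hΦ x b', hx]
      rfl
    · intro hx
      apply QuotientGroup.monoidHom_ext
      refine MonoidHom.ext fun g => ?_
      show (β x) g = 1
      exact hβP x hx g
  have hcardHom : Nat.card ((B ⧸ H) →* Mˣ) = Nat.card (B ⧸ H) :=
    card_monoidHom_of_hasEnoughRootsOfUnity (B ⧸ H) M
  have hcard0 : Nat.card (B ⧸ H) ≠ 0 := Nat.card_pos.ne'
  have : Finite ((B ⧸ H) →* Mˣ) := Nat.finite_of_card_ne_zero (hcardHom ▸ hcard0)
  have hrange : Nat.card Φ.range = P.index := by
    rw [← hker, Subgroup.index_ker]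
  have htop : Φ.range = ⊤ := by
    apply Subgroup.eq_top_of_le_card
    rw [hrange, hcardHom, ← Subgroup.index_eq_card]
    exact hle
  by_contra hbH
  have hne : ((b : B ⧸ H)) ≠ 1 := by
    rwa [Ne, QuotientGroup.eq_one_iff]
  obtain ⟨φ, hφ⟩ := exists_apply_ne_one_of_hasEnoughRootsOfUnity (B ⧸ H) M hne
  have hmem : φ ∈ Φ.range := by rw [htop]; trivial
  obtain ⟨x, rfl⟩ := hmem
  exact hφ (by rw [hΦ]; exact hb x)

end Fermat.Agent.F4Kum
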