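import Fermat.Agent.F4.Kum.Defs
import Fermat.Agent.S14.SI.Basic

/-!
# F4 / GLOB / KUM: elementary properties of `kumPairing`

`kumPairing p S x a = ∏_{v ∉ S} (x / v)_p ^ thetaOrd v a` is multiplicative in `a`, and (given the
multiplicativity `SymbMul` of the symbol) multiplicative in `x` on the `S`-units, `S ⊇ {v ∣ p}`.
-/

set_option autoImplicit false

open NumberField IsDedekindDomain

namespace Fermat.Agent.F4Kum

open Fermat.Agent.S14SI

variable {F : Type*} [Field F] [NumberField F]

lemma finite_setOf_thetaOrd_ne_zero (a : Fˣ) :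
    {v : HeightOneSpectrum (𝓞 F) | thetaOrd v a ≠ 0}.Finite := by
  refine (finite_setOf_valuation_ne_one' F a.ne_zero).subset ?_
  intro v hv
  simp only [Set.mem_ofPred_eq] at hv ⊢
  rwa [Ne, ← thetaOrd_eq_zero_iff]

open Classical in
lemma mulSupport_kumPairing_subset (p : ℕ) (S : Finset (HeightOneSpectrum (𝓞 F))) (x : F)
    (a : Fˣ) :
    (Function.mulSupport fun v : HeightOneSpectrum (𝓞 F) =>
      if v ∈ S then (1 : Fˣ) else powSymb p v x ^ thetaOrd v a) ⊆
      {v | thetaOrd v a ≠ 0} := by
  intro v hv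
  rw [Function.mem_mulSupport] at hv
  simp only [Set.mem_ofPred_eq]
  intro h0
  apply hv
  split_ifs
  · rfl
  · rw [h0, zpow_zero]

open Classical in
lemma finite_mulSupport_kumPairing (p : ℕ) (S : Finset (HeightOneSpectrum (𝓞 F))) (x : F)
    (a : Fˣ) :
    (Function.mulSupport fun v : HeightOneSpectrum (𝓞 F) =>
      if v ∈ S then (1 : Fˣ) else powSymb p v x ^ thetaOrd v a).Finite :=
  (finite_setOf_thetaOrd_ne_zero a).subset (mulSupport_kumPairing_subset p S x a)

/-- The pairing as a finite product over any finite set `R` disjoint from `S` containing the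
support of `a` outside `S`. -/
lemma kumPairing_eq_prod (p : ℕ) (S R : Finset (HeightOneSpectrum (𝓞 F))) (x : F) (a : Fˣ)
    (hdisj : Disjoint S R) (hsupp : ∀ v, v ∉ S → v ∉ R → thetaOrd v a = 0) :
    kumPairing p S x a = ∏ v ∈ R, powSymb p v x ^ thetaOrd v a := by
  classical
  unfold kumPairing
  rw [finprod_eq_prod_of_mulSupport_subset (s := R)]
  · refine Finset.prod_congr rfl fun v hv => ?_
    rw [if_neg (Finset.disjoint_right.mp hdisj hv)]
  · intro v hv
    rw [Function.mem_mulSupport] at hv
    by_contra hvR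
    apply hv
    split_ifs with hvS
    · rfl
    · rw [hsupp v hvS (by simpa using hvR), zpow_zero]

lemma kumPairing_mul_right (p : ℕ) (S : Finset (HeightOneSpectrum (𝓞 F))) (x : F) (a b : Fˣ) :
    kumPairing p S x (a * b) = kumPairing p S x a * kumPairing p S x b := by
  classical
  unfold kumPairing
  rw [← finprod_mul_distrib (finite_mulSupport_kumPairing p S x a)
    (finite_mulSupport_kumPairing p S x b)]
  refine finprod_congr fun v => ?_
  split_ifs
  · rw [mul_one]
  · rw [thetaOrd_mul, zpow_add]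

lemma kumPairing_one_right (p : ℕ) (S : Finset (HeightOneSpectrum (𝓞 F))) (x : F) :
    kumPairing p S x 1 = 1 := by
  have h := kumPairing_mul_right p S x 1 1
  rw [mul_one] at h
  exact (mul_eq_left.mp h.symm)

/-- The pairing in the second variable, as a homomorphism. -/
noncomputable def kumPairingHom (p : ℕ) (S : Finset (HeightOneSpectrum (𝓞 F))) (x : F) :
    Fˣ →* Fˣ where
  toFun := kumPairing p S x
  map_one' := kumPairing_one_right p S x
  map_mul' := kumPairing_mul_right p S x

@[simp] lemma kumPairingHom_apply (p : ℕ) (S : Finset (HeightOneSpectrum (𝓞 F))) (x : F)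
    (a : Fˣ) : kumPairingHom p S x a = kumPairing p S x a := rfl

lemma kumPairing_inv_right (p : ℕ) (S : Finset (HeightOneSpectrum (𝓞 F))) (x : F) (a : Fˣ) :
    kumPairing p S x a⁻¹ = (kumPairing p S x a)⁻¹ :=
  map_inv (kumPairingHom p S x) a

lemma kumPairing_pow_right (p : ℕ) (S : Finset (HeightOneSpectrum (𝓞 F))) (x : F) (a : Fˣ)
    (n : ℕ) : kumPairing p S x (a ^ n) = kumPairing p S x a ^ n :=
  map_pow (kumPairingHom p S x) a n

lemma kumPairing_zpow_right (p : ℕ) (S : Finset (HeightOneSpectrum (𝓞 F))) (x : F) (a : Fˣ)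
    (n : ℤ) : kumPairing p S x (a ^ n) = kumPairing p S x a ^ n :=
  map_zpow (kumPairingHom p S x) a n

/-- The pairing takes values in the `p`-th roots of unity. -/
lemma kumPairing_pow (p : ℕ) (S : Finset (HeightOneSpectrum (𝓞 F))) (x : F) (a : Fˣ) :
    kumPairing p S x a ^ p = 1 := by
  classical
  unfold kumPairing
  rw [finprod_pow (finite_mulSupport_kumPairing p S x a)]
  rw [finprod_eq_one_of_forall_eq_one]
  intro v
  split_ifs
  · rw [one_pow]
  · rw [← zpow_natCast, ← zpow_mul, mul_comm, zpow_mul, zpow_natCast, powSymb_pow, one_zpow]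

/-- An `S`-unit in the second variable pairs trivially. -/
lemma kumPairing_eq_one_of_mem_sUnits (p : ℕ) (S : Finset (HeightOneSpectrum (𝓞 F))) (x : F)
    {a : Fˣ} (ha : a ∈ sUnits F (S : Set (HeightOneSpectrum (𝓞 F)))) :
    kumPairing p S x a = 1 := by
  classical
  unfold kumPairing
  rw [finprod_eq_one_of_forall_eq_one]
  intro v
  split_ifs with hv
  · rfl
  · have : thetaOrd v a = 0 := by
      rw [thetaOrd_eq_zero_iff]
      exact (mem_sUnits _ a).mp ha v (by simpa using hv)
    rw [this, zpow_zero]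

/-- Removing a prime `v₀` from `S` multiplies the pairing by the factor at `v₀`. -/
lemma kumPairing_erase (p : ℕ) [DecidableEq (HeightOneSpectrum (𝓞 F))]
    (S : Finset (HeightOneSpectrum (𝓞 F))) (x : F) (a : Fˣ)
    {v₀ : HeightOneSpectrum (𝓞 F)} (hv₀ : v₀ ∈ S) :
    kumPairing p (S.erase v₀) x a = kumPairing p S x a * powSymb p v₀ x ^ thetaOrd v₀ a := by
  classical
  -- a finite set containing the support
  set R₀ : Finset (HeightOneSpectrum (𝓞 F)) := (finite_setOf_thetaOrd_ne_zero a).toFinset
    with hR₀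
  set R : Finset (HeightOneSpectrum (𝓞 F)) := R₀.filter (fun v => v ∉ S) with hR
  have hmemR : ∀ v, v ∈ R ↔ thetaOrd v a ≠ 0 ∧ v ∉ S := by
    intro v
    simp [hR, hR₀]
  have hv₀R : v₀ ∉ R := fun h => ((hmemR v₀).mp h).2 hv₀
  have h1 : kumPairing p S x a = ∏ v ∈ R, powSymb p v x ^ thetaOrd v a := by
    apply kumPairing_eq_prod
    · rw [Finset.disjoint_right]
      intro v hv
      exact ((hmemR v).mp hv).2
    · intro v hvS hvR
      by_contra h
      exact hvR ((hmemR v).mpr ⟨h, hvS⟩)
  have h2 : kumPairing p (S.erase v₀) x a =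
      ∏ v ∈ insert v₀ R, powSymb p v x ^ thetaOrd v a := by
    apply kumPairing_eq_prod
    · rw [Finset.disjoint_right]
      intro v hv hvS
      rcases Finset.mem_insert.mp hv with rfl | hvR
      · exact Finset.notMem_erase v S hvS
      · exact ((hmemR v).mp hvR).2 (Finset.mem_of_mem_erase hvS)
    · intro v hvS hvR
      by_contra h
      apply hvR
      rw [Finset.mem_insert]
      by_cases hv : v = v₀
      · exact Or.inl hv
      · right
        refine (hmemR v).mpr ⟨h, fun hS => hvS (Finset.mem_erase.mpr ⟨hv, hS⟩)⟩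
  rw [h2, Finset.prod_insert hv₀R, h1, mul_comm]

/-! ### Multiplicativity in the first variable -/

section Left

variable {p : ℕ} {ζ : F}

/-- Multiplicativity in the first variable for elements which are units outside `S`. -/
lemma kumPairing_mul_left (hM : SymbMul) {F : Type} [Field F] [NumberField F] {ζ : F}
    (hp : p.Prime) (hζ : IsPrimitiveRoot ζ p)
    {S : Finset (HeightOneSpectrum (𝓞 F))} (hS : ContainsPrimesAbove F p S) {x y : Fˣ}
    (hx : x ∈ sUnits F (S : Set (HeightOneSpectrum (𝓞 F))))
    (hy : y ∈ sUnits F (S : Set (HeightOneSpectrum (𝓞 F)))) (a : Fˣ) :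
    kumPairing p S ((x : F) * (y : F)) a = kumPairing p S (x : F) a * kumPairing p S (y : F) a := by
  classical
  unfold kumPairing
  rw [← finprod_mul_distrib (finite_mulSupport_kumPairing p S x a)
    (finite_mulSupport_kumPairing p S y a)]
  refine finprod_congr fun v => ?_
  split_ifs with hv
  · rw [mul_one]
  · have hpv : (p : 𝓞 F) ∉ v.asIdeal := fun h => hv (hS v h)
    rw [hM p F ζ x y v hp hζ hpv ((mem_sUnits _ x).mp hx v (by simpa using hv))
      ((mem_sUnits _ y).mp hy v (by simpa using hv)), mul_zpow]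

end Left

end Fermat.Agent.F4Kum
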