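import Fermat.Agent.F4.Kum.Interface2
import Fermat.Agent.F4.Kum.Pairing
import Fermat.Agent.S14.SI.ClassGen

/-!
# F4 / GLOB / KUM, seat K9: `KumEx` from `DescentOrth` and `GenAvoid`

Given `S ⊇ {v ∣ p}`, `R` disjoint from `S` and exponents `c` on `R`: choose generating sets `G₁`
avoiding `S ∪ R` and `G₂` avoiding `S ∪ R ∪ G₁`, put `S' = S ∪ G₁ ∪ G₂`, `D = S' \ S`, and let `a₀`
have order `c v` at `v ∈ R` and order `0` at the other primes outside `S'` (possible since `S'`
generates the class group).  The hypothesis of `KumEx` says that `a₀` is orthogonal to the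
`S'`-units of order divisible by `p` on `D`; `DescentOrth` gives `a₀ = e * w`, and `w` is the
witness.
-/

set_option autoImplicit false

open NumberField IsDedekindDomain

namespace Fermat.Agent.F4Kum

open Fermat.Agent.S14SI

/-- A generating set stays generating when enlarged. -/
lemma ke_generates_mono {F : Type*} [Field F] [NumberField F]
    {G G' : Finset (HeightOneSpectrum (𝓞 F))} (h : G ⊆ G') (hG : GeneratesClassGroup F G) :
    GeneratesClassGroup F G' := by
  rw [GeneratesClassGroup, eq_top_iff] at hG ⊢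
  refine hG.trans (Subgroup.closure_mono (Set.image_mono ?_))
  exact Finset.coe_subset.mpr h

/-- **K9**: the existence theorem `KumEx` follows from `DescentOrth` and `GenAvoid`. -/
theorem kumEx_of (hD : DescentOrth) (hG : GenAvoid) : KumEx := by
  intro p F _ _ ζ S R c hp hp2 hζ hS hSR hc
  classical
  obtain ⟨G1, hG1d, hG1⟩ := hG F (S ∪ R)
  obtain ⟨G2, hG2d, hG2⟩ := hG F (S ∪ R ∪ G1)
  set S' : Finset (HeightOneSpectrum (𝓞 F)) := S ∪ G1 ∪ G2 with hS'
  set D : Finset (HeightOneSpectrum (𝓞 F)) := S' \ S with hDdef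
  have hSS' : S ⊆ S' := fun v hv => Finset.mem_union_left _ (Finset.mem_union_left _ hv)
  have hG1S' : G1 ⊆ S' := fun v hv => Finset.mem_union_left _ (Finset.mem_union_right _ hv)
  have hG2S' : G2 ⊆ S' := fun v hv => Finset.mem_union_right _ hv
  -- `R` is disjoint from `S'`
  have hRS' : ∀ v ∈ R, v ∉ S' := by
    intro v hvR hvS'
    rcases Finset.mem_union.1 hvS' with h | h
    · rcases Finset.mem_union.1 h with h | h
      · exact Finset.disjoint_left.mp hSR h hvR
      · exact Finset.disjoint_left.mp hG1d (Finset.mem_union_right _ hvR) h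
    · exact Finset.disjoint_left.mp hG2d
        (Finset.mem_union_left _ (Finset.mem_union_right _ hvR)) h
  have hS'R : Disjoint S' R := Finset.disjoint_right.mpr hRS'
  have hgenS' : GeneratesClassGroup F S' := ke_generates_mono hG1S' hG1
  -- the element `a₀`
  have hgen' : Subgroup.closure ((fun v : HeightOneSpectrum (𝓞 F) =>
      ClassGroup.mk0 ⟨v.asIdeal, mem_nonZeroDivisors_of_ne_zero v.ne_bot⟩) ''
        (S' : Set (HeightOneSpectrum (𝓞 F)))) = ⊤ := hgenS'
  obtain ⟨a₀, ha₀⟩ := exists_valuation_eq_of_closure_eq_top (K := F) hgen'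
    (Finsupp.onFinset R (fun v => if v ∈ R then - c v else 0) (by
      intro v hv
      by_contra hvR
      exact hv (if_neg hvR)))
  have ha₀R : ∀ v ∈ R, thetaOrd v a₀ = c v := by
    intro v hv
    apply thetaOrd_eq_of_valuation
    rw [ha₀ v (by simpa using hRS' v hv), Finsupp.onFinset_apply, if_pos hv, neg_neg]
  have ha₀0 : ∀ v, v ∉ S' → v ∉ R → thetaOrd v a₀ = 0 := by
    intro v hv hvR
    apply thetaOrd_eq_of_valuation
    rw [ha₀ v (by simpa using hv), Finsupp.onFinset_apply, if_neg hvR, neg_zero]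
  -- apply the descent
  obtain ⟨e, w, he, hw, hwD, haew⟩ := hD p F ζ S' D a₀ hp hp2 hζ
    (fun v hv => hSS' (hS v hv)) hgenS' Finset.sdiff_subset
    (fun v hv hpv => (Finset.mem_sdiff.1 hv).2 (hS v hpv))
    (by
      intro v₀ hv₀
      obtain ⟨hv₀S', hv₀S⟩ := Finset.mem_sdiff.1 hv₀
      by_cases h2 : v₀ ∈ G2
      · refine ⟨G1, hG1S', ?_, hG1⟩
        intro h1
        exact Finset.disjoint_left.mp hG2d (Finset.mem_union_right _ h1) h2
      · exact ⟨G2, hG2S', h2, hG2⟩)
    (by
      intro ε hε hεD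
      rw [kumPairing_eq_prod p S' R _ a₀ hS'R ha₀0]
      have hunit : ∀ v, v ∉ S' → thetaOrd v ε = 0 := by
        intro v hv
        rw [thetaOrd_eq_zero_iff]
        exact (mem_sUnits _ ε).1 hε v (by simpa using hv)
      have h1 := hc ε (fun v hv => by
          by_cases hvS' : v ∈ S'
          · exact hεD v (Finset.mem_sdiff.2 ⟨hvS', hv⟩)
          · rw [hunit v hvS']
            exact dvd_zero _)
        (fun v hv => hunit v (hRS' v hv))
      rw [← h1]
      exact Finset.prod_congr rfl fun v hv => by rw [ha₀R v hv])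
  have hth : ∀ v, thetaOrd v a₀ = thetaOrd v e + thetaOrd v w := by
    intro v
    rw [haew, thetaOrd_mul]
  have heunit : ∀ v, v ∉ S' → thetaOrd v e = 0 := by
    intro v hv
    rw [thetaOrd_eq_zero_iff]
    exact (mem_sUnits _ e).1 he v (by simpa using hv)
  refine ⟨w, ?_, ?_, ?_⟩
  · intro v hv
    exact hw v (hSS' hv) (fun h => (Finset.mem_sdiff.1 h).2 hv)
  · intro v hv
    have h1 := hth v
    rw [ha₀R v hv, heunit v (hRS' v hv), zero_add] at h1
    rw [← h1, sub_self]
    exact dvd_zero _
  · intro v hvS hvR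
    by_cases hvS' : v ∈ S'
    · exact hwD v (Finset.mem_sdiff.2 ⟨hvS', hvS⟩)
    · have h1 := hth v
      rw [ha₀0 v hvS' hvR, heunit v hvS', zero_add] at h1
      rw [← h1]
      exact dvd_zero _

end Fermat.Agent.F4Kum
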