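import Fermat.Agent.F4.Kum.Defs
import Fermat.Agent.S14.CoprimeRep
import Fermat.Agent.S14.SI.ExistsGoodS

/-!
# F4 / GLOB / KUM, seat K2: generating sets of the class group avoiding a finite set of primes

`genAvoid : GenAvoid`: for every finite set `B` of primes of a number field `F` there is a finite
set `G` of primes, disjoint from `B`, whose classes generate the class group.

Proof: every class contains an integral ideal of norm prime to `m = ∏_{v ∈ B} N v`
(`Fermat.Agent.S14.coprimeRep`); the primes dividing such an ideal are not in `B`, and their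
classes generate the class of the ideal.
-/

set_option autoImplicit false

open NumberField IsDedekindDomain
open scoped nonZeroDivisors

namespace Fermat.Agent.F4Kum

open Fermat.Agent.S14SI

/-- The class of a nonzero ideal `I` of `𝓞 F` lies in the subgroup generated by the classes of
finitely many primes, all of which divide `I`. -/
theorem ga_exists_finset_mk0_mem (F : Type*) [Field F] [NumberField F] (I : Ideal (𝓞 F)) :
    ∀ hI : I ∈ (Ideal (𝓞 F))⁰, ∃ S : Finset (HeightOneSpectrum (𝓞 F)),
      (∀ v ∈ S, I ≤ v.asIdeal) ∧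
      ClassGroup.mk0 ⟨I, hI⟩ ∈
        Subgroup.closure (primeClass F '' (S : Set (HeightOneSpectrum (𝓞 F)))) := by
  classical
  induction I using UniqueFactorizationMonoid.induction_on_prime with
  | h₁ =>
    intro hI
    exact absurd rfl (mem_nonZeroDivisors_iff_ne_zero.mp hI)
  | h₂ J hJ =>
    intro hI
    refine ⟨∅, fun v hv => absurd hv (Finset.notMem_empty v), ?_⟩
    have hJ' : J = ⊤ := by
      rwa [Ideal.isUnit_iff] at hJ
    have : ClassGroup.mk0 ⟨J, hI⟩ = 1 := by
      rw [ClassGroup.mk0_eq_one_iff]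
      subst hJ'
      exact top_isPrincipal
    rw [this]
    exact Subgroup.one_mem _
  | h₃ J P hJ hP ih =>
    intro hI
    have hP0 : P ≠ ⊥ := hP.ne_zero
    have hPprime : P.IsPrime := Ideal.isPrime_of_prime hP
    have hPm : P ∈ (Ideal (𝓞 F))⁰ := mem_nonZeroDivisors_of_ne_zero hP0
    have hJm : J ∈ (Ideal (𝓞 F))⁰ := mem_nonZeroDivisors_of_ne_zero hJ
    obtain ⟨S, hSle, hS⟩ := ih hJm
    let v : HeightOneSpectrum (𝓞 F) := ⟨P, hPprime, hP0⟩
    refine ⟨insert v S, ?_, ?_⟩
    · intro w hw
      rcases Finset.mem_insert.1 hw with rfl | hw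
      · exact (Ideal.mul_le_left : P * J ≤ P)
      · exact (Ideal.mul_le_right : P * J ≤ J).trans (hSle w hw)
    have hmul : ClassGroup.mk0 ⟨P * J, hI⟩ = ClassGroup.mk0 ⟨P, hPm⟩ * ClassGroup.mk0 ⟨J, hJm⟩ := by
      rw [← map_mul]
      rfl
    rw [hmul]
    refine Subgroup.mul_mem _ ?_ ?_
    · refine Subgroup.subset_closure ⟨v, ?_, rfl⟩
      simp
    · refine Subgroup.closure_mono ?_ hS
      exact Set.image_mono (by simp)

/-- **K2**: for every finite set `B` of primes there is a finite set of primes disjoint from `B`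
whose classes generate the class group. -/
theorem genAvoid : GenAvoid := by
  intro F _ _ B
  classical
  set m : ℕ := ∏ v ∈ B, Ideal.absNorm v.asIdeal with hmdef
  have hm : m ≠ 0 := by
    rw [hmdef]
    refine Finset.prod_ne_zero_iff.2 fun v _ => ?_
    rw [Ne, Ideal.absNorm_eq_zero_iff]
    exact v.ne_bot
  have hex : ∀ c : ClassGroup (𝓞 F), ∃ S : Finset (HeightOneSpectrum (𝓞 F)),
      (∀ v ∈ S, v ∉ B) ∧
      c ∈ Subgroup.closure (primeClass F '' (S : Set (HeightOneSpectrum (𝓞 F)))) := by
    intro c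
    obtain ⟨I, rfl, hcop⟩ := Fermat.Agent.S14.coprimeRep F m hm c
    obtain ⟨S, hSle, hS⟩ := ga_exists_finset_mk0_mem F I.1 I.2
    refine ⟨S, fun v hv hvB => ?_, hS⟩
    have h1 : Ideal.absNorm v.asIdeal ∣ Ideal.absNorm (I : Ideal (𝓞 F)) :=
      Ideal.absNorm_dvd_absNorm_of_le (hSle v hv)
    have h2 : Ideal.absNorm v.asIdeal ∣ m := Finset.dvd_prod_of_mem _ hvB
    have h3 : Ideal.absNorm v.asIdeal = 1 := Nat.eq_one_of_dvd_coprimes hcop h1 h2
    rw [Ideal.absNorm_eq_one_iff] at h3
    exact v.isPrime.ne_top h3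
  choose Sc hScB hSc using hex
  refine ⟨Finset.univ.biUnion Sc, ?_, ?_⟩
  · rw [Finset.disjoint_left]
    intro v hvB hv
    obtain ⟨c, -, hvc⟩ := Finset.mem_biUnion.1 hv
    exact hScB c v hvc hvB
  · rw [GeneratesClassGroup, eq_top_iff]
    intro c _
    refine Subgroup.closure_mono ?_ (hSc c)
    refine Set.image_mono ?_
    intro v hv
    simp only [Finset.coe_biUnion, Finset.coe_univ, Set.mem_univ, Set.iUnion_true,
      Set.mem_iUnion, Finset.mem_coe]
    exact ⟨c, hv⟩

end Fermat.Agent.F4Kum
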