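import Fermat.Agent.F4.Kum.Existence
import Fermat.Agent.F4.Kum.Approx
import Fermat.Agent.F4.Kum.Descent
import Fermat.Agent.F4.Kum.GenAvoid

/-!
# F4 / GLOB / KUM: the existence theorem mod `p` from reciprocity alone

`kumEx_of_rec1 : Rec1 → KumEx`.  Everything else in the chain
(`SymbMul`, `SymbEuler`, `GenAvoid`, `ApproxNonRes`, `LocalPowIsPowMod`, `LevelOrth`,
`DescentOrth`) is proved unconditionally or from `Rec1`.
-/

set_option autoImplicit false

namespace Fermat.Agent.F4Kum

/-- `DescentOrth` from reciprocity alone. -/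
theorem descentOrth_of_rec1 (hR : Rec1) : DescentOrth :=
  descentOrth hR approxNonRes localPowIsPowMod

/-- **The Kummer existence theorem mod `p` follows from reciprocity (`Rec1`) alone.** -/
theorem kumEx_of_rec1 (hR : Rec1) : KumEx :=
  kumEx_of (descentOrth_of_rec1 hR) genAvoid

end Fermat.Agent.F4Kum
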