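import Fermat.Agent.S14.SI.Final

/-!
# F4 / GLOB / KUM: primes at which a non-`p`-th power is not a `p`-th power residue

From the Frobenius density theorem for cyclic extensions (`S14SI.inertPrimeExists`) and the
split lemma (`S14SI.kummerSplits`).
-/

set_option autoImplicit false

open NumberField IsDedekindDomain

namespace Fermat.Agent.F4Kum

open Fermat.Agent.S14SI

/-- If `x ∈ F` is not a `p`-th power (`μ_p ⊆ F`), there is a prime `v ∤ p` outside any given finite
set at which `x` is a unit and not a `p`-th power residue. -/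
theorem exists_not_isPowMod_of_not_pow {p : ℕ} {F : Type} [Field F] [NumberField F] {ζ : F}
    (hp : p.Prime) (hζ : IsPrimitiveRoot ζ p) {x : F} (hx0 : x ≠ 0) (hx : ∀ b : F, b ^ p ≠ x)
    (B : Finset (HeightOneSpectrum (𝓞 F))) :
    ∃ v : HeightOneSpectrum (𝓞 F), v ∉ B ∧ (p : 𝓞 F) ∉ v.asIdeal ∧ v.valuation F x = 1 ∧
      ¬ IsPowMod F v p x := by
  classical
  obtain ⟨M, _, _, _, _, α, hfinM, hα, hαF⟩ := exists_kummer_extension hp hζ hx
  set Bad : Finset (HeightOneSpectrum (𝓞 F)) :=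
    B ∪ (finite_setOf_valuation_ne_one' F hx0).toFinset with hBad
  set B' : Finset ℕ :=
    insert p (Bad.biUnion fun w => (Ideal.absNorm w.asIdeal).primeFactors) with hB'
  obtain ⟨q, 𝔮, hq, hqB', hN, hf⟩ := inertPrimeExists p F M hp hfinM B'
  have h𝔮prime : 𝔮.IsPrime := Fermat.Agent.FrobDensity.isPrime_of_absNorm_eq_prime hq hN
  have h𝔮bot : 𝔮 ≠ ⊥ := by
    rintro rfl
    rw [Ideal.absNorm_bot] at hN
    exact hq.ne_zero hN.symm
  set v : HeightOneSpectrum (𝓞 F) := ⟨𝔮, h𝔮prime, h𝔮bot⟩ with hv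
  have hvBad : v ∉ Bad := by
    intro hvmem
    apply hqB'
    refine Finset.mem_insert_of_mem (Finset.mem_biUnion.mpr ⟨v, hvmem, ?_⟩)
    change q ∈ (Ideal.absNorm 𝔮).primeFactors
    rw [hN]
    exact Nat.mem_primeFactors.mpr ⟨hq, dvd_rfl, hq.ne_zero⟩
  have hqp : q ≠ p := fun h => hqB' (h ▸ Finset.mem_insert_self _ _)
  have hpv : (p : 𝓞 F) ∉ v.asIdeal :=
    natCast_notMem_of_prime_ne h𝔮prime.ne_top hp hq hqp
      (Fermat.Agent.FrobDensity.natCast_mem_of_absNorm_eq hN)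
  have hvx : v.valuation F x = 1 := by
    by_contra h
    apply hvBad
    rw [hBad]
    exact Finset.mem_union_right _ ((Set.Finite.mem_toFinset _).mpr h)
  refine ⟨v, fun hvB => hvBad (Finset.mem_union_left _ hvB), hpv, hvx, ?_⟩
  intro hpm
  have hloc : IsLocalPow F v p ζ x := hpm.isLocalPow hζ hp.one_lt hpv
  have hsplit := kummerSplits p F M ζ x α v hp hζ hfinM hα hαF hloc
  rw [SplitsCompletely, hfinM] at hsplit
  have hcount := Ideal.ncard_primesOver_mul_ramificationIdxIn_mul_inertiaDegIn 𝔮 (𝓞 M)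
    Gal(M/F)
  rw [IsGalois.card_aut_eq_finrank, hfinM, hf] at hcount
  change (v.asIdeal.primesOver (𝓞 M)).ncard * _ = p at hcount
  rw [hsplit] at hcount
  have hp1 : 1 < p := hp.one_lt
  have h3 : 𝔮.ramificationIdxIn (𝓞 M) * p = 1 := by
    have hp0 : 0 < p := hp.pos
    exact Nat.eq_of_mul_eq_mul_left hp0 (by rw [mul_one]; exact hcount)
  have h4 : p ∣ 1 := ⟨𝔮.ramificationIdxIn (𝓞 M), by rw [mul_comm]; exact h3.symm⟩
  exact absurd (Nat.le_of_dvd one_pos h4) (not_le.mpr hp1)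

end Fermat.Agent.F4Kum
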