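import Fermat.Agent.F4.Kum.Defs
import Fermat.Agent.S14.SI.LocalCyclic
import Fermat.Agent.S14.SI.PowMod

/-!
# F4 / GLOB / KUM, seat K1: laws of the power residue symbol (helper23)

`powSymb p v x` is the `p`-th root of unity `ω ∈ Fˣ` with `x ^ ((N v - 1) / p) ≡ ω mod v`.
For a prime `v ∤ p` of a number field containing a primitive `p`-th root of unity `ζ` and a
`v`-unit `x` we prove existence and uniqueness of `ω` (`powSymb_spec`, `powSymb_eq_of`),
multiplicativity (`symbMul`) and Euler's criterion (`symbEuler`).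
-/

set_option autoImplicit false

open NumberField IsDedekindDomain

namespace Fermat.Agent.F4Kum

open Fermat.Agent.S14SI

variable {F : Type*} [Field F] [NumberField F]

/-- A root of unity is a unit at every prime. -/
lemma symb_valuation_root (v : HeightOneSpectrum (𝓞 F)) {p : ℕ} (hp : p ≠ 0) {ω : Fˣ}
    (hω : ω ^ p = 1) : v.valuation F (ω : F) = 1 := by
  have h : (v.valuation F (ω : F)) ^ p = 1 := by
    rw [← map_pow, ← Units.val_pow_eq_pow_val, hω, Units.val_one, map_one]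
  exact (pow_eq_one_iff_left hp).mp h

/-- Congruence modulo `v` of two integers, in terms of the valuation. -/
lemma symb_cong_iff (v : HeightOneSpectrum (𝓞 F)) (a b : 𝓞 F) :
    v.valuation F ((a : F) - (b : F)) < 1 ↔
      Ideal.Quotient.mk v.asIdeal a = Ideal.Quotient.mk v.asIdeal b := by
  rw [Ideal.Quotient.eq, ← v.valuation_lt_one_iff_mem (K := F)]
  push_cast
  rfl

/-- Transitivity of congruence modulo `v`. -/
lemma symb_cong_trans (v : HeightOneSpectrum (𝓞 F)) {a b c : F}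
    (h1 : v.valuation F (a - b) < 1) (h2 : v.valuation F (b - c) < 1) :
    v.valuation F (a - c) < 1 := by
  have e : a - c = (a - b) + (b - c) := by ring
  rw [e]
  exact Valuation.map_add_lt _ h1 h2

/-- The image of `ζ` in the residue field is a primitive `p`-th root of unity, and `p ∣ N v - 1`. -/
lemma symb_exp_mul (v : HeightOneSpectrum (𝓞 F)) {p : ℕ} {ζ : F} (hp : p.Prime)
    (hζ : IsPrimitiveRoot ζ p) (hv : (p : 𝓞 F) ∉ v.asIdeal) :
    symbExp p v * p = Ideal.absNorm v.asIdeal - 1 ∧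
    ∃ z : 𝓞 F, (z : F) = ζ ∧
      ∀ y : 𝓞 F ⧸ v.asIdeal, y ^ p = 1 → ∃ i : ℕ, i < p ∧ Ideal.Quotient.mk v.asIdeal z ^ i = y := by
  classical
  have hmax : v.asIdeal.IsMaximal := v.isMaximal
  let _ : Field (𝓞 F ⧸ v.asIdeal) := Ideal.Quotient.field v.asIdeal
  have : Finite (𝓞 F ⧸ v.asIdeal) := Ideal.finiteQuotientOfFreeOfNeBot v.asIdeal v.ne_bot
  obtain ⟨z, hz, hzp⟩ := exists_integer_of_isPrimitiveRoot hζ hp.pos
  have hz1 : Ideal.Quotient.mk v.asIdeal z ≠ 1 := by
    intro h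
    have h1 : v.valuation F ((z : F) - ((1 : 𝓞 F) : F)) < 1 := by
      rw [symb_cong_iff, h, map_one]
    have h2 := valuation_sub_one_eq_one v hζ hp.one_lt hv
    rw [hz] at h1
    simp only [map_one] at h1
    rw [h2] at h1
    exact lt_irrefl _ h1
  have hzpow : Ideal.Quotient.mk v.asIdeal z ^ p = 1 := by
    rw [← map_pow, hzp.pow_eq_one, map_one]
  have hord : orderOf (Ideal.Quotient.mk v.asIdeal z) = p := by
    have : Fact p.Prime := ⟨hp⟩
    exact orderOf_eq_prime hzpow hz1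
  have hprim : IsPrimitiveRoot (Ideal.Quotient.mk v.asIdeal z) p :=
    IsPrimitiveRoot.iff_orderOf.mpr hord
  have hz0 : Ideal.Quotient.mk v.asIdeal z ≠ 0 := by
    intro h
    rw [h, zero_pow hp.ne_zero] at hzpow
    exact zero_ne_one hzpow
  have hcard : Ideal.absNorm v.asIdeal = Nat.card (𝓞 F ⧸ v.asIdeal) := by
    rw [Ideal.absNorm_apply, Submodule.cardQuot_apply]
  have hdvd : p ∣ Ideal.absNorm v.asIdeal - 1 := by
    rw [hcard, ← Nat.card_units, ← hord]
    have hu : orderOf (Units.mk0 _ hz0) = orderOf (Ideal.Quotient.mk v.asIdeal z) := by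
      rw [← orderOf_units]
      rfl
    rw [← hu]
    exact orderOf_dvd_natCard _
  refine ⟨Nat.div_mul_cancel hdvd, z, hz, ?_⟩
  intro y hy
  have : NeZero p := ⟨hp.ne_zero⟩
  exact hprim.eq_pow_of_pow_eq_one hy

/-- `r ^ (N v - 1) = 1` in the residue field, for `r ∉ v`. -/
lemma symb_pow_card (v : HeightOneSpectrum (𝓞 F)) {r : 𝓞 F} (hr : r ∉ v.asIdeal) :
    Ideal.Quotient.mk v.asIdeal r ^ (Ideal.absNorm v.asIdeal - 1) = 1 := by
  classical
  have hmax : v.asIdeal.IsMaximal := v.isMaximal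
  let _ : Field (𝓞 F ⧸ v.asIdeal) := Ideal.Quotient.field v.asIdeal
  have : Finite (𝓞 F ⧸ v.asIdeal) := Ideal.finiteQuotientOfFreeOfNeBot v.asIdeal v.ne_bot
  let _ : Fintype (𝓞 F ⧸ v.asIdeal) := Fintype.ofFinite _
  have hcard : Ideal.absNorm v.asIdeal = Fintype.card (𝓞 F ⧸ v.asIdeal) := by
    rw [Ideal.absNorm_apply, Submodule.cardQuot_apply, Nat.card_eq_fintype_card]
  rw [hcard]
  refine FiniteField.pow_card_sub_one_eq_one _ ?_
  rwa [Ne, Ideal.Quotient.eq_zero_iff_mem]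

/-- Existence of the symbol. -/
lemma symb_exists (v : HeightOneSpectrum (𝓞 F)) {p : ℕ} {ζ x : F} (hp : p.Prime)
    (hζ : IsPrimitiveRoot ζ p) (hv : (p : 𝓞 F) ∉ v.asIdeal) (hx : v.valuation F x = 1) :
    ∃ ω : Fˣ, ω ^ p = 1 ∧ v.valuation F (x ^ symbExp p v - (ω : F)) < 1 := by
  obtain ⟨hnp, z, hz, hroots⟩ := symb_exp_mul v hp hζ hv
  obtain ⟨r, hr, hcx⟩ := wp2_exists_approx v hx
  have h1 : (Ideal.Quotient.mk v.asIdeal r ^ symbExp p v) ^ p = 1 := by
    rw [← pow_mul, hnp]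
    exact symb_pow_card v hr
  obtain ⟨i, -, hi⟩ := hroots _ h1
  have hζ0 : ζ ≠ 0 := hζ.ne_zero hp.ne_zero
  refine ⟨(Units.mk0 ζ hζ0) ^ i, ?_, ?_⟩
  · rw [← pow_mul, mul_comm, pow_mul]
    have : (Units.mk0 ζ hζ0) ^ p = 1 := by
      apply Units.ext
      simp [hζ.pow_eq_one]
    rw [this, one_pow]
  · have h2 : v.valuation F (x ^ symbExp p v - ((r ^ symbExp p v : 𝓞 F) : F)) < 1 :=
      wp2_cong_pow v hx.le hcx _
    have h3 : v.valuation F (((r ^ symbExp p v : 𝓞 F) : F) - ((z ^ i : 𝓞 F) : F)) < 1 := by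
      rw [symb_cong_iff, map_pow, map_pow, hi]
    have h4 := symb_cong_trans v h2 h3
    simpa [hz] using h4

/-- Uniqueness of the symbol: two `p`-th roots of unity congruent modulo `v` are equal. -/
lemma symb_root_unique (v : HeightOneSpectrum (𝓞 F)) {p : ℕ} {ζ : F} (hp : p.Prime)
    (hζ : IsPrimitiveRoot ζ p) (hv : (p : 𝓞 F) ∉ v.asIdeal) {ω₁ ω₂ : Fˣ} (h1 : ω₁ ^ p = 1)
    (h2 : ω₂ ^ p = 1) (h : v.valuation F ((ω₁ : F) - (ω₂ : F)) < 1) : ω₁ = ω₂ := by
  have : NeZero p := ⟨hp.ne_zero⟩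
  have key : ∀ i j : ℕ, i < p → j < p → j < i → ¬ v.valuation F (ζ ^ i - ζ ^ j) < 1 := by
    intro i j hi hj hji hlt
    have e : ζ ^ i - ζ ^ j = ζ ^ j * (ζ ^ (i - j) - 1) := by
      rw [mul_sub, mul_one, ← pow_add, Nat.add_sub_cancel' hji.le]
    have hζ1 : v.valuation F ζ = 1 := by
      have hh : (v.valuation F ζ) ^ p = 1 := by rw [← map_pow, hζ.pow_eq_one, map_one]
      exact (pow_eq_one_iff_left hp.ne_zero).mp hh
    rw [e, map_mul, map_pow, hζ1, one_pow, one_mul,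
      valuation_pow_sub_one_eq_one v hζ hv (by omega) (by omega)] at hlt
    exact lt_irrefl _ hlt
  have hω₁ : (ω₁ : F) ^ p = 1 := by rw [← Units.val_pow_eq_pow_val, h1, Units.val_one]
  have hω₂ : (ω₂ : F) ^ p = 1 := by rw [← Units.val_pow_eq_pow_val, h2, Units.val_one]
  obtain ⟨i, hi, hiω⟩ := hζ.eq_pow_of_pow_eq_one hω₁
  obtain ⟨j, hj, hjω⟩ := hζ.eq_pow_of_pow_eq_one hω₂
  apply Units.ext
  rw [← hiω, ← hjω] at h ⊢
  rcases lt_trichotomy i j with hij | hij | hij
  · rw [Valuation.map_sub_swap] at h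
    exact absurd h (key j i hj hi hij)
  · rw [hij]
  · exact absurd h (key i j hi hj hij)

/-- The defining property of the symbol of a `v`-unit. -/
lemma powSymb_spec (v : HeightOneSpectrum (𝓞 F)) {p : ℕ} {ζ x : F} (hp : p.Prime)
    (hζ : IsPrimitiveRoot ζ p) (hv : (p : 𝓞 F) ∉ v.asIdeal) (hx : v.valuation F x = 1) :
    v.valuation F (x ^ symbExp p v - (powSymb p v x : F)) < 1 := by
  have h := symb_exists v hp hζ hv hx
  unfold powSymb
  rw [dif_pos h]
  exact h.choose_spec.2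

/-- Characterisation of the symbol of a `v`-unit. -/
lemma powSymb_eq_of (v : HeightOneSpectrum (𝓞 F)) {p : ℕ} {ζ x : F} (hp : p.Prime)
    (hζ : IsPrimitiveRoot ζ p) (hv : (p : 𝓞 F) ∉ v.asIdeal) (hx : v.valuation F x = 1)
    {ω : Fˣ} (hω : ω ^ p = 1) (h : v.valuation F (x ^ symbExp p v - (ω : F)) < 1) :
    powSymb p v x = ω := by
  refine symb_root_unique v hp hζ hv (powSymb_pow p v x) hω ?_
  have h1 := powSymb_spec v hp hζ hv hx
  rw [Valuation.map_sub_swap] at h1
  exact symb_cong_trans v h1 h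

/-- The symbol is trivial iff `x ^ ((N v - 1) / p) ≡ 1 mod v`. -/
lemma powSymb_eq_one_iff (v : HeightOneSpectrum (𝓞 F)) {p : ℕ} {ζ x : F} (hp : p.Prime)
    (hζ : IsPrimitiveRoot ζ p) (hv : (p : 𝓞 F) ∉ v.asIdeal) (hx : v.valuation F x = 1) :
    powSymb p v x = 1 ↔ v.valuation F (x ^ symbExp p v - 1) < 1 := by
  constructor
  · intro h
    have h1 := powSymb_spec v hp hζ hv hx
    rwa [h, Units.val_one] at h1
  · intro h
    exact powSymb_eq_of v hp hζ hv hx (one_pow p) (by simpa using h)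

/-- Multiplicativity of the symbol on `v`-units. -/
lemma powSymb_mul (v : HeightOneSpectrum (𝓞 F)) {p : ℕ} {ζ x y : F} (hp : p.Prime)
    (hζ : IsPrimitiveRoot ζ p) (hv : (p : 𝓞 F) ∉ v.asIdeal) (hx : v.valuation F x = 1)
    (hy : v.valuation F y = 1) : powSymb p v (x * y) = powSymb p v x * powSymb p v y := by
  have hxy : v.valuation F (x * y) = 1 := by rw [map_mul, hx, hy, one_mul]
  refine powSymb_eq_of v hp hζ hv hxy ?_ ?_
  · rw [mul_pow, powSymb_pow, powSymb_pow, one_mul]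
  · have h1 := powSymb_spec v hp hζ hv hx
    have h2 := powSymb_spec v hp hζ hv hy
    have e : (x * y) ^ symbExp p v - ((powSymb p v x * powSymb p v y : Fˣ) : F)
        = x ^ symbExp p v * (y ^ symbExp p v - (powSymb p v y : F))
          + (powSymb p v y : F) * (x ^ symbExp p v - (powSymb p v x : F)) := by
      push_cast
      ring
    rw [e]
    refine Valuation.map_add_lt _ ?_ ?_
    · rw [map_mul, map_pow, hx, one_pow, one_mul]
      exact h2
    · rw [map_mul, symb_valuation_root v hp.ne_zero (powSymb_pow p v y), one_mul]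
      exact h1

/-- The symbol of `1`. -/
lemma powSymb_one (v : HeightOneSpectrum (𝓞 F)) {p : ℕ} {ζ : F} (hp : p.Prime)
    (hζ : IsPrimitiveRoot ζ p) (hv : (p : 𝓞 F) ∉ v.asIdeal) : powSymb p v (1 : F) = 1 := by
  refine powSymb_eq_of v hp hζ hv (map_one _) (one_pow p) ?_
  simp

/-- The symbol of an inverse. -/
lemma powSymb_inv (v : HeightOneSpectrum (𝓞 F)) {p : ℕ} {ζ x : F} (hp : p.Prime)
    (hζ : IsPrimitiveRoot ζ p) (hv : (p : 𝓞 F) ∉ v.asIdeal) (hx : v.valuation F x = 1) :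
    powSymb p v x⁻¹ = (powSymb p v x)⁻¹ := by
  have hx0 : x ≠ 0 := by
    intro h; rw [h] at hx; simp at hx
  have hxi : v.valuation F x⁻¹ = 1 := by rw [map_inv₀, hx, inv_one]
  have h := powSymb_mul v hp hζ hv hx hxi
  rw [mul_inv_cancel₀ hx0, powSymb_one v hp hζ hv] at h
  exact eq_inv_of_mul_eq_one_right h.symm

/-- The symbol of a natural power. -/
lemma powSymb_pow_nat (v : HeightOneSpectrum (𝓞 F)) {p : ℕ} {ζ x : F} (hp : p.Prime)
    (hζ : IsPrimitiveRoot ζ p) (hv : (p : 𝓞 F) ∉ v.asIdeal) (hx : v.valuation F x = 1) (n : ℕ) :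
    powSymb p v (x ^ n) = powSymb p v x ^ n := by
  induction n with
  | zero => simpa using powSymb_one v hp hζ hv
  | succ n ih =>
    have hxn : v.valuation F (x ^ n) = 1 := by rw [map_pow, hx, one_pow]
    rw [pow_succ, powSymb_mul v hp hζ hv hxn hx, ih, pow_succ]

/-- The symbol of an integer power. -/
lemma powSymb_zpow (v : HeightOneSpectrum (𝓞 F)) {p : ℕ} {ζ x : F} (hp : p.Prime)
    (hζ : IsPrimitiveRoot ζ p) (hv : (p : 𝓞 F) ∉ v.asIdeal) (hx : v.valuation F x = 1) (n : ℤ) :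
    powSymb p v (x ^ n) = powSymb p v x ^ n := by
  cases n with
  | ofNat n => simpa using powSymb_pow_nat v hp hζ hv hx n
  | negSucc n =>
    have hxn : v.valuation F (x ^ (n + 1)) = 1 := by rw [map_pow, hx, one_pow]
    rw [zpow_negSucc, zpow_negSucc, powSymb_inv v hp hζ hv hxn, powSymb_pow_nat v hp hζ hv hx]

/-- **K1a**: the symbol is multiplicative on `v`-units. -/
theorem symbMul : SymbMul := by
  intro p F _ _ ζ x y v hp hζ hv hx hy
  exact powSymb_mul v hp hζ hv hx hy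

/-- **K1b (Euler's criterion)**. -/
theorem symbEuler : SymbEuler := by
  intro p F _ _ ζ x v hp hζ hv hx
  classical
  rw [powSymb_eq_one_iff v hp hζ hv hx]
  obtain ⟨hnp, z, hz, hroots⟩ := symb_exp_mul v hp hζ hv
  have hmax : v.asIdeal.IsMaximal := v.isMaximal
  let _ : Field (𝓞 F ⧸ v.asIdeal) := Ideal.Quotient.field v.asIdeal
  have : Finite (𝓞 F ⧸ v.asIdeal) := Ideal.finiteQuotientOfFreeOfNeBot v.asIdeal v.ne_bot
  constructor
  · intro h
    obtain ⟨r, hr, hcx⟩ := wp2_exists_approx v hx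
    have hπr : Ideal.Quotient.mk v.asIdeal r ≠ 0 := by
      rwa [Ne, Ideal.Quotient.eq_zero_iff_mem]
    -- `r ^ n ≡ 1`
    have hrn : Ideal.Quotient.mk v.asIdeal r ^ symbExp p v = 1 := by
      have h2 : v.valuation F (x ^ symbExp p v - ((r ^ symbExp p v : 𝓞 F) : F)) < 1 :=
        wp2_cong_pow v hx.le hcx _
      rw [Valuation.map_sub_swap] at h2
      have h3 := symb_cong_trans v h2 h
      have h4 : v.valuation F (((r ^ symbExp p v : 𝓞 F) : F) - ((1 : 𝓞 F) : F)) < 1 := by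
        simpa using h3
      rw [symb_cong_iff, map_pow, map_one] at h4
      exact h4
    obtain ⟨g, hg⟩ := IsCyclic.exists_generator (α := (𝓞 F ⧸ v.asIdeal)ˣ)
    obtain ⟨m, hm⟩ : Units.mk0 _ hπr ∈ Submonoid.powers g := by
      rw [mem_powers_iff_mem_zpowers]; exact hg _
    have hm : g ^ m = Units.mk0 _ hπr := hm
    have hgord : orderOf g = symbExp p v * p := by
      rw [orderOf_eq_card_of_forall_mem_zpowers hg, Nat.card_units, hnp, Ideal.absNorm_apply,
        Submodule.cardQuot_apply]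
    have hgm : g ^ (m * symbExp p v) = 1 := by
      rw [pow_mul, hm]
      apply Units.ext
      simpa using hrn
    have hdvd : symbExp p v * p ∣ m * symbExp p v := by
      rw [← hgord]; exact orderOf_dvd_of_pow_eq_one hgm
    have hn0 : 0 < symbExp p v := by
      rcases Nat.eq_zero_or_pos (symbExp p v) with h0 | h0
      · rw [h0, zero_mul] at hgord
        have := orderOf_pos g
        omega
      · exact h0
    have hpm : p ∣ m := by
      rw [mul_comm m] at hdvd
      exact Nat.dvd_of_mul_dvd_mul_left hn0 hdvd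
    obtain ⟨m', rfl⟩ := hpm
    obtain ⟨z', hz'⟩ := Ideal.Quotient.mk_surjective ((g ^ m' : (𝓞 F ⧸ v.asIdeal)ˣ) : 𝓞 F ⧸ v.asIdeal)
    have hz'v : z' ∉ v.asIdeal := by
      intro hmem
      rw [← Ideal.Quotient.eq_zero_iff_mem, hz'] at hmem
      exact (g ^ m').ne_zero hmem
    refine wp2_isPowMod_of_cong v p hcx hz'v ?_
    rw [hz']
    have := congrArg (fun u : (𝓞 F ⧸ v.asIdeal)ˣ => (u : 𝓞 F ⧸ v.asIdeal)) hm
    simp only [Units.val_mk0] at this
    rw [← this, mul_comm, pow_mul]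
    push_cast
    rfl
  · rintro ⟨z', hz'v, hz'⟩
    have h1 : v.valuation F (x - ((z' ^ p : 𝓞 F) : F)) < 1 := by
      simpa using hz'
    have h2 : v.valuation F (x ^ symbExp p v - (((z' ^ p) ^ symbExp p v : 𝓞 F) : F)) < 1 :=
      wp2_cong_pow v hx.le h1 _
    have h3 : v.valuation F ((((z' ^ p) ^ symbExp p v : 𝓞 F) : F) - ((1 : 𝓞 F) : F)) < 1 := by
      rw [symb_cong_iff, map_pow, map_pow, ← pow_mul, mul_comm, hnp, map_one]
      exact symb_pow_card v hz'v
    have h4 := symb_cong_trans v h2 h3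
    simpa using h4

end Fermat.Agent.F4Kum
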