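import Fermat.Agent.F4.Kum.Interface2
import Fermat.Agent.F4.Kum.Pairing
import Fermat.Agent.F4.Kum.Dual
import Fermat.Agent.F4.Kum.Inert
import Fermat.Agent.F4.Kum.Symbol
import Fermat.Agent.S14.SI.ClassGen

/-!
# F4 / GLOB / KUM (K4): the right kernel of the pairing at a level generating the class group

`levelOrth : Rec1 → LevelOrth`.  Counting: `[Fˣ : E_S U_S] ≤ [E_S : E_S ^ p]` by the `S`-unit
theorem, the local counts and the key lemma of Route I (`E_S ∩ U_S = E_S ^ p`); the pairing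
`E_S / p × Fˣ / E_S U_S → μ_p` is well defined by `Rec1` and left-nondegenerate by the existence
of non-residue primes; then `Dual.lean`.
-/

set_option autoImplicit false

open NumberField IsDedekindDomain

namespace Fermat.Agent.F4Kum

open Fermat.Agent.S14SI

variable {F : Type} [Field F] [NumberField F]

/-- `p`-th powers are local `p`-th powers. -/
lemma pow_mem_localPowSubgroup {p : ℕ} {ζ : F} (hζ : IsPrimitiveRoot ζ p) (hp : 1 < p)
    (S : Finset (HeightOneSpectrum (𝓞 F))) (b : Fˣ) :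
    b ^ p ∈ localPowSubgroup F p ζ hζ hp S := by
  intro v _
  refine ⟨((b⁻¹ : Fˣ) : F), Units.ne_zero _, ?_⟩
  have e : ((b ^ p : Fˣ) : F) * ((b⁻¹ : Fˣ) : F) ^ p - 1 = 0 := by
    rw [← Units.val_pow_eq_pow_val, ← Units.val_mul, ← mul_pow, mul_inv_cancel, one_pow,
      Units.val_one, sub_self]
  rw [e, map_zero]
  exact pow_pos ((Valuation.pos_iff _).mpr (sub_ne_zero.mpr (hζ.ne_one hp))) p

/-- An element of `F` whose `p`-th power is an `S`-unit is an `S`-unit. -/
lemma mem_sUnits_of_pow {p : ℕ} (hp : p ≠ 0) (S : Set (HeightOneSpectrum (𝓞 F))) {y : Fˣ}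
    (h : y ^ p ∈ sUnits F S) : y ∈ sUnits F S := by
  rw [mem_sUnits] at h ⊢
  intro v hv
  have h1 := h v hv
  rw [← thetaOrd_eq_zero_iff] at h1 ⊢
  rw [thetaOrd_pow] at h1
  rcases mul_eq_zero.mp h1 with h2 | h2
  · exact absurd (by exact_mod_cast h2) hp
  · exact h2

/-- The key lemma of Route I for `T = ∅`: `E_S ∩ U_S ≤ E_S ^ p` when `S ⊇ {v ∣ p}` generates the
class group. -/
lemma inf_le_sUnitsPow {p : ℕ} {ζ : F} (hp : p.Prime) (hp2 : p ≠ 2) (hζ : IsPrimitiveRoot ζ p)
    {S : Finset (HeightOneSpectrum (𝓞 F))} (hS : ContainsPrimesAbove F p S)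
    (hgen : GeneratesClassGroup F S) :
    localPowSubgroup F p ζ hζ hp.one_lt S ⊓ sUnits F (S : Set (HeightOneSpectrum (𝓞 F)))
      ≤ sUnitsPow F p (S : Set (HeightOneSpectrum (𝓞 F))) := by
  classical
  rintro x ⟨hxU, hxE⟩
  have hres : ResidueSurjective F p S ∅ := by
    intro c _
    exact ⟨1, Subgroup.one_mem _, fun v hv => absurd hv (Finset.notMem_empty v)⟩
  have hxE' : x ∈ sUnits F ((S : Set (HeightOneSpectrum (𝓞 F))) ∪
      ((∅ : Finset (HeightOneSpectrum (𝓞 F))) : Set (HeightOneSpectrum (𝓞 F)))) := by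
    rw [Finset.coe_empty, Set.union_empty]
    exact hxE
  obtain ⟨y, hy⟩ := keyLemmaSI p F ζ x S ∅ hp hp2 hζ hS hgen (Finset.disjoint_empty_right S) hres
    hxE' hxU
  have hy0 : y ≠ 0 := by
    rintro rfl
    rw [zero_pow hp.ne_zero] at hy
    exact x.ne_zero hy.symm
  have hxy : x = (Units.mk0 y hy0) ^ p := by
    apply Units.ext
    simp [hy]
  refine ⟨Units.mk0 y hy0, ?_, hxy.symm⟩
  exact mem_sUnits_of_pow hp.ne_zero _ (hxy ▸ hxE)

/-- The index of the `p`-th powers in the group of `S`-units (as a type). -/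
lemma index_range_pow_sUnits (p : ℕ) (S : Set (HeightOneSpectrum (𝓞 F))) :
    (powMonoidHom p : ↥(sUnits F S) →* ↥(sUnits F S)).range.index
      = (sUnitsPow F p S).relIndex (sUnits F S) := by
  rw [Subgroup.relIndex]
  congr 1
  ext x
  simp only [MonoidHom.mem_range, powMonoidHom_apply, Subgroup.mem_subgroupOf, Subgroup.mem_map]
  constructor
  · rintro ⟨y, rfl⟩
    exact ⟨(y : Fˣ), y.2, by simp⟩
  · rintro ⟨y, hy, hyx⟩
    exact ⟨⟨y, hy⟩, Subtype.ext (by simpa using hyx)⟩

/-- The index computation: `[Fˣ : E_S U_S] ≤ [E_S : E_S ^ p]`. -/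
lemma index_sup_le {p : ℕ} {ζ : F} (hp : p.Prime) (hp2 : p ≠ 2) (hζ : IsPrimitiveRoot ζ p)
    {S : Finset (HeightOneSpectrum (𝓞 F))} (hS : ContainsPrimesAbove F p S)
    (hgen : GeneratesClassGroup F S) :
    (sUnits F (S : Set (HeightOneSpectrum (𝓞 F))) ⊔ localPowSubgroup F p ζ hζ hp.one_lt S).index
        ≠ 0 ∧
    (sUnits F (S : Set (HeightOneSpectrum (𝓞 F))) ⊔ localPowSubgroup F p ζ hζ hp.one_lt S).index
      ≤ (sUnitsPow F p (S : Set (HeightOneSpectrum (𝓞 F)))).relIndex
          (sUnits F (S : Set (HeightOneSpectrum (𝓞 F)))) := by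
  classical
  set U : Subgroup Fˣ := localPowSubgroup F p ζ hζ hp.one_lt S with hU
  set E : Subgroup Fˣ := sUnits F (S : Set (HeightOneSpectrum (𝓞 F))) with hE
  obtain ⟨hU0, hUle⟩ := localCount p F ζ S hp hζ
  have hrank := sUnitRank p F ζ S hp hp2 hζ
  have hUE : U ⊓ E ≤ sUnitsPow F p (S : Set (HeightOneSpectrum (𝓞 F))) :=
    inf_le_sUnitsPow hp hp2 hζ hS hgen
  have hmul : U.relIndex (E ⊔ U) * (E ⊔ U).index = U.index :=
    Subgroup.relIndex_mul_index le_sup_right
  have hrel : U.relIndex (E ⊔ U) = U.relIndex E := Subgroup.relIndex_sup_right E U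
  have hdvd : p ^ (Module.finrank ℚ F / 2 + S.card) ∣ U.relIndex E := by
    rw [← hrank, ← Subgroup.inf_relIndex_right U E]
    exact Subgroup.relIndex_dvd_of_le_left E hUE
  have heven := even_finrank_of_isPrimitiveRoot hp hp2 hζ
  have hm0 : (E ⊔ U).index ≠ 0 := by
    intro h
    rw [h, mul_zero] at hmul
    exact hU0 hmul.symm
  have hr0 : U.relIndex E ≠ 0 := by
    intro h
    rw [hrel, h, zero_mul] at hmul
    exact hU0 hmul.symm
  refine ⟨hm0, ?_⟩
  rw [hrank]
  obtain ⟨k, hk⟩ := hdvd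
  have hk0 : 0 < k := by
    rcases Nat.eq_zero_or_pos k with h | h
    · rw [h, mul_zero] at hk
      exact absurd hk hr0
    · exact h
  set e := Module.finrank ℚ F / 2 + S.card with he
  have hexp : 2 * S.card + Module.finrank ℚ F = e + e := by
    obtain ⟨c, hc⟩ := heven
    rw [hc] at he ⊢
    rw [Nat.mul_div_cancel_left _ (by norm_num : 0 < 2)] at he
    omega
  have h3 : p ^ e * (E ⊔ U).index ≤ p ^ e * p ^ e := by
    calc p ^ e * (E ⊔ U).index ≤ (p ^ e * k) * (E ⊔ U).index := by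
          apply Nat.mul_le_mul_right
          exact Nat.le_mul_of_pos_right _ hk0
      _ = U.index := by rw [← hk, ← hrel, hmul]
      _ ≤ p ^ (2 * S.card + Module.finrank ℚ F) := hUle
      _ = p ^ e * p ^ e := by rw [hexp, pow_add]
  exact Nat.le_of_mul_le_mul_left h3 (pow_pos hp.pos e)

/-- An element with a simple pole/zero at `v₁ ∉ S` and no other zero or pole outside `S`, when
`S` generates the class group. -/
lemma exists_thetaOrd_single_away {S : Finset (HeightOneSpectrum (𝓞 F))}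
    (hgen : GeneratesClassGroup F S) {v₁ : HeightOneSpectrum (𝓞 F)} (hv₁ : v₁ ∉ S) :
    ∃ c : Fˣ, thetaOrd v₁ c = -1 ∧ ∀ v, v ∉ S → v ≠ v₁ → thetaOrd v c = 0 := by
  classical
  have hgen' : Subgroup.closure ((fun v : HeightOneSpectrum (𝓞 F) =>
      ClassGroup.mk0 ⟨v.asIdeal, mem_nonZeroDivisors_of_ne_zero v.ne_bot⟩) ''
        (S : Set (HeightOneSpectrum (𝓞 F)))) = ⊤ := hgen
  obtain ⟨c, hc⟩ := exists_valuation_eq_of_closure_eq_top (K := F) hgen'
    (Finsupp.single v₁ 1)
  refine ⟨c, ?_, ?_⟩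
  · apply thetaOrd_eq_of_valuation
    rw [hc v₁ (by simpa using hv₁)]
    simp
  · intro v hv hne
    apply thetaOrd_eq_of_valuation
    rw [hc v (by simpa using hv)]
    simp [Ne.symm hne]

/-- **K4**: the right kernel of the pairing at a level generating the class group. -/
theorem levelOrth (hR : Rec1) : LevelOrth := by
  intro p F _ _ ζ S a hp hp2 hζ hS hgen ha
  classical
  set E : Subgroup Fˣ := sUnits F (S : Set (HeightOneSpectrum (𝓞 F))) with hE
  set U : Subgroup Fˣ := localPowSubgroup F p ζ hζ hp.one_lt S with hU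
  -- the pairing as a bihomomorphism
  let β : ↥E →* Fˣ →* Fˣ := MonoidHom.mk' (fun ε => kumPairingHom p S (((ε : Fˣ) : F)))
    (fun x y => by
      refine MonoidHom.ext fun b => ?_
      show kumPairing p S (((x * y : ↥E) : Fˣ) : F) b
        = kumPairing p S ((x : Fˣ) : F) b * kumPairing p S ((y : Fˣ) : F) b
      rw [Subgroup.coe_mul, Units.val_mul]
      exact kumPairing_mul_left symbMul hp hζ hS x.2 y.2 b)
  have hβ : ∀ (ε : ↥E) (b : Fˣ), β ε b = kumPairing p S ((ε : Fˣ) : F) b := fun _ _ => rfl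
  obtain ⟨hH0, hHle⟩ := index_sup_le hp hp2 hζ hS hgen
  have hmem : a ∈ E ⊔ U := by
    refine mem_of_orthogonal (M := F) hp hζ (powMonoidHom p : ↥E →* ↥E).range (E ⊔ U) β hH0
      ?_ ?_ ?_ ?_ ?_ a ?_
    · rw [index_range_pow_sUnits]
      exact hHle
    · intro b
      exact (le_sup_right : U ≤ E ⊔ U) (pow_mem_localPowSubgroup hζ hp.one_lt S b)
    · intro x h hh
      have hle : E ⊔ U ≤ (β x).ker := by
        refine sup_le ?_ ?_
        · intro e he
          rw [MonoidHom.mem_ker, hβ]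
          exact kumPairing_eq_one_of_mem_sUnits p S _ he
        · intro u hu
          rw [MonoidHom.mem_ker, hβ]
          refine hR p F ζ S x u hp hp2 hζ hS ?_ ?_ hu
          · intro v hv
            have : thetaOrd v (x : Fˣ) = 0 := by
              rw [thetaOrd_eq_zero_iff]
              exact (mem_sUnits _ _).mp x.2 v (by simpa using hv)
            rw [this]
            exact dvd_zero _
          · intro v hv _
            rw [thetaOrd_eq_zero_iff]
            exact (mem_sUnits _ _).mp x.2 v (by simpa using hv)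
      exact MonoidHom.mem_ker.mp (hle hh)
    · rintro x ⟨y, rfl⟩ b
      rw [powMonoidHom_apply, map_pow, MonoidHom.pow_apply, hβ]
      exact kumPairing_pow p S _ b
    · intro x hx
      -- `x` is a `p`-th power in `F`
      have hpow : ∃ y : F, y ^ p = ((x : Fˣ) : F) := by
        by_contra hne
        obtain ⟨v, hvS, hpv, hvx, hnp⟩ := exists_not_isPowMod_of_not_pow hp hζ
          (x : Fˣ).ne_zero (fun b hb => hne ⟨b, hb⟩) S
        obtain ⟨c, hc1, hc⟩ := exists_thetaOrd_single_away hgen hvS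
        have h1 := hx c
        rw [hβ, kumPairing_eq_prod p S {v} _ c (by simpa using hvS)
          (fun w hwS hwv => hc w hwS (by simpa using hwv)), Finset.prod_singleton, hc1,
          zpow_neg, zpow_one, inv_eq_one] at h1
        exact hnp ((symbEuler p F ζ _ v hp hζ hpv hvx).mp h1)
      obtain ⟨y, hy⟩ := hpow
      have hy0 : y ≠ 0 := by
        rintro rfl
        rw [zero_pow hp.ne_zero] at hy
        exact (x : Fˣ).ne_zero hy.symm
      have hxy : (x : Fˣ) = (Units.mk0 y hy0) ^ p := by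
        apply Units.ext
        simp [hy]
      have hyE : Units.mk0 y hy0 ∈ E := mem_sUnits_of_pow hp.ne_zero _ (hxy ▸ x.2)
      refine ⟨⟨Units.mk0 y hy0, hyE⟩, ?_⟩
      apply Subtype.ext
      rw [powMonoidHom_apply, Subgroup.coe_pow]
      exact hxy.symm
    · intro x
      rw [hβ]
      exact ha x x.2
  obtain ⟨e, he, u, hu, heu⟩ := Subgroup.mem_sup.mp hmem
  exact ⟨e, u, he, hu, heu.symm⟩

end Fermat.Agent.F4Kum
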