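import Fermat.Agent.F4.Kum.RecFrob
import Fermat.Agent.F4.Kum.Pairing
import Fermat.Agent.S14.SI.ClassGen

/-!
# F4 / GLOB / KUM, work package RK: the Artin map of a Kummer extension, multiplicative form

For a family `s v ∈ Fˣ` of `p`-th roots of unity (the Kummer characters of the Frobenius elements)
`famW T s J = ∏_{v ∉ T} s v ^ count_v J` is the Kummer character of the Artin symbol of the
fractional ideal `J`.  It is multiplicative on nonzero fractional ideals, takes the value `s v` at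
the prime `v ∉ T`, and its value at the principal ideal `(b)` is the inverse of the pairing
`∏_{v ∉ T} s v ^ thetaOrd v b`.
-/

set_option autoImplicit false
set_option linter.unusedSectionVars false

open NumberField IsDedekindDomain FractionalIdeal
open scoped nonZeroDivisors

namespace Fermat.Agent.F4Kum

open Fermat.Agent.S14SI Fermat.Agent.F4Rec

section famW

variable {F : Type*} [Field F] [NumberField F]

open Classical in
/-- `∏_{v ∉ T} s v ^ count_v J`. -/
noncomputable def famW (T : Finset (HeightOneSpectrum (𝓞 F)))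
    (s : HeightOneSpectrum (𝓞 F) → Fˣ) (J : FractionalIdeal (𝓞 F)⁰ F) : Fˣ :=
  ∏ᶠ v : HeightOneSpectrum (𝓞 F), if v ∈ T then 1 else s v ^ (count F v J)

lemma finite_setOf_count_ne_zero (J : FractionalIdeal (𝓞 F)⁰ F) :
    {v : HeightOneSpectrum (𝓞 F) | count F v J ≠ 0}.Finite := by
  have := FractionalIdeal.finite_factors (K := F) J
  rwa [Filter.eventually_cofinite] at this

open Classical in
lemma finite_mulSupport_famW (T : Finset (HeightOneSpectrum (𝓞 F)))
    (s : HeightOneSpectrum (𝓞 F) → Fˣ) (J : FractionalIdeal (𝓞 F)⁰ F) :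
    (Function.mulSupport fun v : HeightOneSpectrum (𝓞 F) =>
      if v ∈ T then (1 : Fˣ) else s v ^ (count F v J)).Finite := by
  refine (finite_setOf_count_ne_zero J).subset ?_
  intro v hv
  rw [Function.mem_mulSupport] at hv
  simp only [Set.mem_ofPred_eq]
  intro h0
  apply hv
  split_ifs
  · rfl
  · rw [h0, zpow_zero]

lemma famW_mul (T : Finset (HeightOneSpectrum (𝓞 F))) (s : HeightOneSpectrum (𝓞 F) → Fˣ)
    {I J : FractionalIdeal (𝓞 F)⁰ F} (hI : I ≠ 0) (hJ : J ≠ 0) :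
    famW T s (I * J) = famW T s I * famW T s J := by
  classical
  unfold famW
  rw [← finprod_mul_distrib (finite_mulSupport_famW T s I) (finite_mulSupport_famW T s J)]
  refine finprod_congr fun v => ?_
  split_ifs
  · rw [mul_one]
  · rw [count_mul F v hI hJ, zpow_add]

lemma famW_pow (T : Finset (HeightOneSpectrum (𝓞 F))) (s : HeightOneSpectrum (𝓞 F) → Fˣ)
    (J : FractionalIdeal (𝓞 F)⁰ F) (n : ℕ) :
    famW T s (J ^ n) = famW T s J ^ n := by
  classical
  unfold famW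
  rw [finprod_pow (finite_mulSupport_famW T s J)]
  refine finprod_congr fun v => ?_
  split_ifs
  · rw [one_pow]
  · rw [count_pow, ← zpow_natCast, ← zpow_mul, mul_comm]

/-- The values are `p`-th roots of unity. -/
lemma famW_pow_eq_one (T : Finset (HeightOneSpectrum (𝓞 F))) (s : HeightOneSpectrum (𝓞 F) → Fˣ)
    {p : ℕ} (hs : ∀ v, s v ^ p = 1) (J : FractionalIdeal (𝓞 F)⁰ F) :
    famW T s J ^ p = 1 := by
  classical
  unfold famW
  rw [finprod_pow (finite_mulSupport_famW T s J)]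
  rw [finprod_eq_one_of_forall_eq_one]
  intro v
  split_ifs
  · rw [one_pow]
  · rw [← zpow_natCast, ← zpow_mul, mul_comm, zpow_mul, zpow_natCast, hs, one_zpow]

/-- The value at a prime `v ∉ T`. -/
lemma famW_prime (T : Finset (HeightOneSpectrum (𝓞 F))) (s : HeightOneSpectrum (𝓞 F) → Fˣ)
    {v : HeightOneSpectrum (𝓞 F)} (hv : v ∉ T) :
    famW T s (v.asIdeal : FractionalIdeal (𝓞 F)⁰ F) = s v := by
  classical
  unfold famW
  rw [finprod_eq_single _ v]
  · rw [if_neg hv, count_self, zpow_one]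
  · intro w hw
    split_ifs
    · rfl
    · rw [count_maximal_coprime F w (Ne.symm hw), zpow_zero]

open Classical in
/-- The value at a principal ideal. -/
lemma famW_spanSingleton (T : Finset (HeightOneSpectrum (𝓞 F)))
    (s : HeightOneSpectrum (𝓞 F) → Fˣ) (b : Fˣ) :
    famW T s (spanSingleton (𝓞 F)⁰ (b : F)) =
      (∏ᶠ v : HeightOneSpectrum (𝓞 F), if v ∈ T then 1 else s v ^ thetaOrd v b)⁻¹ := by
  classical
  unfold famW
  rw [← finprod_inv_distrib]
  refine finprod_congr fun v => ?_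
  split_ifs
  · rw [inv_one]
  · have h1 := valuation_eq_exp_neg_count (K := F) v b.ne_zero
    rw [thetaOrd_valuation] at h1
    have h2 : thetaOrd v b = -count F v (spanSingleton (𝓞 F)⁰ (b : F)) :=
      WithZero.exp_injective h1
    rw [h2, zpow_neg, inv_inv]

end famW

/-! ### The family of symbols attached to `x` -/

section sym

variable {F : Type} [Field F] [NumberField F]

open Classical in
/-- The family of symbols: `s v = (x y ^ p / v)_p` for some `y` with `x y ^ p` a `v`-unit. -/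
noncomputable def rkSym (p : ℕ) (x : Fˣ) (v : HeightOneSpectrum (𝓞 F)) : Fˣ :=
  if h : ∃ y : Fˣ, v.valuation F ((x : F) * (y : F) ^ p) = 1 then
    powSymb p v ((x : F) * (h.choose : F) ^ p) else 1

lemma rkSym_pow (p : ℕ) (x : Fˣ) (v : HeightOneSpectrum (𝓞 F)) : rkSym p x v ^ p = 1 := by
  unfold rkSym
  split_ifs
  · exact powSymb_pow p v _
  · exact one_pow p

lemma rkSym_spec {p : ℕ} {x : Fˣ} {v : HeightOneSpectrum (𝓞 F)}
    (h : ∃ y : Fˣ, v.valuation F ((x : F) * (y : F) ^ p) = 1) :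
    ∃ y : Fˣ, v.valuation F ((x : F) * (y : F) ^ p) = 1 ∧
      rkSym p x v = powSymb p v ((x : F) * (y : F) ^ p) := by
  refine ⟨h.choose, h.choose_spec, ?_⟩
  unfold rkSym
  rw [dif_pos h]

lemma rkSym_eq_of_unit {p : ℕ} (hp : p.Prime) {ζ : F} (hζ : IsPrimitiveRoot ζ p) {x : Fˣ}
    {v : HeightOneSpectrum (𝓞 F)} (hv : (p : 𝓞 F) ∉ v.asIdeal) (hx : thetaOrd v x = 0) :
    rkSym p x v = powSymb p v (x : F) := by
  have hxv : v.valuation F (x : F) = 1 := (thetaOrd_eq_zero_iff v x).mp hx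
  have h : ∃ y : Fˣ, v.valuation F ((x : F) * (y : F) ^ p) = 1 :=
    ⟨1, by rw [Units.val_one, one_pow, mul_one, hxv]⟩
  obtain ⟨y, hy, hs⟩ := rkSym_spec h
  rw [hs]
  have hyv : v.valuation F (y : F) = 1 := by
    rw [map_mul, hxv, one_mul, map_pow] at hy
    exact (pow_eq_one_iff_left hp.ne_zero).mp hy
  exact rk_powSymb_mul_pow hp hζ v hv hxv hyv

/-- A set containing the primes above `p ≥ 2` is nonempty. -/
lemma rk_nonempty {p : ℕ} (hp : 2 ≤ p) {T : Finset (HeightOneSpectrum (𝓞 F))}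
    (hT : ContainsPrimesAbove F p T) : T.Nonempty := by
  have hne : Ideal.span {(p : 𝓞 F)} ≠ ⊤ := by
    intro h
    have h1 : Ideal.absNorm (Ideal.span {(p : 𝓞 F)}) = 1 := by rw [h, Ideal.absNorm_top]
    rw [Ideal.absNorm_span_natCast] at h1
    have hpos : 0 < Module.finrank ℤ (𝓞 F) := Module.finrank_pos
    have : p = 1 := by
      rcases Nat.pow_eq_one.mp h1 with h | h
      · exact h
      · omega
    omega
  obtain ⟨P, hPmax, hP⟩ := Ideal.exists_le_maximal _ hne
  have hP0 : P ≠ ⊥ := by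
    intro h0
    have h1 : (p : 𝓞 F) ∈ P := hP (Ideal.mem_span_singleton_self _)
    rw [h0, Ideal.mem_bot] at h1
    have : (p : 𝓞 F) ≠ 0 := by
      have : p ≠ 0 := by omega
      exact_mod_cast this
    exact this h1
  exact ⟨⟨P, hPmax.isPrime, hP0⟩, hT _ (hP (Ideal.mem_span_singleton_self _))⟩

/-- The modulus is contained in every prime of `T`. -/
lemma rk_modT_le {T : Finset (HeightOneSpectrum (𝓞 F))} {k : ℕ} (hk : 1 ≤ k)
    {v : HeightOneSpectrum (𝓞 F)} (hv : v ∈ T) : modT T k ≤ v.asIdeal := by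
  unfold modT
  exact (Ideal.le_of_dvd (Finset.dvd_prod_of_mem _ hv)).trans (Ideal.pow_le_self (by omega))

/-- An ideal prime to the modulus is not contained in a prime of `T`. -/
lemma rk_not_le_of_sup_eq_top {T : Finset (HeightOneSpectrum (𝓞 F))} {k : ℕ} (hk : 1 ≤ k)
    {I : Ideal (𝓞 F)} (hI : I ⊔ modT T k = ⊤) {v : HeightOneSpectrum (𝓞 F)} (hv : v ∈ T) :
    ¬ I ≤ v.asIdeal := by
  intro hle
  have h1 : (⊤ : Ideal (𝓞 F)) ≤ v.asIdeal := hI ▸ sup_le hle (rk_modT_le hk hv)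
  exact v.isPrime.ne_top (top_le_iff.mp h1)

end sym

/-! ### The Artin map of the Kummer extension `M = F(x^{1/p})` -/

section kummerArtin

open Polynomial

variable {F M : Type} [Field F] [NumberField F] [Field M] [NumberField M] [Algebra F M]
  [IsGalois F M] {p : ℕ} [NeZero p] {x : Fˣ} [IsSplittingField F M (X ^ p - C (x : F))]

/-- `F(x^{1/p})/F` is unramified outside `T ⊇ {v ∣ p}` if `p ∣ ord_v x` for `v ∉ T`. -/
theorem rk_unramOutside (hp : p.Prime) {ζ : F} (hζ : IsPrimitiveRoot ζ p)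
    (hprim : (primitiveRoots p F).Nonempty) (H : Irreducible (X ^ p - C (x : F) : F[X]))
    {α : M} (hα : α ^ p = algebraMap F M (x : F))
    {T : Finset (HeightOneSpectrum (𝓞 F))} (hT : ContainsPrimesAbove F p T)
    (hx : ∀ v ∉ T, (p : ℤ) ∣ thetaOrd v x) : UnramOutside F M T := by
  intro Q hQ hQ0 hQT σ hσ
  have hu0 : Q.under (𝓞 F) ≠ ⊥ := Ideal.under_ne_bot (𝓞 F) hQ0
  set v : HeightOneSpectrum (𝓞 F) := ⟨Q.under (𝓞 F), inferInstance, hu0⟩ with hvdef
  have hvT : v ∉ T := fun h => hQT v h rfl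
  have hpv : (p : 𝓞 F) ∉ v.asIdeal := fun h => hvT (hT v h)
  obtain ⟨y, hy⟩ := rk_exists_unit_mul_pow v x (hx v hvT)
  have hγ : (α * algebraMap F M (y : F)) ^ p = algebraMap F M ((x : F) * (y : F) ^ p) := by
    rw [mul_pow, hα, map_mul, map_pow]
  have hσγ := rk_kappa_apply hprim H hα σ (y : F)
  have hω : (autEquivRootsOfUnity hprim H M σ : Fˣ) ^ p = 1 :=
    (mem_rootsOfUnity p _).mp (autEquivRootsOfUnity hprim H M σ).2
  have h1 := rk_one_of_inertia hp hζ v hpv Q hQ rfl σ hσ hy _ hγ _ hω hσγ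
  have h2 : autEquivRootsOfUnity hprim H M σ = 1 := Subtype.ext h1
  exact (MulEquiv.map_eq_one_iff _).mp h2

variable (M) in
/-- The Artin map of the Kummer extension: the automorphism with Kummer character
`∏_{v ∉ T} s v ^ count_v I`. -/
noncomputable def rkArtin (hprim : (primitiveRoots p F).Nonempty)
    (H : Irreducible (X ^ p - C (x : F) : F[X])) (T : Finset (HeightOneSpectrum (𝓞 F)))
    (I : Ideal (𝓞 F)) : M ≃ₐ[F] M :=
  (autEquivRootsOfUnity hprim H M).symm
    ⟨famW T (rkSym p x) (I : FractionalIdeal (𝓞 F)⁰ F),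
      (mem_rootsOfUnity p _).mpr (famW_pow_eq_one T _ (rkSym_pow p x) _)⟩

theorem rkArtin_mul (hprim : (primitiveRoots p F).Nonempty)
    (H : Irreducible (X ^ p - C (x : F) : F[X])) (T : Finset (HeightOneSpectrum (𝓞 F)))
    {I J : Ideal (𝓞 F)} (hI : I ≠ ⊥) (hJ : J ≠ ⊥) :
    rkArtin M hprim H T (I * J) = rkArtin M hprim H T I * rkArtin M hprim H T J := by
  unfold rkArtin
  rw [← map_mul]
  congr 1
  apply Subtype.ext
  show famW T (rkSym p x) ((I * J : Ideal (𝓞 F)) : FractionalIdeal (𝓞 F)⁰ F) =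
    famW T (rkSym p x) (I : FractionalIdeal (𝓞 F)⁰ F) *
      famW T (rkSym p x) (J : FractionalIdeal (𝓞 F)⁰ F)
  rw [coeIdeal_mul, famW_mul T _ (coeIdeal_ne_zero.mpr hI) (coeIdeal_ne_zero.mpr hJ)]

theorem rkArtin_eq_one (hprim : (primitiveRoots p F).Nonempty)
    (H : Irreducible (X ^ p - C (x : F) : F[X])) (T : Finset (HeightOneSpectrum (𝓞 F)))
    {I : Ideal (𝓞 F)} (h : rkArtin M hprim H T I = 1) :
    famW T (rkSym p x) (I : FractionalIdeal (𝓞 F)⁰ F) = 1 := by
  unfold rkArtin at h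
  rw [MulEquiv.map_eq_one_iff] at h
  exact congrArg Subtype.val h

theorem rkArtin_frob (hp : p.Prime) {ζ : F} (hζ : IsPrimitiveRoot ζ p)
    (hprim : (primitiveRoots p F).Nonempty) (H : Irreducible (X ^ p - C (x : F) : F[X]))
    {α : M} (hα : α ^ p = algebraMap F M (x : F))
    {T : Finset (HeightOneSpectrum (𝓞 F))} (hT : ContainsPrimesAbove F p T)
    (hx : ∀ v ∉ T, (p : ℤ) ∣ thetaOrd v x) {k : ℕ} (hk : 1 ≤ k)
    (Q : Ideal (𝓞 M)) (hQ : Q.IsPrime) (hQ0 : Q ≠ ⊥) (hQT : Q.under (𝓞 F) ⊔ modT T k = ⊤) :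
    IsFrobRel (rkArtin M hprim H T (Q.under (𝓞 F))) Q (Ideal.absNorm (Q.under (𝓞 F))) := by
  have hu0 : Q.under (𝓞 F) ≠ ⊥ := Ideal.under_ne_bot (𝓞 F) hQ0
  set v : HeightOneSpectrum (𝓞 F) := ⟨Q.under (𝓞 F), inferInstance, hu0⟩ with hvdef
  have hvT : v ∉ T := fun h => rk_not_le_of_sup_eq_top hk hQT h le_rfl
  have hpv : (p : 𝓞 F) ∉ v.asIdeal := fun h => hvT (hT v h)
  obtain ⟨y, hy, hs⟩ := rkSym_spec (rk_exists_unit_mul_pow v x (hx v hvT))
  obtain ⟨τ, hτ⟩ := rk_exists_frob (F := F) Q hQ hQ0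
  have hγ : (α * algebraMap F M (y : F)) ^ p = algebraMap F M ((x : F) * (y : F) ^ p) := by
    rw [mul_pow, hα, map_mul, map_pow]
  have hτγ := rk_kappa_apply hprim H hα τ (y : F)
  have hω : (autEquivRootsOfUnity hprim H M τ : Fˣ) ^ p = 1 :=
    (mem_rootsOfUnity p _).mp (autEquivRootsOfUnity hprim H M τ).2
  have h1 := rk_symb_of_frob hp hζ v hpv Q hQ rfl τ hτ hy _ hγ _ hω hτγ
  rw [← hs] at h1
  have h2 : τ = rkArtin M hprim H T (Q.under (𝓞 F)) := by
    unfold rkArtin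
    rw [MulEquiv.eq_symm_apply]
    apply Subtype.ext
    show (autEquivRootsOfUnity hprim H M τ : Fˣ) =
      famW T (rkSym p x) (v.asIdeal : FractionalIdeal (𝓞 F)⁰ F)
    rw [famW_prime T _ hvT, h1]
  rw [← h2]
  exact hτ

end kummerArtin

end Fermat.Agent.F4Kum
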