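import Fermat.Agent.F4.Kum.RecInterface
import Fermat.Agent.F4.Kum.Symbol
import Fermat.Agent.S14.SI.KummerSplits

/-!
# F4 / GLOB / KUM, work package RK: Frobenius elements and inertia in Kummer extensions

`M/F` Galois of prime degree `p`, `ζ_p ∈ F`, `γ ∈ M` with `γ ^ p = u ∈ F`, `u` a unit at the
prime `v ∤ p` of `F`, `Q` a prime of `M` above `v`.

* `rk_exists_frob` : existence of a Frobenius element at `Q`;
* `rk_symb_of_frob` : if `σ` is a Frobenius element at `Q` and `σ γ = ω γ` then `ω = (u / v)_p`;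
* `rk_one_of_inertia` : if `σ` is in the inertia group of `Q` and `σ γ = ω γ` then `ω = 1`.
-/

set_option autoImplicit false
set_option linter.unusedSectionVars false

open NumberField IsDedekindDomain

namespace Fermat.Agent.F4Kum

open Fermat.Agent.S14SI Fermat.Agent.F4Rec
open Fermat.Agent.S14 (InInertia)

section general

variable {F M : Type} [Field F] [NumberField F] [Field M] [NumberField M] [Algebra F M]

/-- Existence of a Frobenius element at a prime `Q` of `M`. -/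
theorem rk_exists_frob [IsGalois F M] (Q : Ideal (𝓞 M)) (hQ : Q.IsPrime) (hQ0 : Q ≠ ⊥) :
    ∃ σ : M ≃ₐ[F] M, IsFrobRel σ Q (Ideal.absNorm (Q.under (𝓞 F))) := by
  have : Finite (𝓞 M ⧸ Q) := Ideal.finiteQuotientOfFreeOfNeBot Q hQ0
  obtain ⟨σ, hσ⟩ := IsArithFrobAt.exists_of_isInvariant (𝓞 F) (M ≃ₐ[F] M) Q
  refine ⟨σ, fun x => ?_⟩
  have h := hσ x
  have hcard : Nat.card (𝓞 F ⧸ Q.under (𝓞 F)) = Ideal.absNorm (Q.under (𝓞 F)) := by
    rw [Ideal.absNorm_apply, Submodule.cardQuot_apply]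
  rw [hcard] at h
  exact ⟨_, h, rfl⟩

/-- A `p`-th root of unity of `F`, as an integer. -/
lemma rk_root_int {p : ℕ} (hp : p ≠ 0) {ω : Fˣ} (hω : ω ^ p = 1) :
    ∃ w : 𝓞 F, (w : F) = (ω : F) := by
  have h1 : IsIntegral ℤ ((ω : F) ^ p) := by
    rw [← Units.val_pow_eq_pow_val, hω, Units.val_one]
    exact isIntegral_one
  have h2 : IsIntegral ℤ (ω : F) := IsIntegral.of_pow (Nat.pos_of_ne_zero hp) h1
  exact ⟨⟨(ω : F), h2⟩, rfl⟩

/-- The core congruence: if `t * β ∈ Q` with `t ∈ 𝓞 F` and `β ∉ Q` then `t ∈ Q ∩ 𝓞 F`. -/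
lemma rk_core (v : HeightOneSpectrum (𝓞 F)) (Q : Ideal (𝓞 M)) (hQ : Q.IsPrime)
    (hQv : Q.under (𝓞 F) = v.asIdeal) (β : 𝓞 M) (hβQ : β ∉ Q) (t : 𝓞 F) (y : 𝓞 M) (hy : y ∈ Q)
    (h : algebraMap F M (t : F) * (β : M) = (y : M)) : t ∈ v.asIdeal := by
  have h1 : algebraMap (𝓞 F) (𝓞 M) t * β = y := by
    apply RingOfIntegers.ext
    rw [← h]
    rfl
  have h2 : algebraMap (𝓞 F) (𝓞 M) t * β ∈ Q := h1 ▸ hy
  rcases hQ.mem_or_mem h2 with h3 | h3
  · rw [← hQv, Ideal.under_def, Ideal.mem_comap]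
    exact h3
  · exact absurd h3 hβQ

/-- If `β ^ p = c` with `c ∉ v` then `β ∉ Q`. -/
lemma rk_notMem (v : HeightOneSpectrum (𝓞 F)) (Q : Ideal (𝓞 M))
    (hQv : Q.under (𝓞 F) = v.asIdeal) {p : ℕ} (hp : p ≠ 0) (β : 𝓞 M) (c : 𝓞 F)
    (hc : c ∉ v.asIdeal) (hβ : (β : M) ^ p = algebraMap F M (c : F)) : β ∉ Q := by
  intro hβQ
  apply hc
  have h1 : β ^ p = algebraMap (𝓞 F) (𝓞 M) c := by
    apply RingOfIntegers.ext
    show (β : M) ^ p = algebraMap F M (c : F)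
    exact hβ
  have h2 : algebraMap (𝓞 F) (𝓞 M) c ∈ Q := by
    rw [← h1]
    exact Ideal.pow_mem_of_mem Q hβQ p (Nat.pos_of_ne_zero hp)
  rw [← hQv, Ideal.under_def, Ideal.mem_comap]
  exact h2

/-- **Dictionary, integral form**: if `σ` is a Frobenius element at `Q ∣ v`, `β ^ p = c ∉ v` and
`σ β = ω β` then `(c / v)_p = ω`. -/
theorem rk_symb_of_frob_int {p : ℕ} (hp : p.Prime) {ζ : F} (hζ : IsPrimitiveRoot ζ p)
    (v : HeightOneSpectrum (𝓞 F)) (hv : (p : 𝓞 F) ∉ v.asIdeal)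
    (Q : Ideal (𝓞 M)) (hQ : Q.IsPrime) (hQv : Q.under (𝓞 F) = v.asIdeal)
    (σ : M ≃ₐ[F] M) (hσ : IsFrobRel σ Q (Ideal.absNorm v.asIdeal))
    (β : 𝓞 M) (c : 𝓞 F) (hc : c ∉ v.asIdeal) (hβ : (β : M) ^ p = algebraMap F M (c : F))
    (ω : Fˣ) (hω : ω ^ p = 1) (hσβ : σ (β : M) = algebraMap F M (ω : F) * (β : M)) :
    powSymb p v (c : F) = ω := by
  have hβQ : β ∉ Q := rk_notMem v Q hQv hp.ne_zero β c hc hβ
  obtain ⟨w, hw⟩ := rk_root_int hp.ne_zero hω
  obtain ⟨y, hyQ, hy⟩ := hσ β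
  obtain ⟨hnp, -⟩ := symb_exp_mul v hp hζ hv
  have hN : 1 ≤ Ideal.absNorm v.asIdeal := by
    rw [Nat.one_le_iff_ne_zero]
    intro h0
    rw [Ideal.absNorm_eq_zero_iff] at h0
    exact v.ne_bot h0
  have hN' : Ideal.absNorm v.asIdeal = symbExp p v * p + 1 := by omega
  have hpow : (β : M) ^ Ideal.absNorm v.asIdeal
      = algebraMap F M ((c : F) ^ symbExp p v) * (β : M) := by
    rw [hN', pow_succ, mul_comm (symbExp p v) p, pow_mul, hβ, map_pow]
  have hcv : v.valuation F (c : F) = 1 := (v.valuation_eq_one_iff_notMem).mpr hc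
  refine powSymb_eq_of v hp hζ hv hcv hω ?_
  rw [Valuation.map_sub_swap]
  have e1 : ((w - c ^ symbExp p v : 𝓞 F) : F) = (ω : F) - (c : F) ^ symbExp p v := by
    rw [← hw]
    push_cast
    rfl
  have key : w - c ^ symbExp p v ∈ v.asIdeal := by
    refine rk_core v Q hQ hQv β hβQ (w - c ^ symbExp p v) y hyQ ?_
    rw [← hy, hσβ, hpow, e1, map_sub, sub_mul]
  have h3 : v.valuation F ((w - c ^ symbExp p v : 𝓞 F) : F) < 1 :=
    (v.valuation_lt_one_iff_mem (K := F) _).mpr key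
  rwa [e1] at h3

/-- **Inertia, integral form**: if `σ` is in the inertia group of `Q ∣ v`, `β ^ p = c ∉ v` and
`σ β = ω β` then `ω = 1`. -/
theorem rk_one_of_inertia_int {p : ℕ} (hp : p.Prime) {ζ : F} (hζ : IsPrimitiveRoot ζ p)
    (v : HeightOneSpectrum (𝓞 F)) (hv : (p : 𝓞 F) ∉ v.asIdeal)
    (Q : Ideal (𝓞 M)) (hQ : Q.IsPrime) (hQv : Q.under (𝓞 F) = v.asIdeal)
    (σ : M ≃ₐ[F] M) (hσ : InInertia σ Q)
    (β : 𝓞 M) (c : 𝓞 F) (hc : c ∉ v.asIdeal) (hβ : (β : M) ^ p = algebraMap F M (c : F))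
    (ω : Fˣ) (hω : ω ^ p = 1) (hσβ : σ (β : M) = algebraMap F M (ω : F) * (β : M)) :
    ω = 1 := by
  have hβQ : β ∉ Q := rk_notMem v Q hQv hp.ne_zero β c hc hβ
  obtain ⟨w, hw⟩ := rk_root_int hp.ne_zero hω
  obtain ⟨y, hyQ, hy⟩ := hσ β
  refine symb_root_unique v hp hζ hv hω (one_pow p) ?_
  have e1 : ((w - 1 : 𝓞 F) : F) = (ω : F) - ((1 : Fˣ) : F) := by
    rw [← hw, Units.val_one]
    push_cast
    rfl
  have key : w - 1 ∈ v.asIdeal := by
    refine rk_core v Q hQ hQv β hβQ (w - 1) y hyQ ?_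
    rw [← hy, hσβ, e1, Units.val_one, map_sub, sub_mul, map_one, one_mul]
  have h3 : v.valuation F ((w - 1 : 𝓞 F) : F) < 1 :=
    (v.valuation_lt_one_iff_mem (K := F) _).mpr key
  rwa [e1] at h3

/-- Clearing denominators: for `γ ^ p = u`, `u` a `v`-unit, there are `d ∈ 𝓞 F ∖ v`, `β ∈ 𝓞 M`,
`c ∈ 𝓞 F ∖ v` with `β = γ d`, `c = u d ^ p`. -/
lemma rk_clear {p : ℕ} (hp : p ≠ 0) (v : HeightOneSpectrum (𝓞 F)) {u : F}
    (hu : v.valuation F u = 1) (γ : M) (hγ : γ ^ p = algebraMap F M u) :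
    ∃ (d : 𝓞 F) (β : 𝓞 M) (c : 𝓞 F), d ∉ v.asIdeal ∧ c ∉ v.asIdeal ∧
      (β : M) = γ * algebraMap F M (d : F) ∧ (c : F) = u * (d : F) ^ p := by
  obtain ⟨n, ⟨d, hd⟩, h⟩ := v.exists_primeCompl_mul_eq_of_integer (K := F) u hu.le
  have hd' : d ∉ v.asIdeal := hd
  have hdv : v.valuation F (d : F) = 1 := (v.valuation_eq_one_iff_notMem).mpr hd'
  have h' : u * (d : F) = (n : F) := h
  obtain ⟨q, rfl⟩ : ∃ q, p = q + 1 := Nat.exists_eq_succ_of_ne_zero hp
  have hc : ((n * d ^ q : 𝓞 F) : F) = u * (d : F) ^ (q + 1) := by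
    have : ((n * d ^ q : 𝓞 F) : F) = (n : F) * (d : F) ^ q := by
      push_cast
      rfl
    rw [this, ← h', pow_succ]
    ring
  have hcv : v.valuation F ((n * d ^ q : 𝓞 F) : F) = 1 := by
    rw [hc, map_mul, map_pow, hu, hdv, one_pow, one_mul]
  have hint : IsIntegral ℤ (γ * algebraMap F M (d : F)) := by
    refine IsIntegral.of_pow (Nat.succ_pos q) ?_
    rw [mul_pow, hγ, ← map_pow, ← map_mul, ← hc]
    have h1 : IsIntegral ℤ ((n * d ^ q : 𝓞 F) : F) := RingOfIntegers.isIntegral_coe _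
    exact h1.map (IsScalarTower.toAlgHom ℤ F M)
  exact ⟨d, ⟨_, hint⟩, n * d ^ q, hd', (v.valuation_eq_one_iff_notMem).mp hcv, rfl, hc⟩

/-- The symbol of `u * d ^ p`. -/
lemma rk_powSymb_mul_pow {p : ℕ} (hp : p.Prime) {ζ : F} (hζ : IsPrimitiveRoot ζ p)
    (v : HeightOneSpectrum (𝓞 F)) (hv : (p : 𝓞 F) ∉ v.asIdeal) {u d : F}
    (hu : v.valuation F u = 1) (hd : v.valuation F d = 1) :
    powSymb p v (u * d ^ p) = powSymb p v u := by
  have hdp : v.valuation F (d ^ p) = 1 := by rw [map_pow, hd, one_pow]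
  rw [powSymb_mul v hp hζ hv hu hdp, powSymb_pow_nat v hp hζ hv hd, powSymb_pow, mul_one]

/-- **Dictionary**: if `σ` is a Frobenius element at `Q ∣ v`, `γ ^ p = u` a `v`-unit and
`σ γ = ω γ` then `(u / v)_p = ω`. -/
theorem rk_symb_of_frob {p : ℕ} (hp : p.Prime) {ζ : F} (hζ : IsPrimitiveRoot ζ p)
    (v : HeightOneSpectrum (𝓞 F)) (hv : (p : 𝓞 F) ∉ v.asIdeal)
    (Q : Ideal (𝓞 M)) (hQ : Q.IsPrime) (hQv : Q.under (𝓞 F) = v.asIdeal)
    (σ : M ≃ₐ[F] M) (hσ : IsFrobRel σ Q (Ideal.absNorm v.asIdeal))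
    {u : F} (hu : v.valuation F u = 1) (γ : M) (hγ : γ ^ p = algebraMap F M u)
    (ω : Fˣ) (hω : ω ^ p = 1) (hσγ : σ γ = algebraMap F M (ω : F) * γ) :
    powSymb p v u = ω := by
  obtain ⟨d, β, c, hd, hc, hβ, hcu⟩ := rk_clear hp.ne_zero v hu γ hγ
  have hdv : v.valuation F (d : F) = 1 := (v.valuation_eq_one_iff_notMem).mpr hd
  have h1 : (β : M) ^ p = algebraMap F M (c : F) := by
    rw [hβ, mul_pow, hγ, hcu, map_mul, map_pow]
  have h2 : σ (β : M) = algebraMap F M (ω : F) * (β : M) := by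
    rw [hβ, map_mul, hσγ, AlgEquiv.commutes, mul_assoc]
  have h3 := rk_symb_of_frob_int hp hζ v hv Q hQ hQv σ hσ β c hc h1 ω hω h2
  rw [hcu, rk_powSymb_mul_pow hp hζ v hv hu hdv] at h3
  exact h3

/-- **Inertia**: if `σ` is in the inertia group of `Q ∣ v`, `γ ^ p = u` a `v`-unit and
`σ γ = ω γ` then `ω = 1`. -/
theorem rk_one_of_inertia {p : ℕ} (hp : p.Prime) {ζ : F} (hζ : IsPrimitiveRoot ζ p)
    (v : HeightOneSpectrum (𝓞 F)) (hv : (p : 𝓞 F) ∉ v.asIdeal)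
    (Q : Ideal (𝓞 M)) (hQ : Q.IsPrime) (hQv : Q.under (𝓞 F) = v.asIdeal)
    (σ : M ≃ₐ[F] M) (hσ : InInertia σ Q)
    {u : F} (hu : v.valuation F u = 1) (γ : M) (hγ : γ ^ p = algebraMap F M u)
    (ω : Fˣ) (hω : ω ^ p = 1) (hσγ : σ γ = algebraMap F M (ω : F) * γ) :
    ω = 1 := by
  obtain ⟨d, β, c, hd, hc, hβ, hcu⟩ := rk_clear hp.ne_zero v hu γ hγ
  have h1 : (β : M) ^ p = algebraMap F M (c : F) := by
    rw [hβ, mul_pow, hγ, hcu, map_mul, map_pow]
  have h2 : σ (β : M) = algebraMap F M (ω : F) * (β : M) := by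
    rw [hβ, map_mul, hσγ, AlgEquiv.commutes, mul_assoc]
  exact rk_one_of_inertia_int hp hζ v hv Q hQ hQv σ hσ β c hc h1 ω hω h2

/-- An element of order divisible by `p` at `v` becomes a `v`-unit after multiplication by a
`p`-th power. -/
lemma rk_exists_unit_mul_pow {p : ℕ} (v : HeightOneSpectrum (𝓞 F)) (x : Fˣ)
    (hx : (p : ℤ) ∣ thetaOrd v x) :
    ∃ y : Fˣ, v.valuation F ((x : F) * (y : F) ^ p) = 1 := by
  obtain ⟨m, hm⟩ := hx
  obtain ⟨π, hπ⟩ := v.valuation_exists_uniformizer F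
  have hπ0 : π ≠ 0 := by
    intro h0
    rw [h0, map_zero] at hπ
    exact WithZero.exp_ne_zero hπ.symm
  refine ⟨(Units.mk0 π hπ0) ^ m, ?_⟩
  rw [map_mul, map_pow, thetaOrd_valuation, hm, Units.val_zpow_eq_zpow_val, map_zpow₀,
    Units.val_mk0, hπ, ← WithZero.exp_zsmul, ← WithZero.exp_nsmul, ← WithZero.exp_add]
  rw [← WithZero.exp_zero]
  congr 1
  simp only [smul_eq_mul, nsmul_eq_mul]
  ring

end general

/-! ### The Kummer extension and its Kummer character -/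

section kummer

open Polynomial

/-- **The Kummer extension as a package**, with the splitting field property. -/
theorem rk_exists_kummer {F : Type} [Field F] [NumberField F] {p : ℕ} (hp : p.Prime) {ζ : F}
    (hζ : IsPrimitiveRoot ζ p) {a : F} (ha : ∀ b : F, b ^ p ≠ a) :
    ∃ (M : Type) (_ : Field M) (_ : NumberField M) (_ : Algebra F M) (_ : IsGalois F M)
      (_ : IsSplittingField F M (X ^ p - C a)) (α : M),
      Module.finrank F M = p ∧ α ^ p = algebraMap F M a := by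
  have H : Irreducible (X ^ p - C a : F[X]) := X_pow_sub_C_irreducible_of_prime hp ha
  have hfact : Fact (Irreducible (X ^ p - C a : F[X])) := ⟨H⟩
  have hprim : (primitiveRoots p F).Nonempty :=
    ⟨ζ, (mem_primitiveRoots hp.pos).mpr hζ⟩
  have hsplit := isSplittingField_AdjoinRoot_X_pow_sub_C hprim H
  have hgal : IsGalois F (AdjoinRoot (X ^ p - C a : F[X])) :=
    isGalois_of_isSplittingField_X_pow_sub_C hprim H _
  have hfr : Module.finrank F (AdjoinRoot (X ^ p - C a : F[X])) = p :=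
    finrank_of_isSplittingField_X_pow_sub_C hprim H _
  have hfd : FiniteDimensional F (AdjoinRoot (X ^ p - C a : F[X])) :=
    Polynomial.IsSplittingField.finiteDimensional _ (X ^ p - C a : F[X])
  have hnf : NumberField (AdjoinRoot (X ^ p - C a : F[X])) := NumberField.of_module_finite F _
  exact ⟨AdjoinRoot (X ^ p - C a : F[X]), inferInstance, hnf, inferInstance, hgal, hsplit,
    AdjoinRoot.root _, hfr, root_X_pow_sub_C_pow p a⟩

variable {F M : Type} [Field F] [Field M] [Algebra F M] {p : ℕ} [NeZero p] {a : F}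
  [IsSplittingField F M (X ^ p - C a)]

/-- The Kummer character `κ : Gal(M/F) ≃ μ_p(F)` acts on every `γ = α y`, `α ^ p = a`. -/
theorem rk_kappa_apply (hprim : (primitiveRoots p F).Nonempty)
    (H : Irreducible (X ^ p - C a : F[X])) {α : M} (hα : α ^ p = algebraMap F M a)
    (σ : M ≃ₐ[F] M) (y : F) :
    σ (α * algebraMap F M y) = algebraMap F M (((autEquivRootsOfUnity hprim H M σ : Fˣ) : F)) *
      (α * algebraMap F M y) := by
  have h := autEquivRootsOfUnity_smul hprim H M hα σ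
  have h' : autEquivRootsOfUnity hprim H M σ • α =
      algebraMap F M (((autEquivRootsOfUnity hprim H M σ : Fˣ) : F)) * α := by
    rw [← Algebra.smul_def]
    rfl
  rw [map_mul, AlgEquiv.commutes, ← h, h', mul_assoc]

/-- An element of `Gal(M/F)` is determined by its Kummer character. -/
theorem rk_eq_of_kappa (hprim : (primitiveRoots p F).Nonempty)
    (H : Irreducible (X ^ p - C a : F[X])) (σ : M ≃ₐ[F] M) (ω : Fˣ) (hω : ω ^ p = 1)
    (h : ((autEquivRootsOfUnity hprim H M σ : Fˣ)) = ω) :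
    σ = (autEquivRootsOfUnity hprim H M).symm ⟨ω, (mem_rootsOfUnity p ω).mpr hω⟩ := by
  rw [MulEquiv.eq_symm_apply]
  exact Subtype.ext h

end kummer

end Fermat.Agent.F4Kum
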